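import Fermat.Agent.TwoAdic.Count.NewEigen

/-!
# The decomposition into `q`-old and `q`-new eigen classes

For `q ∤ L` the two transfers map the eigen part of level `L * q` onto two copies of that of
level `L`, because `T_q ± (q + 1)` is injective; the kernel is the part with `U_q ^ 2 = 1`.
-/

set_option autoImplicit false

noncomputable section

open CongruenceSubgroup ModularCurve ModularCurve.Period Module
open Fermat.Agent.Periods Fermat.Agent.LevelRaise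
open scoped MatrixGroups

namespace Fermat.Agent.TwoAdic.Count

variable {L0 : ℕ} {c : ℕ → ℂ} {L q : ℕ} {B : Finset ℕ}

theorem smul_eq_smulHom_comp {Γ : Type*} [AddZeroClass Γ] (z : ℂ) (φ : Γ →+ ℂ) :
    z • φ = (DistribSMul.toAddMonoidHom ℂ z).comp φ :=
  AddMonoidHom.ext fun _ => rfl

theorem natCast_smul_hom {L : ℕ} (n : ℕ) (φ : Additive (Gamma0 L) →+ ℂ) :
    n • φ = (n : ℂ) • φ :=
  AddMonoidHom.ext fun _ => nsmul_eq_mul n _

/-- A map between homomorphism groups commuting with the Hecke operators away from `q` preserves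
the eigen parts. -/
theorem map_mem_newEigenHoms {L₁ L₂ : ℕ} (hq0 : q ∣ L0) (hqB : q ∉ B)
    (D : (Additive (Gamma0 L₁) →+ ℂ) →ₗ[ℤ] (Additive (Gamma0 L₂) →+ ℂ))
    (hsmul : ∀ (z : ℂ) φ, D (z • φ) = z • D φ)
    (hpar : ∀ φ ∈ cuspidalHoms ℤ (Gamma0 L₁) ℂ, D φ ∈ cuspidalHoms ℤ (Gamma0 L₂) ℂ)
    (hcomm : ∀ (ℓ : ℕ) (hℓ : ℓ.Prime), ℓ ≠ q → ∀ φ, D (heckeHom ℤ ℂ hℓ φ) = heckeHom ℤ ℂ hℓ (D φ))
    {φ : Additive (Gamma0 L₁) →+ ℂ} (hφ : φ ∈ newEigenHoms L0 c L₁ B) :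
    D φ ∈ newEigenHoms L0 c L₂ B := by
  have hcomm' : ∀ (ℓ : ℕ) (hℓ : ℓ.Prime), ℓ ≠ q → ∀ φ, heckeHom ℂ ℂ hℓ (D φ) = D (heckeHom ℂ ℂ hℓ φ) :=
    fun ℓ hℓ h φ => (hcomm ℓ hℓ h φ).symm
  refine ⟨?_, fun ℓ hℓ hL => ?_, fun p hpB hp => ?_⟩
  · have h1 := hφ.1
    rw [parabolicHoms_eq_cuspidalHoms] at h1 ⊢
    exact hpar φ h1
  · have hne : ℓ ≠ q := fun h => hL (h ▸ hq0)
    rw [hcomm' ℓ hℓ hne, hφ.2.1 ℓ hℓ hL, hsmul]
  · have hne : p ≠ q := fun h => hqB (h ▸ hpB)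
    rw [hcomm' p hp hne, hcomm' p hp hne, hφ.2.2 p hpB hp]

variable (hq : q.Prime) (hqL : ¬ q ∣ L)

theorem degRes_smul (z : ℂ) (φ : Additive (Gamma0 L) →+ ℂ) :
    degRes L q ℂ (z • φ) = z • degRes L q ℂ φ := by
  rw [smul_eq_smulHom_comp, smul_eq_smulHom_comp, degRes_comp]

theorem degBeta_smul (z : ℂ) (φ : Additive (Gamma0 L) →+ ℂ) :
    degBeta L q ℂ (z • φ) = z • degBeta L q ℂ φ := by
  rw [smul_eq_smulHom_comp, smul_eq_smulHom_comp, degBeta_comp]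

theorem degTr_smul (z : ℂ) (x : Additive (Gamma0 (L * q)) →+ ℂ) :
    degTr L ℂ hq hqL (z • x) = z • degTr L ℂ hq hqL x := by
  rw [smul_eq_smulHom_comp, smul_eq_smulHom_comp, degTr_comp]

theorem degTr'_smul (z : ℂ) (x : Additive (Gamma0 (L * q)) →+ ℂ) :
    degTr' L ℂ hq hqL (z • x) = z • degTr' L ℂ hq hqL x := by
  rw [smul_eq_smulHom_comp, smul_eq_smulHom_comp, degTr'_comp]

variable (hq0 : q ∣ L0) (hqB : q ∉ B)
include hq hq0 hqB

theorem degRes_mem_newEigenHoms {φ : Additive (Gamma0 L) →+ ℂ}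
    (hφ : φ ∈ newEigenHoms L0 c L B) : degRes L q ℂ φ ∈ newEigenHoms L0 c (L * q) B :=
  map_mem_newEigenHoms hq0 hqB _ degRes_smul (fun _ h => degRes_mem_cuspidalHoms h)
    (fun _ hℓ h => degRes_heckeHom hq hℓ h) hφ

theorem degBeta_mem_newEigenHoms {φ : Additive (Gamma0 L) →+ ℂ}
    (hφ : φ ∈ newEigenHoms L0 c L B) : degBeta L q ℂ φ ∈ newEigenHoms L0 c (L * q) B :=
  map_mem_newEigenHoms hq0 hqB _ degBeta_smul (fun _ h => degBeta_mem_cuspidalHoms h)
    (fun _ hℓ h => degBeta_heckeHom hq hℓ h) hφ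

theorem degTr_mem_newEigenHoms {x : Additive (Gamma0 (L * q)) →+ ℂ}
    (hx : x ∈ newEigenHoms L0 c (L * q) B) : degTr L ℂ hq hqL x ∈ newEigenHoms L0 c L B :=
  map_mem_newEigenHoms hq0 hqB _ (degTr_smul hq hqL) (fun _ h => degTr_mem_cuspidalHoms hq hqL h)
    (fun _ hℓ h => degTr_heckeHom hq hqL hℓ h) hx

theorem degTr'_mem_newEigenHoms {x : Additive (Gamma0 (L * q)) →+ ℂ}
    (hx : x ∈ newEigenHoms L0 c (L * q) B) : degTr' L ℂ hq hqL x ∈ newEigenHoms L0 c L B :=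
  map_mem_newEigenHoms hq0 hqB _ (degTr'_smul hq hqL) (fun _ h => degTr'_mem_cuspidalHoms hq hqL h)
    (fun _ hℓ h => degTr'_heckeHom hq hqL hℓ h) hx

/-- The two transfers, on eigen parts. -/
def trPair : newEigenHoms L0 c (L * q) B →ₗ[ℂ] newEigenHoms L0 c L B × newEigenHoms L0 c L B where
  toFun x := (⟨_, degTr_mem_newEigenHoms hq hqL hq0 hqB x.2⟩,
    ⟨_, degTr'_mem_newEigenHoms hq hqL hq0 hqB x.2⟩)
  map_add' _ _ := Prod.ext (Subtype.ext (map_add _ _ _)) (Subtype.ext (map_add _ _ _))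
  map_smul' z _ := Prod.ext (Subtype.ext (degTr_smul hq hqL z _)) (Subtype.ext (degTr'_smul hq hqL z _))

/-- The sum of the two degeneracy maps, on eigen parts. -/
def degPair : newEigenHoms L0 c L B × newEigenHoms L0 c L B →ₗ[ℂ] newEigenHoms L0 c (L * q) B where
  toFun p := ⟨degRes L q ℂ p.1 + degBeta L q ℂ p.2,
    add_mem (degRes_mem_newEigenHoms hq hq0 hqB p.1.2) (degBeta_mem_newEigenHoms hq hq0 hqB p.2.2)⟩
  map_add' p p' := Subtype.ext (by
    simp only [Prod.fst_add, Prod.snd_add, Submodule.coe_add, map_add]; abel)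
  map_smul' z p := Subtype.ext (by
    simp only [Prod.smul_fst, Prod.smul_snd, SetLike.val_smul, degRes_smul, degBeta_smul,
      RingHom.id_apply, smul_add])

omit hq0 hqB in
/-- The matrix `[[q + 1, T_q], [T_q, q + 1]]` is injective on parabolic classes. -/
theorem eq_zero_of_pair [NeZero L] {a b : Additive (Gamma0 L) →+ ℂ}
    (ha : a ∈ parabolicHoms ℂ (Gamma0 L) ℂ) (hb : b ∈ parabolicHoms ℂ (Gamma0 L) ℂ)
    (h1 : ((q : ℂ) + 1) • a + heckeHom ℂ ℂ hq b = 0)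
    (h2 : heckeHom ℂ ℂ hq a + ((q : ℂ) + 1) • b = 0) (hqL : ¬ q ∣ L) : a = 0 ∧ b = 0 := by
  have hnorm : ‖((q : ℂ) + 1)‖ = (q : ℝ) + 1 := by
    rw [← Nat.cast_one, ← Nat.cast_add, Complex.norm_natCast]; push_cast; ring
  have hp : a + b = 0 := by
    refine eq_zero_of_heckeHom_eq_smul hq hqL (a := -((q : ℂ) + 1)) (by rw [norm_neg, hnorm])
      (add_mem ha hb) ?_
    rw [map_add, eq_neg_of_add_eq_zero_left h2, eq_neg_of_add_eq_zero_right h1, neg_smul, smul_add]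
    abel
  have hm : a - b = 0 := by
    refine eq_zero_of_heckeHom_eq_smul hq hqL (a := ((q : ℂ) + 1)) hnorm.ge (sub_mem ha hb) ?_
    rw [map_sub, eq_neg_of_add_eq_zero_left h2, eq_neg_of_add_eq_zero_right h1, smul_sub]
    abel
  obtain rfl := sub_eq_zero.1 hm
  have : (2 : ℂ) • a = 0 := by rwa [two_smul]
  have := (smul_eq_zero.1 this).resolve_left two_ne_zero
  exact ⟨this, this⟩

theorem trPair_degPair (p : newEigenHoms L0 c L B × newEigenHoms L0 c L B) :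
    ((trPair hq hqL hq0 hqB (degPair hq hq0 hqB p)).1 : Additive (Gamma0 L) →+ ℂ) =
        ((q : ℂ) + 1) • (p.1 : Additive (Gamma0 L) →+ ℂ) + heckeHom ℂ ℂ hq p.2 ∧
      ((trPair hq hqL hq0 hqB (degPair hq hq0 hqB p)).2 : Additive (Gamma0 L) →+ ℂ) =
        heckeHom ℂ ℂ hq p.1 + ((q : ℂ) + 1) • (p.2 : Additive (Gamma0 L) →+ ℂ) := by
  constructor
  · show degTr L ℂ hq hqL (degRes L q ℂ _ + degBeta L q ℂ _) = _
    rw [map_add, degTr_degRes, degTr_degBeta, natCast_smul_hom]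
    push_cast
    rfl
  · show degTr' L ℂ hq hqL (degRes L q ℂ _ + degBeta L q ℂ _) = _
    rw [map_add, degTr'_degRes, degTr'_degBeta, natCast_smul_hom]
    push_cast
    rfl

theorem trPair_degPair_bijective [NeZero L] :
    Function.Bijective ((trPair (L := L) (c := c) hq hqL hq0 hqB).comp (degPair hq hq0 hqB)) := by
  have := finite_newEigenHoms (L0 := L0) (c := c) (L := L) (B := B)
  have hinj : Function.Injective ((trPair (L := L) (c := c) hq hqL hq0 hqB).comp (degPair hq hq0 hqB)) := by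
    rw [injective_iff_map_eq_zero]
    intro p hp
    obtain ⟨h1, h2⟩ := trPair_degPair hq hqL hq0 hqB p
    rw [LinearMap.comp_apply] at hp
    rw [hp] at h1 h2
    obtain ⟨e1, e2⟩ := eq_zero_of_pair hq p.1.2.1 p.2.2.1 h1.symm h2.symm hqL
    exact Prod.ext (Subtype.ext e1) (Subtype.ext e2)
  exact ⟨hinj, LinearMap.surjective_of_injective hinj⟩

omit hq0 hqB in
theorem eq_zero_of_sq_relations [NeZero L] (hqL : ¬ q ∣ L) {φ ψ : Additive (Gamma0 L) →+ ℂ}
    (hφ : φ ∈ parabolicHoms ℂ (Gamma0 L) ℂ)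
    (h1 : heckeHom ℂ ℂ hq (heckeHom ℂ ℂ hq φ) + (q : ℂ) • heckeHom ℂ ℂ hq ψ - ((q : ℂ) + 1) • φ = 0)
    (h2 : heckeHom ℂ ℂ hq φ + ((q : ℂ) + 1) • ψ = 0) : φ = 0 ∧ ψ = 0 := by
  have hnorm : (q : ℝ) + 1 ≤ ‖((q : ℂ) + 1)‖ := by
    rw [show ((q : ℂ) + 1) = ((q + 1 : ℕ) : ℂ) by push_cast; rfl, Complex.norm_natCast]
    push_cast; rfl
  have h3 := congrArg (heckeHom ℂ ℂ hq) h2
  rw [map_add, map_smul, map_zero] at h3
  have h4 : heckeHom ℂ ℂ hq φ + ((q : ℂ) + 1) • φ = 0 := by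
    refine eq_zero_of_heckeHom_eq_smul hq hqL hnorm
      (add_mem (heckeHom_mem_parabolicHoms hq hφ) (Submodule.smul_mem _ _ hφ)) ?_
    rw [map_add, map_smul]
    linear_combination (norm := module) ((q : ℂ) + 1) • h1 - (q : ℂ) • h3
  obtain rfl := eq_zero_of_heckeHom_eq_smul hq hqL (a := -((q : ℂ) + 1)) (by rwa [norm_neg]) hφ
    (by rw [neg_smul]; exact eq_neg_of_add_eq_zero_left h4)
  refine ⟨rfl, ?_⟩
  rw [map_zero, zero_add, smul_eq_zero] at h2
  exact h2.resolve_left (by exact_mod_cast Nat.succ_ne_zero q)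

omit hq0 hqB in
/-- An old class with `U_q ^ 2 = 1` is zero. -/
theorem eq_zero_of_old_sq [NeZero L] {φ ψ : Additive (Gamma0 L) →+ ℂ}
    (hφ : φ ∈ parabolicHoms ℂ (Gamma0 L) ℂ) (hψ : ψ ∈ parabolicHoms ℂ (Gamma0 L) ℂ)
    (h : heckeHom ℂ ℂ hq (heckeHom ℂ ℂ hq
        (degRes L q ℂ φ + (isFamily_atkinLehner hq hqL).transfer ℂ (degRes L q ℂ ψ))) =
      degRes L q ℂ φ + (isFamily_atkinLehner hq hqL).transfer ℂ (degRes L q ℂ ψ)) :
    φ = 0 ∧ ψ = 0 := by
  set W := (isFamily_atkinLehner (N := L) hq hqL).transfer ℂ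
  have hUR : ∀ φ, heckeHom ℂ ℂ hq (degRes L q ℂ φ) =
      degRes L q ℂ (heckeHom ℂ ℂ hq φ) - W (degRes L q ℂ φ) := fun φ => by
    have h1 := degRes_degTr' hq hqL (degRes L q ℂ φ)
    rw [degTr'_degRes] at h1
    exact eq_sub_of_add_eq h1.symm
  have htR : ∀ φ, degTr L ℂ hq hqL (degRes L q ℂ φ) = ((q : ℂ) + 1) • φ := fun φ => by
    rw [degTr_degRes, natCast_smul_hom]; push_cast; rfl
  have hWR : ∀ ψ, degTr L ℂ hq hqL (W (degRes L q ℂ ψ)) = heckeHom ℂ ℂ hq ψ := fun ψ => by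
    rw [← degTr'_atkinLehner hq hqL, atkinLehner_sq hq hqL, degTr'_degRes]; rfl
  have hWR' : ∀ ψ, degTr' L ℂ hq hqL (W (degRes L q ℂ ψ)) = ((q : ℂ) + 1) • ψ := fun ψ => by
    rw [degTr'_atkinLehner hq hqL]; exact htR ψ
  have hUW : ∀ ψ, heckeHom ℂ ℂ hq (W (degRes L q ℂ ψ)) = (q : ℂ) • degRes L q ℂ ψ := fun ψ => by
    have h1 := degRes_degTr' hq hqL (W (degRes L q ℂ ψ))
    rw [hWR', atkinLehner_sq hq hqL, degRes_smul, add_smul, one_smul] at h1
    exact (add_right_cancel h1).symm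
  have hWs : ∀ (z : ℂ) φ, W (z • φ) = z • W φ := fun z φ => by
    rw [smul_eq_smulHom_comp, smul_eq_smulHom_comp]
    exact (isFamily_atkinLehner hq hqL).transfer_postcomp _ φ
  set a := heckeHom ℂ ℂ hq (heckeHom ℂ ℂ hq φ) + (q : ℂ) • heckeHom ℂ ℂ hq ψ - ((q : ℂ) + 1) • φ
    with ha
  set b := heckeHom ℂ ℂ hq φ + ((q : ℂ) + 1) • ψ with hb
  have hab : degRes L q ℂ a + W (degRes L q ℂ (-b)) = 0 := by
    simp only [map_add, map_sub, map_smul, hUR, hUW] at h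
    simp only [ha, hb, neg_add, ← neg_smul, map_add, map_sub, map_neg, degRes_smul, hWs]
    linear_combination (norm := module) h
  have hTφ := heckeHom_mem_parabolicHoms (R := ℂ) hq hφ
  have hamem : a ∈ parabolicHoms ℂ (Gamma0 L) ℂ :=
    sub_mem (add_mem (heckeHom_mem_parabolicHoms hq hTφ)
      (Submodule.smul_mem _ _ (heckeHom_mem_parabolicHoms hq hψ))) (Submodule.smul_mem _ _ hφ)
  have hbmem : -b ∈ parabolicHoms ℂ (Gamma0 L) ℂ := neg_mem (add_mem hTφ (Submodule.smul_mem _ _ hψ))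
  have e1 := congrArg (degTr L ℂ hq hqL) hab
  have e2 := congrArg (degTr' L ℂ hq hqL) hab
  rw [map_add, htR, hWR, map_zero] at e1
  rw [map_add, degTr'_degRes, hWR', map_zero] at e2
  obtain ⟨ha0, hb0⟩ := eq_zero_of_pair hq hamem hbmem e1 e2 hqL
  exact eq_zero_of_sq_relations hq hqL hφ ha0 (neg_eq_zero.1 hb0)

/-- The kernel of the two transfers is the part new at `q`. -/
theorem mem_ker_trPair_iff [NeZero L] (x : newEigenHoms L0 c (L * q) B) :
    x ∈ LinearMap.ker (trPair hq hqL hq0 hqB) ↔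
      heckeHom ℂ ℂ hq (heckeHom ℂ ℂ hq (x : Additive (Gamma0 (L * q)) →+ ℂ)) = x := by
  constructor
  · intro h
    exact heckeHom_sq_of_degTr_eq_zero hq hqL _
      (congrArg (fun p => (p.1 : Additive (Gamma0 L) →+ ℂ)) h)
      (congrArg (fun p => (p.2 : Additive (Gamma0 L) →+ ℂ)) h)
  intro hx
  obtain ⟨p, hp⟩ := (trPair_degPair_bijective hq hqL hq0 hqB).2 (trPair hq hqL hq0 hqB x)
  rw [LinearMap.comp_apply] at hp
  obtain ⟨ht, ht'⟩ := trPair_degPair hq hqL hq0 hqB p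
  rw [hp] at ht ht'
  change degTr L ℂ hq hqL x = _ at ht
  change degTr' L ℂ hq hqL x = _ at ht'
  obtain ⟨⟨φ, hφ⟩, ⟨ψ, hψ⟩⟩ := p
  set y := degRes L q ℂ φ + (isFamily_atkinLehner hq hqL).transfer ℂ (degRes L q ℂ ψ) with hy
  have hn1 : degTr L ℂ hq hqL ((x : Additive (Gamma0 (L * q)) →+ ℂ) - y) = 0 := by
    rw [map_sub, hy, map_add, degTr_degRes, natCast_smul_hom,
      ← degTr'_atkinLehner hq hqL ((isFamily_atkinLehner hq hqL).transfer ℂ _),
      atkinLehner_sq hq hqL, degTr'_degRes, ht]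
    push_cast
    exact sub_self _
  have hn2 : degTr' L ℂ hq hqL ((x : Additive (Gamma0 (L * q)) →+ ℂ) - y) = 0 := by
    rw [map_sub, hy, map_add, degTr'_degRes, degTr'_atkinLehner hq hqL, degTr_degRes,
      natCast_smul_hom, ht']
    push_cast
    exact sub_self _
  have hUn : heckeHom ℂ ℂ hq (heckeHom ℂ ℂ hq ((x : Additive (Gamma0 (L * q)) →+ ℂ) - y)) =
      (x : Additive (Gamma0 (L * q)) →+ ℂ) - y := heckeHom_sq_of_degTr_eq_zero hq hqL _ hn1 hn2
  rw [map_sub, map_sub, hx] at hUn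
  obtain ⟨h1, h2⟩ := eq_zero_of_old_sq hq hqL hφ.1 hψ.1 (sub_right_injective hUn)
  have hzero : y = 0 := by rw [hy, h1, h2]; simp
  rw [hzero, sub_zero] at hn1 hn2
  exact Prod.ext (Subtype.ext hn1) (Subtype.ext hn2)

/-- The decomposition into the two copies of level `L` and the part new at `q`. -/
theorem finrank_newEigenHoms_mul_prime [NeZero L] (hqL : ¬ q ∣ L) :
    finrank ℂ (newEigenHoms L0 c (L * q) B) =
      finrank ℂ (newEigenHoms L0 c (L * q) (insert q B)) +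
        2 * finrank ℂ (newEigenHoms L0 c L B) := by
  have : NeZero q := ⟨hq.ne_zero⟩
  have := finite_newEigenHoms (L0 := L0) (c := c) (L := L) (B := B)
  have := finite_newEigenHoms (L0 := L0) (c := c) (L := L * q) (B := B)
  have hsurj : Function.Surjective (trPair (L := L) (c := c) hq hqL hq0 hqB) :=
    Function.Surjective.of_comp (g := degPair hq hq0 hqB) (trPair_degPair_bijective hq hqL hq0 hqB).2
  have h1 := LinearMap.finrank_range_add_finrank_ker (trPair (L := L) (c := c) hq hqL hq0 hqB)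
  rw [LinearMap.range_eq_top.2 hsurj, finrank_top, Module.finrank_prod] at h1
  have hle : newEigenHoms L0 c (L * q) (insert q B) ≤ newEigenHoms L0 c (L * q) B :=
    fun φ hφ => ((newEigenHoms_insert hq).1 hφ).1
  have hker : LinearMap.ker (trPair (L := L) (c := c) hq hqL hq0 hqB) =
      (newEigenHoms L0 c (L * q) (insert q B)).comap (newEigenHoms L0 c (L * q) B).subtype := by
    ext x
    rw [mem_ker_trPair_iff hq hqL hq0 hqB, Submodule.mem_comap, newEigenHoms_insert hq]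
    exact ⟨fun h => ⟨x.2, h⟩, fun h => h.2⟩
  rw [hker, (Submodule.comapSubtypeEquivOfLe hle).finrank_eq] at h1
  omega

end Fermat.Agent.TwoAdic.Count

end
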