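import Fermat.Agent.TwoAdic.Count.Descent

/-!
# Eigenforms with the same good coefficients at a prime exactly dividing the level

Only `q`-expansions are used. For `p ∤ D`, eigenforms with the same coefficients at almost all
primes:

* `qCoeff_quadratic`: `f` of level `p D` and `g` of level `D` satisfy `a² - t a + p = 0` for
  `a = a_p(f)`, `t = a_p(g)`;
* `qCoeff_mul_eq_of_ne`: two forms of level `p D` with `a_p` equal to `a ≠ b` have `a b = p`.

Owner: helper95 (LT2, Hecke co-captain).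
-/

set_option autoImplicit false

noncomputable section

open CongruenceSubgroup ModularFormClass
open scoped MatrixGroups

namespace Fermat.Agent.TwoAdic.Count

/-- Killing the coefficients at the multiples of one prime. -/
theorem exists_deplete_one {L ℓ : ℕ} [NeZero L] (hℓ : ℓ.Prime) (x : CuspForm (Gamma0 L) 2) :
    ∃ y : CuspForm (Gamma0 (L * ℓ * ℓ)) 2,
      ∀ n, qCoeff y n = if ℓ ∣ n then 0 else qCoeff x n := by
  have : NeZero ℓ := ⟨hℓ.ne_zero⟩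
  set u := CuspForm.heckeULin 2 (dvd_mul_left ℓ L) (BadPrime.levelIncl (dvd_mul_right L ℓ) x)
  refine ⟨BadPrime.levelIncl ((dvd_mul_right L ℓ).trans (dvd_mul_right _ ℓ)) x +
    (-(ℓ : ℂ)⁻¹) • RT.Systems.diagForm (dvd_refl (L * ℓ * ℓ)) u, fun n => ?_⟩
  rw [Periods.qCoeff_add, Periods.qCoeff_smul, RT.Systems.qCoeff_diagForm, BadPrime.coe_levelIncl]
  split_ifs with hn
  · obtain ⟨m, rfl⟩ := hn
    rw [Nat.mul_div_cancel_left _ hℓ.pos, Periods.qCoeff_heckeULin hℓ (dvd_mul_left ℓ L),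
      BadPrime.coe_levelIncl, mul_comm m ℓ]
    field_simp [Nat.cast_ne_zero.2 hℓ.ne_zero]
    ring
  · ring

/-- Killing the coefficients at the multiples of finitely many primes. -/
theorem exists_deplete (P : Finset ℕ) (hP : ∀ ℓ ∈ P, ℓ.Prime) :
    ∀ (L : ℕ) [NeZero L] (x : CuspForm (Gamma0 L) 2),
      ∃ y : CuspForm (Gamma0 (L * (∏ ℓ ∈ P, ℓ) ^ 2)) 2,
        ∀ n, qCoeff y n = if ∀ ℓ ∈ P, ¬ ℓ ∣ n then qCoeff x n else 0 := by
  induction P using Finset.induction_on with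
  | empty =>
    intro L _ x
    have : NeZero (L * (∏ ℓ ∈ (∅ : Finset ℕ), ℓ) ^ 2) := ⟨by simpa using NeZero.ne L⟩
    exact ⟨BadPrime.levelIncl (by simp) x, fun n => by rw [if_pos (by simp)]; rfl⟩
  | @insert ℓ P hℓP ih =>
    intro L _ x
    have hℓ := hP ℓ (Finset.mem_insert_self ℓ P)
    have : NeZero ℓ := ⟨hℓ.ne_zero⟩
    have hPr : ∀ r ∈ P, r.Prime := fun r hr => hP r (Finset.mem_insert_of_mem hr)
    obtain ⟨y, hy⟩ := exists_deplete_one hℓ x
    obtain ⟨z, hz⟩ := ih hPr (L * ℓ * ℓ) y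
    have : NeZero (L * (∏ r ∈ insert ℓ P, r) ^ 2) :=
      ⟨mul_ne_zero (NeZero.ne L) (pow_ne_zero 2
        (Finset.prod_ne_zero_iff.2 fun r hr => (hP r hr).ne_zero))⟩
    have : NeZero (L * ℓ * ℓ * (∏ r ∈ P, r) ^ 2) :=
      ⟨mul_ne_zero (NeZero.ne _) (pow_ne_zero 2
        (Finset.prod_ne_zero_iff.2 fun r hr => (hPr r hr).ne_zero))⟩
    refine ⟨BadPrime.levelIncl (dvd_of_eq (by rw [Finset.prod_insert hℓP]; ring)) z, fun n => ?_⟩
    rw [BadPrime.coe_levelIncl, hz, hy]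
    simp only [Finset.forall_mem_insert]
    split_ifs <;> simp_all

variable {p : ℕ} {D : ℕ} [NeZero D]

/-- The primes of `K` and of `D` other than `p`. -/
def otherPrimes (p D : ℕ) (K : Finset ℕ) : Finset ℕ :=
  ((D.primeFactors ∪ K).filter Nat.Prime).erase p

omit [NeZero D] in
theorem prime_of_mem_otherPrimes {K : Finset ℕ} :
    ∀ ℓ ∈ otherPrimes p D K, ℓ.Prime := fun _ h =>
  (Finset.mem_filter.1 (Finset.mem_of_mem_erase h)).2

omit [NeZero D] in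
theorem not_dvd_prod_otherPrimes (hp : p.Prime) (hpD : ¬ p ∣ D) (K : Finset ℕ) :
    ¬ p ∣ D * (∏ ℓ ∈ otherPrimes p D K, ℓ) ^ 2 := by
  intro h
  rcases hp.dvd_mul.1 h with h | h
  · exact hpD h
  · obtain ⟨ℓ, hℓ, hpℓ⟩ := (hp.prime.dvd_finsetProd_iff _).1 (hp.dvd_of_dvd_pow h)
    exact Finset.ne_of_mem_erase hℓ
      ((Nat.prime_dvd_prime_iff_eq hp (prime_of_mem_otherPrimes ℓ hℓ)).1 hpℓ).symm

omit [NeZero D] in
theorem forall_otherPrimes_mul (hp : p.Prime) {K : Finset ℕ} (n : ℕ) :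
    (∀ ℓ ∈ otherPrimes p D K, ¬ ℓ ∣ n * p) ↔ ∀ ℓ ∈ otherPrimes p D K, ¬ ℓ ∣ n := by
  refine forall₂_congr fun ℓ hℓ => not_congr ?_
  rw [(prime_of_mem_otherPrimes ℓ hℓ).dvd_mul, or_iff_left fun hc => Finset.ne_of_mem_erase hℓ
    ((Nat.prime_dvd_prime_iff_eq (prime_of_mem_otherPrimes ℓ hℓ) hp).1 hc)]

omit [NeZero D] in
theorem forall_otherPrimes_one {K : Finset ℕ} : ∀ ℓ ∈ otherPrimes p D K, ¬ ℓ ∣ 1 :=
  fun ℓ hℓ => (prime_of_mem_otherPrimes ℓ hℓ).not_dvd_one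

/-- Agreement outside `K` gives agreement at all `n` avoiding `p` and the other primes. -/
theorem qCoeff_eq_of_avoid (hp : p.Prime) {M M' : ℕ} [NeZero M] [NeZero M'] (hM : M ∣ p * D)
    (hM' : M' ∣ p * D) {f : CuspForm (Gamma0 M) 2} (hf : f.IsNormalizedEigenform)
    {g : CuspForm (Gamma0 M') 2} (hg : g.IsNormalizedEigenform) {K : Finset ℕ}
    (hgood : ∀ ℓ : ℕ, ℓ.Prime → ℓ ∉ K → ¬ ℓ ∣ p * D → qCoeff f ℓ = qCoeff g ℓ)
    {n : ℕ} (hn : ¬ p ∣ n) (hav : ∀ ℓ ∈ otherPrimes p D K, ¬ ℓ ∣ n) :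
    qCoeff f n = qCoeff g n := by
  have hpe : ∀ ℓ : ℕ, ℓ.Prime → ¬ ℓ ∣ p * ∏ r ∈ otherPrimes p D K, r →
      ¬ ℓ ∣ p * D ∧ ℓ ∉ K := by
    intro ℓ hℓ hd
    have hne : ℓ ≠ p := by
      rintro rfl
      exact hd (dvd_mul_right _ _)
    have hmem : ∀ S : Finset ℕ, S ⊆ D.primeFactors ∪ K → ℓ ∈ S → False := fun S hS hS' =>
      hd (dvd_mul_of_dvd_right (Finset.dvd_prod_of_mem _
        (Finset.mem_erase.2 ⟨hne, Finset.mem_filter.2 ⟨hS hS', hℓ⟩⟩)) p)
    refine ⟨fun h => ?_, hmem K Finset.subset_union_right⟩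
    rcases hℓ.dvd_mul.1 h with h | h
    · exact hne ((Nat.prime_dvd_prime_iff_eq hℓ hp).1 h)
    · exact hmem _ Finset.subset_union_left (Nat.mem_primeFactors.2 ⟨hℓ, h, NeZero.ne D⟩)
  refine RT.Systems.qCoeff_eq_of_coprime hf hg (K := p * ∏ r ∈ otherPrimes p D K, r)
    (fun ℓ hℓ hd => ⟨fun h => (hpe ℓ hℓ hd).1 (h.trans hM), fun h => (hpe ℓ hℓ hd).1 (h.trans hM')⟩)
    (fun ℓ hℓ hd => hgood ℓ hℓ (hpe ℓ hℓ hd).2 (hpe ℓ hℓ hd).1) n ?_
  refine Nat.coprime_of_dvd fun ℓ hℓ hℓn hℓK => ?_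
  rcases hℓ.dvd_mul.1 hℓK with h | h
  · exact hn ((Nat.prime_dvd_prime_iff_eq hℓ hp).1 h ▸ hℓn)
  · obtain ⟨r, hr, hℓr⟩ := (hℓ.prime.dvd_finsetProd_iff _).1 h
    exact hav r hr
      ((Nat.prime_dvd_prime_iff_eq hℓ (prime_of_mem_otherPrimes r hr)).1 hℓr ▸ hℓn)

/-- The depletion of an eigenform of level `p D` at the other primes. -/
theorem exists_deplete_eigen (hp : p.Prime) {f : CuspForm (Gamma0 (p * D)) 2}
    (hf : f.IsNormalizedEigenform) (K : Finset ℕ) :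
    ∃ F : CuspForm (Gamma0 (p * (D * (∏ ℓ ∈ otherPrimes p D K, ℓ) ^ 2))) 2,
      (∀ n, qCoeff F n = if ∀ ℓ ∈ otherPrimes p D K, ¬ ℓ ∣ n then qCoeff f n else 0) ∧
      ∀ n, qCoeff F (n * p) = qCoeff f p * qCoeff F n := by
  have : NeZero p := ⟨hp.ne_zero⟩
  obtain ⟨F, hF⟩ := exists_deplete (otherPrimes p D K) prime_of_mem_otherPrimes (p * D) f
  have : NeZero (p * D * (∏ ℓ ∈ otherPrimes p D K, ℓ) ^ 2) :=
    ⟨mul_ne_zero (NeZero.ne _) (pow_ne_zero 2
      (Finset.prod_ne_zero_iff.2 fun r hr => (prime_of_mem_otherPrimes r hr).ne_zero))⟩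
  have : NeZero (p * (D * (∏ ℓ ∈ otherPrimes p D K, ℓ) ^ 2)) :=
    ⟨by rw [← mul_assoc]; exact NeZero.ne _⟩
  refine ⟨BadPrime.levelIncl (dvd_of_eq (mul_assoc _ _ _)) F, fun n => ?_, fun n => ?_⟩
  · rw [BadPrime.coe_levelIncl, hF]
  · rw [BadPrime.coe_levelIncl, hF, hF, (Periods.isEigen_of_isNormalizedEigenform hf).qCoeff_mul hp,
      if_neg fun h : ¬ p ∣ p * D ∧ p ∣ n => h.1 (dvd_mul_right p D), sub_zero]
    simp only [forall_otherPrimes_mul hp]
    split_ifs <;> simp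

theorem neZero_depleted (hp : p.Prime) (K : Finset ℕ) :
    NeZero (D * (∏ ℓ ∈ otherPrimes p D K, ℓ) ^ 2) ∧
      NeZero (p * (D * (∏ ℓ ∈ otherPrimes p D K, ℓ) ^ 2)) := by
  have h : D * (∏ ℓ ∈ otherPrimes p D K, ℓ) ^ 2 ≠ 0 :=
    mul_ne_zero (NeZero.ne D) (pow_ne_zero 2
      (Finset.prod_ne_zero_iff.2 fun r hr => (prime_of_mem_otherPrimes r hr).ne_zero))
  exact ⟨⟨h⟩, ⟨mul_ne_zero hp.ne_zero h⟩⟩

/-- `f` of level `p D` and `g` of level `D` with the same coefficients at almost all primes: the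
coefficient `a` of `f` at `p` is a root of `X² - t X + p`, `t` that of `g`. -/
theorem qCoeff_quadratic (hp : p.Prime) (hpD : ¬ p ∣ D) {f : CuspForm (Gamma0 (p * D)) 2}
    (hf : f.IsNormalizedEigenform) {g : CuspForm (Gamma0 D) 2} (hg : g.IsNormalizedEigenform)
    (K : Finset ℕ) (hgood : ∀ ℓ : ℕ, ℓ.Prime → ℓ ∉ K → ¬ ℓ ∣ p * D → qCoeff f ℓ = qCoeff g ℓ) :
    qCoeff f p ^ 2 - qCoeff g p * qCoeff f p + (p : ℂ) = 0 := by
  have : NeZero p := ⟨hp.ne_zero⟩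
  obtain ⟨_, _⟩ := neZero_depleted (D := D) hp K
  set e := (∏ ℓ ∈ otherPrimes p D K, ℓ) ^ 2 with he
  set a := qCoeff f p
  set t := qCoeff g p
  obtain ⟨F, hF, hFp⟩ := exists_deplete_eigen hp hf K
  obtain ⟨G, hG⟩ := exists_deplete (otherPrimes p D K) prime_of_mem_otherPrimes D g
  have hG' : ∀ n, qCoeff G (n * p) =
      t * qCoeff G n - if p ∣ n then (p : ℂ) * qCoeff G (n / p) else 0 := by
    intro n
    have hdiv : p ∣ n → ((∀ ℓ ∈ otherPrimes p D K, ¬ ℓ ∣ n / p) ↔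
        ∀ ℓ ∈ otherPrimes p D K, ¬ ℓ ∣ n) := by
      rintro ⟨m, rfl⟩
      rw [Nat.mul_div_cancel_left _ hp.pos, mul_comm p m, forall_otherPrimes_mul hp]
    rw [hG, hG, hG, (Periods.isEigen_of_isNormalizedEigenform hg).qCoeff_mul hp]
    simp only [forall_otherPrimes_mul hp, hpD, not_false_eq_true, true_and]
    by_cases hn : p ∣ n
    · simp only [hn, if_true, hdiv hn]
      split_ifs <;> simp [t]
    · simp only [hn, if_false, sub_zero]
      split_ifs <;> simp [t]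
  have hFG : ∀ n, ¬ p ∣ n → qCoeff F n = qCoeff G n := fun n hn => by
    rw [hF, hG]
    split_ifs with hav
    · exact qCoeff_eq_of_avoid hp dvd_rfl (dvd_mul_left D p) hf hg hgood hn hav
    · rfl
  obtain ⟨h, hh⟩ := exists_descend hp
    (F - BadPrime.levelIncl (dvd_mul_left (D * e) p) G)
    (isSupported_sub fun n hn => by rw [BadPrime.coe_levelIncl]; exact hFG n hn)
  have hcoef : ∀ n, qCoeff ⇑(h + (-(a - t)) • G : CuspForm (Gamma0 (D * e)) 2) n =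
      a * qCoeff F n - t * qCoeff G n + (if p ∣ n then (p : ℂ) * qCoeff G (n / p) else 0) -
        (a - t) * qCoeff G n := by
    intro n
    rw [Periods.qCoeff_add, Periods.qCoeff_smul, hh,
      show F - BadPrime.levelIncl (dvd_mul_left (D * e) p) G =
        F + (-1 : ℂ) • BadPrime.levelIncl (dvd_mul_left (D * e) p) G by module,
      Periods.qCoeff_add, Periods.qCoeff_smul, BadPrime.coe_levelIncl, hFp, hG']
    ring
  have hz : h + (-(a - t)) • G = 0 := eq_zero_of_isSupported hp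
    (not_dvd_prod_otherPrimes hp hpD K) _ fun n hn => by
      rw [hcoef, hFG n hn, if_neg hn]; ring
  have h1 : ∀ ℓ ∈ otherPrimes p D K, ¬ ℓ ∣ p := by
    simpa using (forall_otherPrimes_mul (D := D) (K := K) hp 1).2 forall_otherPrimes_one
  have key := hcoef p
  rw [hz, Hecke.qCoeff_zero, if_pos dvd_rfl, Nat.div_self hp.pos, hF, hG, hG, if_pos h1, if_pos h1,
    if_pos forall_otherPrimes_one, hg.qCoeff_one] at key
  linear_combination -key

/-- Two eigenforms of level `p D` with the same coefficients at almost all primes and different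
coefficients `a`, `b` at `p` satisfy `a b = p`. -/
theorem qCoeff_mul_eq_of_ne (hp : p.Prime) (hpD : ¬ p ∣ D) {f g : CuspForm (Gamma0 (p * D)) 2}
    (hf : f.IsNormalizedEigenform) (hg : g.IsNormalizedEigenform) (K : Finset ℕ)
    (hgood : ∀ ℓ : ℕ, ℓ.Prime → ℓ ∉ K → ¬ ℓ ∣ p * D → qCoeff f ℓ = qCoeff g ℓ)
    (hne : qCoeff f p ≠ qCoeff g p) : qCoeff f p * qCoeff g p = (p : ℂ) := by
  have : NeZero p := ⟨hp.ne_zero⟩
  obtain ⟨_, _⟩ := neZero_depleted (D := D) hp K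
  set e := (∏ ℓ ∈ otherPrimes p D K, ℓ) ^ 2 with he
  set a := qCoeff f p
  set b := qCoeff g p
  obtain ⟨F, hF, hFp⟩ := exists_deplete_eigen hp hf K
  obtain ⟨G, hG, hGp⟩ := exists_deplete_eigen hp hg K
  have hFG : ∀ n, ¬ p ∣ n → qCoeff F n = qCoeff G n := fun n hn => by
    rw [hF, hG]
    split_ifs with hav
    · exact qCoeff_eq_of_avoid hp dvd_rfl dvd_rfl hf hg hgood hn hav
    · rfl
  obtain ⟨h, hh⟩ := exists_descend hp (F - G) (isSupported_sub hFG)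
  have hh' : ∀ n, qCoeff h n = a * qCoeff F n - b * qCoeff G n := fun n => by
    rw [hh, show F - G = F + (-1 : ℂ) • G by module, Periods.qCoeff_add, Periods.qCoeff_smul, hFp,
      hGp]
    ring
  have hp' : ¬ p ∣ D * e := not_dvd_prod_otherPrimes hp hpD K
  have hcoef : ∀ n, qCoeff ⇑(CuspForm.heckeTLin 2 hp hp' h + (-(a + b)) • h : CuspForm (Gamma0 (D * e)) 2) n =
      a * (a * qCoeff F n) - b * (b * qCoeff G n) +
        (if p ∣ n then (p : ℂ) * (a * qCoeff F (n / p) - b * qCoeff G (n / p)) else 0) -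
        (a + b) * (a * qCoeff F n - b * qCoeff G n) := by
    intro n
    rw [Periods.qCoeff_add, Periods.qCoeff_smul, Periods.qCoeff_heckeTLin hp hp', hh', hh', hh',
      hFp, hGp]
    ring
  have hz : CuspForm.heckeTLin 2 hp hp' h + (-(a + b)) • h = 0 :=
    eq_zero_of_isSupported hp hp' _ fun n hn => by
      rw [hcoef, hFG n hn, if_neg hn]; ring
  have h1 : ∀ ℓ ∈ otherPrimes p D K, ¬ ℓ ∣ p := by
    simpa using (forall_otherPrimes_mul (D := D) (K := K) hp 1).2 forall_otherPrimes_one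
  have key := hcoef p
  rw [hz, Hecke.qCoeff_zero, if_pos dvd_rfl, Nat.div_self hp.pos, hF, hG, hF, hG, if_pos h1,
    if_pos h1, if_pos forall_otherPrimes_one, if_pos forall_otherPrimes_one, hf.qCoeff_one,
    hg.qCoeff_one] at key
  exact mul_left_cancel₀ (sub_ne_zero.2 hne) (by linear_combination key)

end Fermat.Agent.TwoAdic.Count

end
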