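import Fermat.Agent.TwoAdic.Count.MultOne
import Fermat.Agent.TwoAdic.Count.Decompose
import Fermat.Agent.TwoAdic.Count.Stabilise
import Fermat.Prelude.Def_CuspForm_Newforms
import Fermat.Agent.LevelRaise.Eigen

/-!
# Consequences at one prime exactly dividing the level

* nothing below: the eigen part is new at the prime;
* `a_p ^ 2 ≠ 1`: the system occurs one level below, with the same other coefficients;
* two forms with the same good system: equal coefficients or product `p`;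
* `a_p ^ 2 = 1`: the good system does not occur one level below.
-/

set_option autoImplicit false

noncomputable section

open CongruenceSubgroup ModularCurve ModularCurve.Period Module ModularFormClass
open Fermat.Agent.Periods
open scoped MatrixGroups

namespace Fermat.Agent.TwoAdic.Count

variable {L0 : ℕ} {c : ℕ → ℂ} {B : Finset ℕ}

/-- If nothing occurs at level `L₁`, the part at level `L₁ * q` is new at `q`. -/
theorem newEigenHoms_eq_insert_of_eq_bot {L₁ q : ℕ} [NeZero L₁] (hq : q.Prime) (hq0 : q ∣ L0)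
    (hqL : ¬ q ∣ L₁) (hqB : q ∉ B) (hbot : newEigenHoms L0 c L₁ B = ⊥) :
    newEigenHoms L0 c (L₁ * q) (insert q B) = newEigenHoms L0 c (L₁ * q) B := by
  refine le_antisymm (fun φ hφ => ((newEigenHoms_insert hq).1 hφ).1) fun φ hφ => ?_
  have h1 : ∀ x : newEigenHoms L0 c L₁ B, x = 0 := fun x =>
    Subtype.ext ((Submodule.eq_bot_iff _).1 hbot x x.2)
  exact (newEigenHoms_insert hq).2 ⟨hφ, (mem_ker_trPair_iff hq hqL hq0 hqB ⟨φ, hφ⟩).1
    (Prod.ext (h1 _) (h1 _))⟩

/-- An eigenform of level `L₁ * q` with `a_q ^ 2 ≠ 1` has its system at level `L₁`. -/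
theorem exists_mem_eigenSetOn_of_sq_ne_one {L₁ q : ℕ} [NeZero L₁] [NeZero (L₁ * q)] (hq : q.Prime)
    (hq0 : q ∣ L0) (hqL : ¬ q ∣ L₁) (hqB : q ∉ B)
    (hB : ∀ p : ℕ, p.Prime → p ∣ L₁ → p ∈ B ∨ ¬ p ∣ L0)
    {f : CuspForm (Gamma0 (L₁ * q)) 2} (hf : f ∈ eigenSetOn L0 c (L₁ * q) B)
    (ha : qCoeff f q ^ 2 ≠ 1) : ∃ g, g ∈ eigenSetOn L0 c L₁ B := by
  have hmem : periodHomPair (L₁ * q) (f, 0) ∈ newEigenHoms L0 c (L₁ * q) B :=
    periodHomPair_mem_newEigenHoms_iff.2 ⟨eigenSetOn_subset_newEigenForms hf, zero_mem _⟩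
  have hne : newEigenHoms L0 c L₁ B ≠ ⊥ := by
    intro hbot
    rw [← newEigenHoms_eq_insert_of_eq_bot hq hq0 hqL hqB hbot] at hmem
    have h := ((newEigenHoms_insert hq).1 hmem).2
    have he := primeOp_eq_smul (isEigen_of_isNormalizedEigenform hf.1) q hq
    rw [heckeHom_periodHomPair hq, heckeHom_periodHomPair hq,
      (periodHomPair_injective _).eq_iff, Prod.ext_iff] at h
    have h1 : primeOp (L₁ * q) q hq (primeOp (L₁ * q) q hq f) = f := h.1
    rw [he, map_smul, he, smul_smul, ← sq] at h1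
    exact ha (smul_left_injective ℂ hf.1.ne_zero (h1.trans (one_smul ℂ f).symm))
  have := finite_newEigenHoms (L0 := L0) (c := c) (L := L₁) (B := B)
  have hpos : finrank ℂ (newEigenHoms L0 c L₁ B) ≠ 0 := fun h => hne (Submodule.finrank_eq_zero.1 h)
  rw [finrank_newEigenHoms_eq_card_on hB] at hpos
  exact Set.nonempty_of_ncard_ne_zero fun h => hpos (by rw [h, mul_zero])

/-- Two eigenforms with the same coefficients at almost all primes, at a prime exactly dividing the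
level. -/
theorem qCoeff_eq_or_mul_eq {L p : ℕ} [NeZero L] (hp : p.Prime) (hpL : p ∣ L) (hp2 : ¬ p ^ 2 ∣ L)
    {f g : CuspForm (Gamma0 L) 2} (hf : f.IsNormalizedEigenform) (hg : g.IsNormalizedEigenform)
    (K : Finset ℕ) (hgood : ∀ ℓ : ℕ, ℓ.Prime → ℓ ∉ K → ¬ ℓ ∣ L → qCoeff f ℓ = qCoeff g ℓ) :
    qCoeff f p = qCoeff g p ∨ qCoeff f p * qCoeff g p = (p : ℂ) := by
  obtain ⟨D, rfl⟩ := hpL
  have : NeZero D := ⟨right_ne_zero_of_mul (NeZero.ne (p * D))⟩
  exact or_iff_not_imp_left.2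
    (qCoeff_mul_eq_of_ne hp (fun h => hp2 (by rw [sq]; exact mul_dvd_mul_left p h)) hf hg K hgood)

/-- `qCoeff_quadratic` with the prime written on the right. -/
theorem qCoeff_quadratic_right {L₁ p : ℕ} [NeZero L₁] (hp : p.Prime) (hpL : ¬ p ∣ L₁)
    {f : CuspForm (Gamma0 (L₁ * p)) 2} (hf : f.IsNormalizedEigenform)
    {g : CuspForm (Gamma0 L₁) 2} (hg : g.IsNormalizedEigenform) (K : Finset ℕ)
    (hgood : ∀ ℓ : ℕ, ℓ.Prime → ℓ ∉ K → ¬ ℓ ∣ L₁ * p → qCoeff f ℓ = qCoeff g ℓ) :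
    qCoeff f p ^ 2 - qCoeff g p * qCoeff f p + (p : ℂ) = 0 := by
  revert f hgood
  rw [mul_comm L₁ p]
  intro f hf hgood
  exact qCoeff_quadratic hp hpL hf hg K hgood

/-- The coefficients of an eigenform at primes are algebraic integers. -/
theorem exists_algInt_eq_qCoeff {L : ℕ} [NeZero L] {g : CuspForm (Gamma0 L) 2}
    (hg : g.IsNormalizedEigenform) {p : ℕ} (hp : p.Prime) :
    ∃ a : integralClosure ℤ ℂ, (a : ℂ) = qCoeff g p := by
  obtain ⟨χ, hT, hU⟩ := LevelRaise.exists_hecke_char hg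
  by_cases hpL : p ∣ L
  · exact ⟨_, hU p hp hpL⟩
  · exact ⟨_, hT p hp hpL⟩

/-- An eigenform with `a_p ^ 2 = 1` at a prime exactly dividing the level is new there. -/
theorem isNewformAt_of_sq_eq_one {L p : ℕ} [NeZero L] (hp : p.Prime) (hpL : p ∣ L)
    (hp2 : ¬ p ^ 2 ∣ L) {f : CuspForm (Gamma0 L) 2} (hf : f.IsNormalizedEigenform)
    (ha : qCoeff f p ^ 2 = 1) : f.IsNewformAt p := by
  refine ⟨hf, hpL, ?_⟩
  obtain ⟨D, rfl⟩ := hpL
  have : NeZero D := ⟨right_ne_zero_of_mul (NeZero.ne (p * D))⟩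
  have hpD : ¬ p ∣ D := fun h => hp2 (by rw [sq]; exact mul_dvd_mul_left p h)
  rw [Nat.mul_div_cancel_left _ hp.pos]
  rintro ⟨g, hg, heq⟩
  have hquad := qCoeff_quadratic hp hpD hf hg ∅
    fun ℓ hℓ _ hℓD => (heq ℓ hℓ hℓD).symm
  set a := qCoeff f p
  set t := qCoeff g p
  have ha0 : a ≠ 0 := fun h => by simp [h] at ha
  have ht : t = a * ((p : ℂ) + 1) := by
    refine mul_right_cancel₀ ha0 ?_
    linear_combination -hquad - (p : ℂ) * ha
  have hnorm : ‖a‖ = 1 := by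
    have h1 := congrArg norm ha
    rw [norm_pow, norm_one] at h1
    exact (pow_eq_one_iff_of_nonneg (norm_nonneg _) two_ne_zero).1 h1
  have hlt := norm_eigenvalue_lt hp hpD hg.ne_zero
    ((isEigen_of_isNormalizedEigenform hg).1 p hp hpD)
  change ‖t‖ < (p : ℝ) + 1 at hlt
  rw [ht, norm_mul, hnorm, one_mul,
    show ((p : ℂ) + 1) = ((p + 1 : ℕ) : ℂ) by push_cast; rfl, Complex.norm_natCast] at hlt
  push_cast at hlt
  exact lt_irrefl _ hlt

end Fermat.Agent.TwoAdic.Count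

end
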