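import Fermat.Agent.TwoAdic.Count.Formula
import Mathlib.LinearAlgebra.Eigenspace.Basic

/-!
# Fine eigen parts: generalised eigenvalues at further primes

`fineEigenHoms L0 c E L B` is the part of `newEigenHoms L0 c L B` on which the operator at each
prime `p ∈ E` (`U_p` if `p ∣ L`) has generalised eigenvalue `c p`. It decomposes in the same way
as long as the new primes avoid `E`.
-/

set_option autoImplicit false

noncomputable section

open CongruenceSubgroup ModularCurve ModularCurve.Period Module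
open Fermat.Agent.Periods Fermat.Agent.LevelRaise
open scoped MatrixGroups

namespace Fermat.Agent.TwoAdic.Count

/-- `T - a`. -/
abbrev shiftOp {V : Type*} [AddCommGroup V] [Module ℂ V] (T : Module.End ℂ V) (a : ℂ) :
    Module.End ℂ V :=
  T - a • 1

/-- The part of `newEigenHoms` with generalised eigenvalue `c p` at each prime `p ∈ E`. -/
def fineEigenHoms (L0 : ℕ) (c : ℕ → ℂ) (E : Finset ℕ) (L : ℕ) (B : Finset ℕ) :
    Submodule ℂ (Additive (Gamma0 L) →+ ℂ) :=
  newEigenHoms L0 c L B ⊓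
    ⨅ p : {p : ℕ // p ∈ E ∧ p.Prime}, Module.End.maxGenEigenspace (heckeHom ℂ ℂ p.2.2) (c p)

/-- The part of `newEigenForms` with generalised eigenvalue `c p` at each prime `p ∈ E`. -/
def fineEigenForms (L0 : ℕ) (c : ℕ → ℂ) (E : Finset ℕ) (L : ℕ) [NeZero L] (B : Finset ℕ) :
    Submodule ℂ (CuspForm (Gamma0 L) 2) :=
  newEigenForms L0 c L B ⊓
    ⨅ p : {p : ℕ // p ∈ E ∧ p.Prime}, Module.End.maxGenEigenspace (primeOp L p p.2.2) (c p)

variable {L0 : ℕ} {c : ℕ → ℂ} {E : Finset ℕ} {L q : ℕ} {B : Finset ℕ}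

theorem mem_fineEigenHoms_iff {φ : Additive (Gamma0 L) →+ ℂ} :
    φ ∈ fineEigenHoms L0 c E L B ↔ φ ∈ newEigenHoms L0 c L B ∧
      ∀ (p : ℕ) (hp : p.Prime), p ∈ E →
        ∃ n : ℕ, (shiftOp (heckeHom (N := L) ℂ ℂ hp) (c p) ^ n) φ = 0 := by
  simp only [fineEigenHoms, Submodule.mem_inf, Submodule.mem_iInf, Module.End.mem_maxGenEigenspace]
  exact and_congr_right fun _ => ⟨fun h p hp hE => h ⟨p, hE, hp⟩, fun h p => h p p.2.2 p.2.1⟩

theorem mem_fineEigenForms_iff [NeZero L] {f : CuspForm (Gamma0 L) 2} :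
    f ∈ fineEigenForms L0 c E L B ↔ f ∈ newEigenForms L0 c L B ∧
      ∀ (p : ℕ) (hp : p.Prime), p ∈ E →
        ∃ n : ℕ, (shiftOp (primeOp L p hp) (c p) ^ n) f = 0 := by
  simp only [fineEigenForms, Submodule.mem_inf, Submodule.mem_iInf, Module.End.mem_maxGenEigenspace]
  exact and_congr_right fun _ => ⟨fun h p hp hE => h ⟨p, hE, hp⟩, fun h p => h p p.2.2 p.2.1⟩

theorem fineEigenHoms_le : fineEigenHoms L0 c E L B ≤ newEigenHoms L0 c L B := inf_le_left

theorem fineEigenHoms_empty : fineEigenHoms L0 c ∅ L B = newEigenHoms L0 c L B := by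
  refine le_antisymm fineEigenHoms_le fun φ hφ => mem_fineEigenHoms_iff.2 ⟨hφ, ?_⟩
  exact fun p _ hp => absurd hp (Finset.notMem_empty p)

theorem finite_fineEigenHoms [NeZero L] : Module.Finite ℂ (fineEigenHoms L0 c E L B) := by
  have := finite_newEigenHoms (L0 := L0) (c := c) (L := L) (B := B)
  exact Module.Finite.of_injective (Submodule.inclusion fineEigenHoms_le)
    (Submodule.inclusion_injective _)

theorem pow_sub_periodHomPair [NeZero L] {p : ℕ} (hp : p.Prime) (a : ℂ) (n : ℕ)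
    (x : CuspForm (Gamma0 L) 2 × CuspForm (Gamma0 L) 2) :
    (shiftOp (heckeHom (N := L) ℂ ℂ hp) a ^ n) (periodHomPair L x) =
      periodHomPair L ((shiftOp (primeOp L p hp) a ^ n) x.1,
        (shiftOp (primeOp L p hp) a ^ n) x.2) := by
  induction n with
  | zero => rfl
  | succ n ih =>
    rw [pow_succ', Module.End.mul_apply, ih, LinearMap.sub_apply, LinearMap.smul_apply,
      Module.End.one_apply, heckeHom_periodHomPair hp, ← map_smul, ← map_sub]
    simp [pow_succ']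

theorem periodHomPair_mem_fineEigenHoms_iff [NeZero L]
    {x : CuspForm (Gamma0 L) 2 × CuspForm (Gamma0 L) 2} :
    periodHomPair L x ∈ fineEigenHoms L0 c E L B ↔
      x.1 ∈ fineEigenForms L0 c E L B ∧ x.2 ∈ fineEigenForms L0 c E L B := by
  rw [mem_fineEigenHoms_iff, mem_fineEigenForms_iff, mem_fineEigenForms_iff,
    periodHomPair_mem_newEigenHoms_iff]
  constructor
  · rintro ⟨⟨h1, h2⟩, h⟩
    refine ⟨⟨h1, fun p hp hE => ?_⟩, h2, fun p hp hE => ?_⟩ <;>
    · obtain ⟨n, hn⟩ := h p hp hE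
      rw [pow_sub_periodHomPair, ← map_zero (periodHomPair L), (periodHomPair_injective L).eq_iff,
        Prod.ext_iff] at hn
      first | exact ⟨n, hn.1⟩ | exact ⟨n, hn.2⟩
  · rintro ⟨⟨h1, h⟩, h2, h'⟩
    refine ⟨⟨h1, h2⟩, fun p hp hE => ?_⟩
    obtain ⟨n, hn⟩ := h p hp hE
    obtain ⟨m, hm⟩ := h' p hp hE
    refine ⟨max n m, ?_⟩
    rw [pow_sub_periodHomPair]
    have key : ∀ {k l : ℕ} {f : CuspForm (Gamma0 L) 2}, k ≤ l →
        (shiftOp (primeOp L p hp) (c p) ^ k) f = 0 →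
          (shiftOp (primeOp L p hp) (c p) ^ l) f = 0 := fun {k l f} hkl hf => by
      rw [← Nat.sub_add_cancel hkl, pow_add, Module.End.mul_apply, hf, map_zero]
    rw [key (le_max_left n m) hn, key (le_max_right n m) hm, Prod.mk_zero_zero, map_zero]

/-- Eichler–Shimura for the fine parts. -/
theorem finrank_fineEigenHoms_eq_two_mul [NeZero L] :
    finrank ℂ (fineEigenHoms L0 c E L B) = 2 * finrank ℂ (fineEigenForms L0 c E L B) := by
  have := finite_cuspForm_two L
  let W := fineEigenForms L0 c E L B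
  let F : (W × W) →ₗ[ℂ] fineEigenHoms L0 c E L B :=
    ((periodHomPair L).comp (W.subtype.prodMap W.subtype)).codRestrict _ fun x =>
      periodHomPair_mem_fineEigenHoms_iff.2 ⟨x.1.2, x.2.2⟩
  have hF : Function.Bijective F := by
    refine ⟨fun x y hxy => ?_, fun φ => ?_⟩
    · have := periodHomPair_injective L (congrArg Subtype.val hxy)
      exact Prod.ext (Subtype.ext (congrArg Prod.fst this)) (Subtype.ext (congrArg Prod.snd this))
    · obtain ⟨x, hx⟩ : (φ : Additive (Gamma0 L) →+ ℂ) ∈ LinearMap.range (periodHomPair L) := by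
        rw [range_periodHomPair L]; exact (fineEigenHoms_le φ.2).1
      obtain ⟨h1, h2⟩ := periodHomPair_mem_fineEigenHoms_iff.1 (hx ▸ φ.2)
      exact ⟨(⟨_, h1⟩, ⟨_, h2⟩), Subtype.ext hx⟩
  rw [← (LinearEquiv.ofBijective F hF).finrank_eq, Module.finrank_prod, two_mul]

theorem map_mem_fineEigenHoms {L₁ L₂ : ℕ} (hqE : q ∉ E)
    (D : (Additive (Gamma0 L₁) →+ ℂ) →ₗ[ℤ] (Additive (Gamma0 L₂) →+ ℂ))
    (hsmul : ∀ (z : ℂ) φ, D (z • φ) = z • D φ)
    (hnew : ∀ φ ∈ newEigenHoms L0 c L₁ B, D φ ∈ newEigenHoms L0 c L₂ B)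
    (hcomm : ∀ (ℓ : ℕ) (hℓ : ℓ.Prime), ℓ ≠ q → ∀ φ, D (heckeHom ℤ ℂ hℓ φ) = heckeHom ℤ ℂ hℓ (D φ))
    {φ : Additive (Gamma0 L₁) →+ ℂ} (hφ : φ ∈ fineEigenHoms L0 c E L₁ B) :
    D φ ∈ fineEigenHoms L0 c E L₂ B := by
  rw [mem_fineEigenHoms_iff] at hφ ⊢
  refine ⟨hnew φ hφ.1, fun p hp hE => ?_⟩
  have hne : p ≠ q := fun h => hqE (h ▸ hE)
  obtain ⟨n, hn⟩ := hφ.2 p hp hE
  refine ⟨n, ?_⟩
  have key : ∀ (k : ℕ) ψ,
      (shiftOp (heckeHom (N := L₂) ℂ ℂ hp) (c p) ^ k) (D ψ) =
        D ((shiftOp (heckeHom (N := L₁) ℂ ℂ hp) (c p) ^ k) ψ) := by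
    intro k
    induction k with
    | zero => exact fun _ => rfl
    | succ k ih =>
      intro ψ
      rw [pow_succ', Module.End.mul_apply, ih, pow_succ', Module.End.mul_apply]
      generalize (shiftOp (heckeHom (N := L₁) ℂ ℂ hp) (c p) ^ k) ψ = χ
      show heckeHom ℂ ℂ hp (D χ) - c p • D χ = D (heckeHom ℂ ℂ hp χ - c p • χ)
      rw [map_sub, hsmul]
      congr 1
      exact (hcomm p hp hne χ).symm
  rw [key, hn, map_zero]

/-- The decomposition of the fine parts into `q`-old and `q`-new. -/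
theorem finrank_fineEigenHoms_mul_prime [NeZero L] (hq : q.Prime) (hq0 : q ∣ L0) (hqB : q ∉ B)
    (hqE : q ∉ E) (hqL : ¬ q ∣ L) :
    finrank ℂ (fineEigenHoms L0 c E (L * q) B) =
      finrank ℂ (fineEigenHoms L0 c E (L * q) (insert q B)) +
        2 * finrank ℂ (fineEigenHoms L0 c E L B) := by
  have : NeZero q := ⟨hq.ne_zero⟩
  have := finite_fineEigenHoms (L0 := L0) (c := c) (E := E) (L := L) (B := B)
  have := finite_fineEigenHoms (L0 := L0) (c := c) (E := E) (L := L * q) (B := B)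
  let incl₁ := Submodule.inclusion (fineEigenHoms_le (L0 := L0) (c := c) (E := E) (L := L) (B := B))
  let inclq := Submodule.inclusion (fineEigenHoms_le (L0 := L0) (c := c) (E := E) (L := L * q) (B := B))
  let tp : fineEigenHoms L0 c E (L * q) B →ₗ[ℂ]
      fineEigenHoms L0 c E L B × fineEigenHoms L0 c E L B :=
    { toFun := fun x =>
        (⟨_, map_mem_fineEigenHoms hqE _ (degTr_smul hq hqL)
          (fun _ h => degTr_mem_newEigenHoms hq hqL hq0 hqB h)
          (fun _ hℓ h => degTr_heckeHom hq hqL hℓ h) x.2⟩,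
        ⟨_, map_mem_fineEigenHoms hqE _ (degTr'_smul hq hqL)
          (fun _ h => degTr'_mem_newEigenHoms hq hqL hq0 hqB h)
          (fun _ hℓ h => degTr'_heckeHom hq hqL hℓ h) x.2⟩)
      map_add' := fun _ _ => Prod.ext (Subtype.ext (map_add _ _ _)) (Subtype.ext (map_add _ _ _))
      map_smul' := fun z _ => Prod.ext (Subtype.ext (degTr_smul hq hqL z _))
        (Subtype.ext (degTr'_smul hq hqL z _)) }
  let dp : fineEigenHoms L0 c E L B × fineEigenHoms L0 c E L B →ₗ[ℂ]
      fineEigenHoms L0 c E (L * q) B :=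
    { toFun := fun p => ⟨degRes L q ℂ p.1 + degBeta L q ℂ p.2,
        add_mem (map_mem_fineEigenHoms hqE _ degRes_smul
            (fun _ h => degRes_mem_newEigenHoms hq hq0 hqB h)
            (fun _ hℓ h => degRes_heckeHom hq hℓ h) p.1.2)
          (map_mem_fineEigenHoms hqE _ degBeta_smul
            (fun _ h => degBeta_mem_newEigenHoms hq hq0 hqB h)
            (fun _ hℓ h => degBeta_heckeHom hq hℓ h) p.2.2)⟩
      map_add' := fun p p' => Subtype.ext (by
        simp only [Prod.fst_add, Prod.snd_add, Submodule.coe_add, map_add]; abel)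
      map_smul' := fun z p => Subtype.ext (by
        simp only [Prod.smul_fst, Prod.smul_snd, SetLike.val_smul, degRes_smul, degBeta_smul,
          RingHom.id_apply, smul_add]) }
  have hinj : Function.Injective (tp.comp dp) := by
    intro p p' h
    have h' : incl₁.prodMap incl₁ p = incl₁.prodMap incl₁ p' :=
      (trPair_degPair_bijective hq hqL hq0 hqB).1
        (congrArg (incl₁.prodMap incl₁) h)
    exact Prod.ext (Submodule.inclusion_injective fineEigenHoms_le (congrArg Prod.fst h' :))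
      (Submodule.inclusion_injective fineEigenHoms_le (congrArg Prod.snd h' :))
  have hsurj : Function.Surjective tp :=
    Function.Surjective.of_comp (g := dp) (LinearMap.surjective_of_injective hinj)
  have h1 := LinearMap.finrank_range_add_finrank_ker tp
  rw [LinearMap.range_eq_top.2 hsurj, finrank_top, Module.finrank_prod] at h1
  have hle : fineEigenHoms L0 c E (L * q) (insert q B) ≤ fineEigenHoms L0 c E (L * q) B :=
    fun φ hφ => ⟨((newEigenHoms_insert hq).1 hφ.1).1, hφ.2⟩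
  have hker : LinearMap.ker tp = (fineEigenHoms L0 c E (L * q) (insert q B)).comap
      (fineEigenHoms L0 c E (L * q) B).subtype := by
    ext x
    have hiff := mem_ker_trPair_iff hq hqL hq0 hqB (inclq x)
    constructor
    · intro hx
      refine ⟨(newEigenHoms_insert hq).2 ⟨(inclq x).2, hiff.1 ?_⟩, x.2.2⟩
      exact congrArg (incl₁.prodMap incl₁) hx
    · intro hx
      have h0 := hiff.2 ((newEigenHoms_insert hq).1 hx.1).2
      exact Prod.ext (Subtype.ext (congrArg (fun p => (p.1 : Additive (Gamma0 L) →+ ℂ)) h0))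
        (Subtype.ext (congrArg (fun p => (p.2 : Additive (Gamma0 L) →+ ℂ)) h0))
  rw [hker, (Submodule.comapSubtypeEquivOfLe hle).finrank_eq] at h1
  omega

/-- The dimension of a fine part. -/
def fineRank (L0 : ℕ) (c : ℕ → ℂ) (E : Finset ℕ) (L : ℕ) (B : Finset ℕ) : ℕ :=
  finrank ℂ (fineEigenHoms L0 c E L B)

theorem fineRank_mul_prime [NeZero L] (hq : q.Prime) (hqL : ¬ q ∣ L) (hq0 : q ∣ L0) (hqB : q ∉ B)
    (hqE : q ∉ E) : fineRank L0 c E (L * q) B =
      fineRank L0 c E (L * q) (insert q B) + 2 * fineRank L0 c E L B :=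
  finrank_fineEigenHoms_mul_prime hq hq0 hqB hqE hqL

/-- The alternating formula for the fine parts. -/
theorem fineRank_alternating (Q : Finset ℕ) (L : ℕ) [NeZero L] (B : Finset ℕ)
    (hQ : ∀ q ∈ Q, q.Prime ∧ ¬ q ∣ L ∧ q ∣ L0 ∧ q ∉ E ∧ q ∉ B) :
    (fineRank L0 c E (L * ∏ q ∈ Q, q) (B ∪ Q) : ℤ) =
      ∑ A ∈ Q.powerset, (-2 : ℤ) ^ (Q \ A).card * fineRank L0 c E (L * ∏ q ∈ A, q) B :=
  alternating_of_step (fun q => q ∣ L0 ∧ q ∉ E) (fun L B => (fineRank L0 c E L B : ℤ))
    (fun L q _ B hq hqL hqP hqB => by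
      exact_mod_cast fineRank_mul_prime hq hqL hqP.1 hqB hqP.2) Q L B
    fun q hq => ⟨(hQ q hq).1, (hQ q hq).2.1, ⟨(hQ q hq).2.2.1, (hQ q hq).2.2.2.1⟩, (hQ q hq).2.2.2.2⟩

end Fermat.Agent.TwoAdic.Count

end
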