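import Fermat.Agent.TwoAdic.Cohom.Part
import Mathlib.Analysis.Complex.Polynomial.Basic
import Mathlib.LinearAlgebra.Eigenspace.Charpoly
import Mathlib.LinearAlgebra.Eigenspace.Pi
import Mathlib.LinearAlgebra.Eigenspace.Triangularizable
import Mathlib.LinearAlgebra.Eigenspace.Zero
import Mathlib.RingTheory.IntegralClosure.IsIntegralClosure.Basic

/-!
# LT2 P4c: eigensystems of commuting integral matrices under reduction

For commuting integral matrices and a ring map `red` from the algebraic integers to a field `k`,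
the part of `kⁿ` at a system `χ` has the dimension of the sum of the parts of `ℂⁿ` at the systems
reducing to `χ`.
-/

set_option autoImplicit false

noncomputable section

open Module Polynomial
open Fermat.Agent.TwoAdic.Cohom

namespace Fermat.Agent.TwoAdic.Count

/-- The algebraic integers in `ℂ`. -/
abbrev AlgInt : Subalgebra ℤ ℂ := integralClosure ℤ ℂ

variable {k : Type*} [Field k] (red : AlgInt →+* k)

/-- `c` takes algebraic integer values reducing to those of `χ`. -/
def IsLift {ι : Type*} (χ : ι → k) (c : ι → ℂ) : Prop :=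
  ∀ i, ∃ a : AlgInt, (a : ℂ) = c i ∧ red a = χ i

section Operators

variable {K V : Type*} [Field K] [AddCommGroup V] [Module K V]

theorem sub_smul_mem_maxGen {X : Module.End K V} {g : K} {x : V}
    (hx : x ∈ X.maxGenEigenspace g) (z : K) :
    x ∈ (X - z • (1 : Module.End K V)).maxGenEigenspace (g - z) := by
  rw [Module.End.mem_maxGenEigenspace] at hx ⊢
  obtain ⟨n, hn⟩ := hx
  refine ⟨n, ?_⟩
  rwa [show X - z • (1 : Module.End K V) - (g - z) • (1 : Module.End K V) =
    X - g • (1 : Module.End K V) by rw [sub_smul]; abel]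

theorem mul_mem_maxGen {X Y : Module.End K V} (h : Commute X Y) {g t : K} {x : V}
    (hX : x ∈ X.maxGenEigenspace g) (hY : x ∈ Y.maxGenEigenspace t) :
    x ∈ (X * Y).maxGenEigenspace (g * t) := by
  rw [Module.End.mem_maxGenEigenspace] at hX hY
  obtain ⟨m, hm⟩ := hX
  obtain ⟨l, hl⟩ := hY
  set A := Y - t • (1 : Module.End K V) with hA
  set B := X - g • (1 : Module.End K V) with hB
  have hXA : Commute X A := h.sub_right ((Commute.one_right X).smul_right t)
  have hu : x ∈ (X * A).genEigenspace 0 ⊤ := by
    rw [← Module.End.maxGenEigenspace, Module.End.mem_maxGenEigenspace]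
    exact ⟨l, by rw [zero_smul, sub_zero, hXA.mul_pow, Module.End.mul_apply, hl, map_zero]⟩
  have hw : x ∈ (t • B).genEigenspace 0 ⊤ := by
    rw [← Module.End.maxGenEigenspace, Module.End.mem_maxGenEigenspace]
    exact ⟨m, by rw [zero_smul, sub_zero, smul_pow, LinearMap.smul_apply, hm, smul_zero]⟩
  have hc : Commute (X * A) (t • B) := by
    refine Commute.smul_right (Commute.mul_left ?_ ?_) t
    · exact (Commute.refl X).sub_right ((Commute.one_right X).smul_right g)
    · exact (hXA.symm).sub_right ((Commute.one_right A).smul_right g)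
  have h' := Module.End.genEigenspace_inf_le_add (X * A) (t • B) 0 0 ⊤ ⊤ hc ⟨hu, hw⟩
  simp only [add_zero, top_add] at h'
  rw [Module.End.mem_maxGenEigenspace]
  obtain ⟨n, hn⟩ := (Module.End.mem_maxGenEigenspace (X * A + t • B) (0 : K) x).mp h'
  refine ⟨n, ?_⟩
  rw [zero_smul, sub_zero] at hn
  have e : X * Y - (g * t) • (1 : Module.End K V) = X * A + t • B := by
    rw [hA, hB, mul_sub, smul_sub, mul_smul_comm, mul_one, smul_smul, mul_comm t g]
    abel
  rwa [e]

variable [FiniteDimensional K V]

theorem pow_finrank_apply_eq_zero {X : Module.End K V} {g : K} {x : V}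
    (hx : x ∈ X.maxGenEigenspace g) {N : ℕ} (hN : finrank K V ≤ N) :
    ((X - g • (1 : Module.End K V)) ^ N) x = 0 := by
  rw [Module.End.maxGenEigenspace_eq_genEigenspace_finrank, Module.End.mem_genEigenspace_nat] at hx
  exact Module.End.pow_map_zero_of_le hN hx

omit [FiniteDimensional K V] in
theorem part_commute_mapsTo {ι : Type*} {T : ι → Module.End K V} {c : ι → K} {G : Module.End K V}
    (hG : ∀ i, Commute G (T i)) {x : V} (hx : x ∈ part T c) : G x ∈ part T c := by
  rw [mem_part] at hx ⊢
  intro i
  obtain ⟨m, hm⟩ := hx i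
  refine ⟨m, ?_⟩
  have : Commute G ((T i - c i • (1 : Module.End K V)) ^ m) :=
    ((hG i).sub_right ((Commute.one_right G).smul_right _)).pow_right m
  rw [← Module.End.mul_apply, ← this.eq, Module.End.mul_apply, hm, map_zero]

/-- An operator with a nonzero generalised eigenvalue on a part maps it onto itself. -/
theorem mem_range_pow_of_mem_part {ι : Type*} {T : ι → Module.End K V} {c : ι → K}
    {G : Module.End K V} (hG : ∀ i, Commute G (T i)) {g : K} (hg : g ≠ 0)
    (hle : part T c ≤ G.maxGenEigenspace g) (N : ℕ) {x : V} (hx : x ∈ part T c) :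
    ∃ y ∈ part T c, (G ^ N) y = x := by
  let R : part T c →ₗ[K] part T c :=
    (G ^ N).restrict fun y hy => part_commute_mapsTo (fun i => (hG i).pow_left N) hy
  have hR : Function.Injective R := by
    rw [injective_iff_map_eq_zero]
    rintro ⟨y, hy⟩ he
    have he' : (G ^ N) y = 0 := congrArg Subtype.val he
    have h0 : y ∈ G.maxGenEigenspace 0 := by
      rw [Module.End.mem_maxGenEigenspace]
      exact ⟨N, by rwa [zero_smul, sub_zero]⟩
    refine Subtype.ext ?_
    show y = 0
    have := (Module.End.disjoint_genEigenspace G hg ⊤ ⊤).le_bot ⟨hle hy, h0⟩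
    exact (Submodule.mem_bot K).mp this
  obtain ⟨y, hy⟩ := LinearMap.surjective_of_injective hR ⟨x, hx⟩
  exact ⟨y, y.2, congrArg Subtype.val hy⟩

theorem finrank_range_pow (G : Module.End K V) {N : ℕ} (hN : finrank K V ≤ N) :
    finrank K (LinearMap.range (G ^ N)) + natTrailingDegree G.charpoly = finrank K V := by
  have hker : LinearMap.ker (G ^ N) = G.maxGenEigenspace 0 := by
    rw [Module.End.maxGenEigenspace_eq_genEigenspace_finrank, Module.End.genEigenspace_nat,
      zero_smul, sub_zero, Module.End.ker_pow_eq_ker_pow_finrank_of_le hN]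
  rw [← LinearMap.finrank_maxGenEigenspace_zero_eq, ← hker,
    LinearMap.finrank_range_add_finrank_ker]

end Operators

theorem finrank_biSup_eq_sum {K V κ : Type*} [Field K] [AddCommGroup V] [Module K V]
    [FiniteDimensional K V] {P : κ → Submodule K V} (hP : iSupIndep P) (s : Finset κ) :
    finrank K (⨆ c ∈ s, P c : Submodule K V) = ∑ c ∈ s, finrank K (P c) := by
  classical
  induction s using Finset.induction with
  | empty => simp
  | insert a s ha ih =>
    rw [Finset.iSup_insert, Finset.sum_insert ha, ← ih]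
    have hd : Disjoint (P a) (⨆ c ∈ s, P c) :=
      hP.disjoint_biSup (y := (s : Set κ)) (Finset.mem_coe.not.mpr ha)
    have h := Submodule.finrank_sup_add_finrank_inf_eq (P a) (⨆ c ∈ s, P c)
    rw [hd.eq_bot, finrank_bot, add_zero] at h
    exact h

section Main

variable {ι n : Type*} [Fintype n] [DecidableEq n] (A : ι → Matrix n n ℤ)
variable {W : Type*} [AddCommGroup W] [Module ℂ W] (b : Basis n ℂ W)
variable {U : Type*} [AddCommGroup U] [Module k U] (b' : Basis n k U)

/-- The ring map `Mat(AlgInt) → End W`. -/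
def toEndC : Matrix n n AlgInt →+* Module.End ℂ W :=
  ((Matrix.toLinAlgEquiv b).toRingEquiv.toRingHom).comp AlgInt.val.toRingHom.mapMatrix

/-- The ring map `Mat(AlgInt) → End U`. -/
def toEndK : Matrix n n AlgInt →+* Module.End k U :=
  ((Matrix.toLinAlgEquiv b').toRingEquiv.toRingHom).comp red.mapMatrix

/-- The operators on `W`. -/
def opsC (i : ι) : Module.End ℂ W :=
  Matrix.toLinAlgEquiv b ((A i).map (Int.castRingHom ℂ))

/-- The operators on `U`. -/
def opsK (i : ι) : Module.End k U :=
  Matrix.toLinAlgEquiv b' ((A i).map (Int.castRingHom k))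

/-- `A i` as a matrix of algebraic integers. -/
def liftMat (i : ι) : Matrix n n AlgInt := (A i).map (Int.castRingHom AlgInt)

/-- A scalar matrix. -/
def scal (z : AlgInt) : Matrix n n AlgInt := z • 1

theorem toEndC_liftMat (i : ι) : toEndC b (liftMat A i) = opsC A b i := by
  show Matrix.toLinAlgEquiv b (((A i).map _).map _) = _
  rw [Matrix.map_map]
  congr 2

theorem toEndK_liftMat (i : ι) : toEndK red b' (liftMat A i) = opsK A b' i := by
  show Matrix.toLinAlgEquiv b' (((A i).map _).map _) = _
  rw [Matrix.map_map]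
  congr 2
  ext x
  simp

theorem toEndC_scal (z : AlgInt) : toEndC b (scal z) = (z : ℂ) • (1 : Module.End ℂ W) := by
  show Matrix.toLinAlgEquiv b ((z • (1 : Matrix n n AlgInt)).map _) = _
  rw [Matrix.map_smul' _ _ _ (map_mul _), Matrix.map_one _ (map_zero _) (map_one _), map_smul,
    map_one]
  rfl

theorem toEndK_scal (z : AlgInt) : toEndK red b' (scal z) = red z • (1 : Module.End k U) := by
  show Matrix.toLinAlgEquiv b' ((z • (1 : Matrix n n AlgInt)).map _) = _
  rw [Matrix.map_smul' _ _ _ (map_mul _), Matrix.map_one _ (map_zero _) (map_one _), map_smul,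
    map_one]

theorem commute_scal (z : AlgInt) (X : Matrix n n AlgInt) : Commute (scal z) X :=
  (Commute.one_left X).smul_left z

theorem toEndC_injective : Function.Injective (toEndC b) :=
  (Matrix.toLinAlgEquiv b).injective.comp
    (Matrix.map_injective Subtype.val_injective : Function.Injective
      (fun X : Matrix n n AlgInt => X.map AlgInt.val))

theorem charpoly_toEndC [FiniteDimensional ℂ W] (X : Matrix n n AlgInt) :
    LinearMap.charpoly (toEndC b X) = X.charpoly.map AlgInt.val.toRingHom := by
  rw [← Matrix.charpoly_map]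
  exact Matrix.charpoly_toLin _ b

theorem charpoly_toEndK [FiniteDimensional k U] (X : Matrix n n AlgInt) :
    LinearMap.charpoly (toEndK red b' X) = X.charpoly.map red := by
  rw [← Matrix.charpoly_map]
  exact Matrix.charpoly_toLin _ b'

variable {A}

theorem commute_liftMat (hA : ∀ i j, Commute (A i) (A j)) (i j : ι) :
    Commute (liftMat A i) (liftMat A j) :=
  (hA i j).map (Int.castRingHom AlgInt).mapMatrix

theorem commute_opsC (hA : ∀ i j, Commute (A i) (A j)) (i j : ι) :
    Commute (opsC A b i) (opsC A b j) := by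
  rw [← toEndC_liftMat, ← toEndC_liftMat]
  exact (commute_liftMat hA i j).map (toEndC b)

/-- The eigenvalues of the operators are algebraic integers. -/
theorem mem_algInt_of_part_ne_bot {c : ι → ℂ} (hc : part (opsC A b) c ≠ ⊥) (i : ι) :
    c i ∈ AlgInt := by
  have : FiniteDimensional ℂ W := b.finiteDimensional_of_finite
  have hev : (opsC A b i).HasEigenvalue (c i) := by
    refine Module.End.hasEigenvalue_of_hasGenEigenvalue (k := finrank ℂ W) ?_
    rw [Module.End.hasGenEigenvalue_iff, ← Module.End.maxGenEigenspace_eq_genEigenspace_finrank]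
    exact fun h => hc (eq_bot_iff.mpr ((iInf_le _ i).trans h.le))
  rw [Module.End.hasEigenvalue_iff_isRoot_charpoly, opsC,
    show LinearMap.charpoly (Matrix.toLinAlgEquiv b ((A i).map (Int.castRingHom ℂ))) =
      ((A i).map (Int.castRingHom ℂ)).charpoly from Matrix.charpoly_toLin _ b,
    Matrix.charpoly_map] at hev
  refine ⟨(A i).charpoly, Matrix.charpoly_monic _, ?_⟩
  rwa [Polynomial.IsRoot, Polynomial.eval_map] at hev

theorem iSupIndep_part (hA : ∀ i j, Commute (A i) (A j)) :
    iSupIndep fun c : ι → ℂ => part (opsC A b) c :=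
  Module.End.independent_iInf_maxGenEigenspace_of_forall_mapsTo _
    fun i j φ => Module.End.mapsTo_maxGenEigenspace_of_comm (commute_opsC b hA j i) φ

theorem iSup_part (hA : ∀ i j, Commute (A i) (A j)) :
    ⨆ c : ι → ℂ, part (opsC A b) c = ⊤ := by
  have : FiniteDimensional ℂ W := b.finiteDimensional_of_finite
  exact Module.End.iSup_iInf_maxGenEigenspace_eq_top_of_iSup_maxGenEigenspace_eq_top_of_commute _
    (fun i j _ => commute_opsC b hA i j) fun i => Module.End.iSup_maxGenEigenspace_eq_top _

theorem finite_systems (hA : ∀ i j, Commute (A i) (A j)) :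
    {c : ι → ℂ | part (opsC A b) c ≠ ⊥}.Finite := by
  have : FiniteDimensional ℂ W := b.finiteDimensional_of_finite
  exact WellFoundedGT.finite_ne_bot_of_iSupIndep (iSupIndep_part b hA)

/-- A matrix separating the lifts of `χ` from the other systems in `s`. -/
theorem exists_separating (hA : ∀ i j, Commute (A i) (A j)) (χ : ι → k) (s : Finset (ι → ℂ))
    (hs : ∀ c ∈ s, (∀ i, c i ∈ AlgInt) ∧ ¬ IsLift red χ c) :
    ∃ G : Matrix n n AlgInt, (∀ i, Commute G (liftMat A i)) ∧
      (∀ c : ι → ℂ, (∀ i, c i ∈ AlgInt) → ∃ g : AlgInt,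
        part (opsC A b) c ≤ (toEndC b G).maxGenEigenspace (g : ℂ) ∧
          (c ∈ s → g = 0) ∧ (IsLift red χ c → red g ≠ 0)) ∧
      ∃ gk : k, gk ≠ 0 ∧ part (opsK A b') χ ≤ (toEndK red b' G).maxGenEigenspace gk := by
  classical
  induction s using Finset.induction with
  | empty =>
    refine ⟨1, fun i => Commute.one_left _, fun c _ => ⟨1, fun x _ => ?_, fun h => ?_, fun _ => ?_⟩,
      1, one_ne_zero, fun x _ => ?_⟩
    · rw [map_one, Module.End.mem_maxGenEigenspace]
      exact ⟨1, by simp⟩
    · exact absurd h (Finset.notMem_empty c)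
    · rw [map_one]; exact one_ne_zero
    · rw [map_one, Module.End.mem_maxGenEigenspace]
      exact ⟨1, by simp⟩
  | insert e s he ih =>
    obtain ⟨G, hG, hC, gk, hgk, hK⟩ := ih fun c hc => hs c (Finset.mem_insert_of_mem hc)
    obtain ⟨heint, hebad⟩ := hs e (Finset.mem_insert_self e s)
    obtain ⟨i, hi⟩ : ∃ i, red ⟨e i, heint i⟩ ≠ χ i := by
      by_contra h
      push Not at h
      exact hebad fun i => ⟨⟨e i, heint i⟩, rfl, h i⟩
    set z : AlgInt := ⟨e i, heint i⟩ with hz
    set Y := liftMat A i - scal z with hY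
    have hYC : toEndC b Y = opsC A b i - (z : ℂ) • (1 : Module.End ℂ W) := by
      rw [hY, map_sub, toEndC_liftMat, toEndC_scal]
    have hYK : toEndK red b' Y = opsK A b' i - red z • (1 : Module.End k U) := by
      rw [hY, map_sub, toEndK_liftMat, toEndK_scal]
    have hGY : Commute G Y := (hG i).sub_right (commute_scal z G).symm
    refine ⟨G * Y, fun j => ?_, fun c hc => ?_, gk * (χ i - red z), ?_, fun x hx => ?_⟩
    · exact (hG j).mul_left ((commute_liftMat hA i j).sub_left (commute_scal z _))
    · obtain ⟨g, hg, hgs, hgl⟩ := hC c hc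
      refine ⟨g * (⟨c i, hc i⟩ - z), fun x hx => ?_, fun hcs => ?_, fun hl => ?_⟩
      · rw [map_mul]
        refine mul_mem_maxGen (hGY.map _) (hg hx) ?_
        rw [hYC]
        exact sub_smul_mem_maxGen ((iInf_le _ i : part (opsC A b) c ≤ _) hx) _
      · rcases Finset.mem_insert.mp hcs with rfl | h
        · rw [hz, sub_self, mul_zero]
        · rw [hgs h, zero_mul]
      · rw [map_mul, map_sub]
        refine mul_ne_zero (hgl hl) (sub_ne_zero.mpr ?_)
        obtain ⟨a, ha, har⟩ := hl i
        rw [show (⟨c i, hc i⟩ : AlgInt) = a from Subtype.ext ha.symm, har]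
        exact hi.symm
    · exact mul_ne_zero hgk (sub_ne_zero.mpr hi.symm)
    · rw [map_mul]
      refine mul_mem_maxGen (hGY.map _) (hK hx) ?_
      rw [hYK]
      exact sub_smul_mem_maxGen ((iInf_le _ i : part (opsK A b') χ ≤ _) hx) _

/-- A matrix killing the lifts in `s` whose reduction is a power of `T i - χ i`. -/
theorem exists_killing (hA : ∀ i j, Commute (A i) (A j)) (χ : ι → k) (s : Finset (ι → ℂ))
    (hs : ∀ c ∈ s, IsLift red χ c) (G : Matrix n n AlgInt)
    (hG : ∀ i, Commute G (liftMat A i)) (i : ι) :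
    ∃ (H : Matrix n n AlgInt) (m : ℕ), Commute G H ∧ (∀ j, Commute H (liftMat A j)) ∧
      (∀ c ∈ s, ∀ x ∈ part (opsC A b) c, toEndC b H x = 0) ∧
      toEndK red b' H = (opsK A b' i - χ i • (1 : Module.End k U)) ^ m := by
  classical
  have : FiniteDimensional ℂ W := b.finiteDimensional_of_finite
  induction s using Finset.induction with
  | empty =>
    exact ⟨1, 0, Commute.one_right _, fun _ => Commute.one_left _,
      fun c hc => absurd hc (Finset.notMem_empty c), by rw [map_one, pow_zero]⟩
  | insert e s he ih =>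
    obtain ⟨H, m, hGH, hHA, hH, hHK⟩ := ih fun c hc => hs c (Finset.mem_insert_of_mem hc)
    obtain ⟨a, ha, har⟩ := hs e (Finset.mem_insert_self e s) i
    set Y := (liftMat A i - scal a) ^ finrank ℂ W with hY
    have hYA : ∀ j, Commute Y (liftMat A j) := fun j =>
      ((commute_liftMat hA i j).sub_left (commute_scal a _)).pow_left _
    have hGY : Commute G Y := ((hG i).sub_right (commute_scal a G).symm).pow_right _
    refine ⟨H * Y, m + finrank ℂ W, hGH.mul_right hGY, fun j => (hHA j).mul_left (hYA j), ?_, ?_⟩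
    · intro c hc x hx
      rw [map_mul, Module.End.mul_apply]
      rcases Finset.mem_insert.mp hc with rfl | h
      · rw [hY, map_pow, map_sub, toEndC_liftMat, toEndC_scal, ha,
          pow_finrank_apply_eq_zero ((iInf_le _ i : part (opsC A b) c ≤ _) hx) le_rfl, map_zero]
      · refine hH c h _ (part_commute_mapsTo (fun j => ?_) hx)
        rw [← toEndC_liftMat]
        exact (hYA j).map _
    · rw [map_mul, hHK, hY, map_pow, map_sub, toEndK_liftMat, toEndK_scal, har, pow_add]

/-- The nonzero eigenvalues of a separating matrix have nonzero reduction, so reduction keeps the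
multiplicity of the eigenvalue zero. -/
theorem natTrailingDegree_map_red (P : AlgInt[X]) (hP : P.Monic)
    (hroots : ∀ l : ℂ, l ≠ 0 → (P.map AlgInt.val.toRingHom).IsRoot l →
      ∃ a : AlgInt, (a : ℂ) = l ∧ red a ≠ 0) :
    natTrailingDegree (P.map red) = natTrailingDegree (P.map AlgInt.val.toRingHom) := by
  obtain ⟨Q, hQ, hX⟩ := exists_eq_pow_rootMultiplicity_mul_and_not_dvd P hP.ne_zero 0
  rw [map_zero, sub_zero] at hQ hX
  set N := P.rootMultiplicity 0
  have hQm : Q.Monic := (monic_X_pow N).of_mul_monic_left (hQ ▸ hP)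
  have key : ∀ {S : Type} [CommRing S] [IsDomain S] (f : AlgInt →+* S), f (Q.coeff 0) ≠ 0 →
      natTrailingDegree (P.map f) = N := fun f hf => by
    rw [hQ, Polynomial.map_mul, Polynomial.map_pow, Polynomial.map_X, mul_comm,
      natTrailingDegree_mul_X_pow (hQm.map f).ne_zero,
      natTrailingDegree_eq_zero_of_constantCoeff_ne_zero
        (by rwa [constantCoeff_apply, coeff_map]), zero_add]
  have hQ0 : Q.coeff 0 ≠ 0 := fun h => hX (X_dvd_iff.mpr h)
  have hQred : red (Q.coeff 0) ≠ 0 := by
    set QC := Q.map AlgInt.val.toRingHom with hQC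
    have h0 := (IsAlgClosed.splits QC).coeff_zero_eq_prod_roots_of_monic (hQm.map _)
    obtain ⟨a, ha, har⟩ : ∃ a : AlgInt, (a : ℂ) = QC.roots.prod ∧ red a ≠ 0 := by
      refine Multiset.prod_induction (fun z : ℂ => ∃ a : AlgInt, (a : ℂ) = z ∧ red a ≠ 0) _ ?_
        ⟨1, rfl, by rw [map_one]; exact one_ne_zero⟩ fun l hl => ?_
      · rintro x y ⟨a, rfl, ha⟩ ⟨a', rfl, ha'⟩
        exact ⟨a * a', rfl, by rw [map_mul]; exact mul_ne_zero ha ha'⟩
      · have hl' := (mem_roots (hQm.map _).ne_zero).mp hl
        refine hroots l ?_ ?_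
        · rintro rfl
          rw [Polynomial.IsRoot, ← coeff_zero_eq_eval_zero, coeff_map] at hl'
          exact hQ0 (Subtype.ext hl')
        · rw [hQ, Polynomial.map_mul, Polynomial.IsRoot, eval_mul,
            show (Q.map AlgInt.val.toRingHom).eval l = 0 from hl', mul_zero]
    rw [hQC, coeff_map, ← hQC, ← ha] at h0
    have e : Q.coeff 0 = (-1 : AlgInt) ^ QC.natDegree * a := Subtype.ext (by simpa using h0)
    rw [e, map_mul, map_pow, map_neg, map_one]
    exact mul_ne_zero (pow_ne_zero _ (neg_ne_zero.mpr one_ne_zero)) har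
  have hC0 : AlgInt.val.toRingHom (Q.coeff 0) ≠ 0 := fun h => hQ0 (Subtype.ext h)
  rw [key AlgInt.val.toRingHom hC0]
  rw [hQ, Polynomial.map_mul, Polynomial.map_pow, Polynomial.map_X, mul_comm,
    natTrailingDegree_mul_X_pow (hQm.map red).ne_zero,
    natTrailingDegree_eq_zero_of_constantCoeff_ne_zero
      (by rwa [constantCoeff_apply, coeff_map]), zero_add]

/-- The part at `χ` has the total dimension of the parts at the lifts of `χ`. -/
theorem finrank_part_reduce (hA : ∀ i j, Commute (A i) (A j)) (χ : ι → k)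
    (S : Finset (ι → ℂ)) (hSlift : ∀ c ∈ S, IsLift red χ c)
    (hSall : ∀ c, IsLift red χ c → part (opsC A b) c ≠ ⊥ → c ∈ S) :
    finrank k (part (opsK A b') χ) = ∑ c ∈ S, finrank ℂ (part (opsC A b) c) := by
  classical
  have : FiniteDimensional ℂ W := b.finiteDimensional_of_finite
  have : FiniteDimensional k U := b'.finiteDimensional_of_finite
  set F := (finite_systems b hA).toFinset with hF
  set bad := F.filter fun c => ¬ IsLift red χ c with hbad
  have hmemF : ∀ {c}, c ∈ F ↔ part (opsC A b) c ≠ ⊥ := by simp [hF]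
  obtain ⟨G, hG, hC, gk, hgk, hK⟩ := exists_separating red b b' hA χ bad fun c hc => by
    rw [hbad, Finset.mem_filter, hmemF] at hc
    exact ⟨mem_algInt_of_part_ne_bot b hc.1, hc.2⟩
  have hGC : ∀ i, Commute (toEndC b G) (opsC A b i) := fun i => by
    rw [← toEndC_liftMat]; exact (hG i).map _
  have hGK : ∀ i, Commute (toEndK red b' G) (opsK A b' i) := fun i => by
    rw [← toEndK_liftMat]; exact (hG i).map _
  set N := Fintype.card n with hN
  have hNC : finrank ℂ W ≤ N := (Module.finrank_eq_card_basis b).le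
  have hNK : finrank k U ≤ N := (Module.finrank_eq_card_basis b').le
  -- on a system outside `S` the matrix is nilpotent
  have hkill : ∀ c, c ∉ S → ∀ x ∈ part (opsC A b) c, (toEndC b G ^ N) x = 0 := by
    intro c hcS x hx
    rcases eq_or_ne (part (opsC A b) c) ⊥ with h | h
    · rw [h, Submodule.mem_bot] at hx
      rw [hx, map_zero]
    · obtain ⟨g, hg, hgs, -⟩ := hC c (mem_algInt_of_part_ne_bot b h)
      have hcb : c ∈ bad := Finset.mem_filter.mpr ⟨hmemF.mpr h, fun hl => hcS (hSall c hl h)⟩
      have := pow_finrank_apply_eq_zero (hg hx) hNC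
      rwa [hgs hcb, ZeroMemClass.coe_zero, zero_smul, sub_zero] at this
  -- dimension over `ℂ`
  have hrangeC : LinearMap.range (toEndC b G ^ N) = ⨆ c ∈ S, part (opsC A b) c := by
    refine le_antisymm ?_ (iSup₂_le fun c hc x hx => ?_)
    · rw [LinearMap.range_eq_map, ← iSup_part b hA, Submodule.map_iSup]
      refine iSup_le fun c => ?_
      rintro _ ⟨x, hx, rfl⟩
      by_cases hcS : c ∈ S
      · exact Submodule.mem_iSup_of_mem c (Submodule.mem_iSup_of_mem hcS
          (part_commute_mapsTo (fun i => (hGC i).pow_left N) hx))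
      · rw [hkill c hcS x hx]; exact zero_mem _
    · rcases eq_or_ne (part (opsC A b) c) ⊥ with h | h
      · rw [h, Submodule.mem_bot] at hx
        rw [hx]; exact zero_mem _
      · obtain ⟨g, hg, -, hgl⟩ := hC c (mem_algInt_of_part_ne_bot b h)
        have hg0 : (g : ℂ) ≠ 0 := fun h0 => hgl (hSlift c hc) (by
          rw [show g = 0 from Subtype.ext h0, map_zero])
        obtain ⟨y, -, hy⟩ := mem_range_pow_of_mem_part hGC hg0 hg N hx
        exact ⟨y, hy⟩
  have hC' : ∑ c ∈ S, finrank ℂ (part (opsC A b) c) +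
      natTrailingDegree (G.charpoly.map AlgInt.val.toRingHom) = N := by
    rw [← finrank_biSup_eq_sum (iSupIndep_part b hA), ← hrangeC, ← charpoly_toEndC b,
      finrank_range_pow _ hNC, Module.finrank_eq_card_basis b]
  -- dimension over `k`
  have hrangeK : LinearMap.range (toEndK red b' G ^ N) = part (opsK A b') χ := by
    refine le_antisymm ?_ fun x hx => ?_
    · rintro _ ⟨y, rfl⟩
      rw [mem_part]
      intro i
      obtain ⟨H, m, hGH, hHA, hH, hHK⟩ := exists_killing red b b' hA χ S hSlift G hG i
      have hzero : H * G ^ N = 0 := by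
        refine toEndC_injective b ?_
        rw [map_zero, map_mul, map_pow]
        refine LinearMap.ker_eq_top.mp (eq_top_iff.mpr ((iSup_part b hA).symm.le.trans
          (iSup_le fun c x hx => ?_)))
        rw [LinearMap.mem_ker, Module.End.mul_apply]
        by_cases hcS : c ∈ S
        · exact hH c hcS _ (part_commute_mapsTo (fun j => (hGC j).pow_left N) hx)
        · rw [hkill c hcS x hx, map_zero]
      refine ⟨m, ?_⟩
      have h := congrArg (fun X => toEndK red b' X y) hzero
      simp only [map_mul, map_pow, map_zero, LinearMap.zero_apply, Module.End.mul_apply] at h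
      rwa [← hHK]
    · obtain ⟨y, -, hy⟩ := mem_range_pow_of_mem_part hGK hgk hK N hx
      exact ⟨y, hy⟩
  have hK' : finrank k (part (opsK A b') χ) + natTrailingDegree (G.charpoly.map red) = N := by
    rw [← hrangeK, ← charpoly_toEndK red b', finrank_range_pow _ hNK,
      Module.finrank_eq_card_basis b']
  have htd := natTrailingDegree_map_red red G.charpoly (Matrix.charpoly_monic _) fun l hl0 hl => by
    rw [← charpoly_toEndC b, ← Module.End.hasEigenvalue_iff_isRoot_charpoly] at hl
    obtain ⟨v, hv⟩ := hl.exists_hasEigenvector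
    have hv' : toEndC b G v = l • v := hv.apply_eq_smul
    have hvr : v ∈ LinearMap.range (toEndC b G ^ N) := by
      refine ⟨(l ^ N)⁻¹ • v, ?_⟩
      have hpow : ∀ m : ℕ, (toEndC b G ^ m) v = l ^ m • v := by
        intro m
        induction m with
        | zero => simp
        | succ m ih => rw [pow_succ', Module.End.mul_apply, ih, map_smul, hv', smul_smul, pow_succ]
      rw [map_smul, hpow, smul_smul, inv_mul_cancel₀ (pow_ne_zero _ hl0), one_smul]
    rw [hrangeC] at hvr
    by_contra hno
    push Not at hno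
    -- otherwise every part in `S` avoids the eigenvalue `l`
    have hle : (⨆ c ∈ S, part (opsC A b) c) ≤
        ⨆ μ ∈ {μ : ℂ | μ ≠ l}, (toEndC b G).maxGenEigenspace μ := by
      refine iSup₂_le fun c hc x hx => ?_
      rcases eq_or_ne (part (opsC A b) c) ⊥ with h | h
      · rw [h, Submodule.mem_bot] at hx
        rw [hx]; exact zero_mem _
      · obtain ⟨g, hg, -, hgl⟩ := hC c (mem_algInt_of_part_ne_bot b h)
        exact Submodule.mem_iSup_of_mem (g : ℂ) (Submodule.mem_iSup_of_mem
          (fun he => hgl (hSlift c hc) (hno g he)) (hg hx))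
    have hvl : v ∈ (toEndC b G).maxGenEigenspace l := by
      rw [Module.End.mem_maxGenEigenspace]
      exact ⟨1, by simp [hv']⟩
    have hdis := (Module.End.independent_maxGenEigenspace (toEndC b G)).disjoint_biSup
      (y := {μ : ℂ | μ ≠ l}) (x := l) (by simp)
    exact hv.2 ((Submodule.mem_bot ℂ).mp (hdis.le_bot ⟨hvl, hle hvr⟩))
  rw [htd] at hK'
  omega

end Main

end Fermat.Agent.TwoAdic.Count

end
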