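import Fermat.Agent.TwoAdic.Cohom.HeartCount
import Fermat.Agent.TwoAdic.Count.LiftSystems
import Fermat.Agent.TwoAdic.Count.Fine
import Fermat.Agent.RT.Systems.EisensteinKill
import Fermat.Agent.Hecke.GoodSemisimple
import Mathlib.LinearAlgebra.Eigenspace.Semisimple

/-!
# LT2 P4c: from classes with values in a finite field to complex eigen classes

For `Γ₀(L)/±1` torsion-free every homomorphism to a field `k` lifts to an integral one. So the part
of `Hom(Γ₀(L)/±1, k)` at a system `χ` has the dimension of the sum of the parts of `Hom(Γ₀(L), ℂ)`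
at the systems reducing to `χ`; away from Eisenstein systems these consist of parabolic classes on
which the operators at primes not dividing `L` are scalars.
-/

set_option autoImplicit false

noncomputable section

open CongruenceSubgroup ModularCurve ModularCurve.Period Module
open Fermat.Agent.Periods Fermat.Agent.TwoAdic.Cohom
open scoped MatrixGroups

namespace Fermat.Agent.TwoAdic.Count

section Basis

/-- A finitely generated subgroup has integral homomorphisms dual to finitely many elements through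
which every complex homomorphism factors. -/
theorem exists_integralBasis (Γ : Subgroup SL(2, ℤ)) [Group.FG Γ] :
    ∃ (r : ℕ) (γ : Fin r → Γ) (e : Fin r → (Additive Γ →+ ℤ)),
      (∀ i j, e i (Additive.ofMul (γ j)) = if i = j then 1 else 0) ∧
      ∀ (φ : Additive Γ →+ ℂ) (g : Additive Γ),
        φ g = ∑ i, (e i g : ℂ) * φ (Additive.ofMul (γ i)) := by
  classical
  let ev : Additive Γ →+ Module.Dual ℂ (Additive Γ →+ ℂ) :=
    AddMonoidHom.mk'
      (fun g =>
        { toFun := fun φ => φ g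
          map_add' := fun _ _ => rfl
          map_smul' := fun _ _ => rfl })
      (fun g h => LinearMap.ext fun φ => map_add φ g h)
  let M : Submodule ℤ (Module.Dual ℂ (Additive Γ →+ ℂ)) := AddSubgroup.toIntSubmodule ev.range
  have : AddGroup.FG (Additive Γ) := GroupFG.iff_add_fg.mp inferInstance
  have : AddGroup.FG ev.range := AddGroup.fg_of_surjective ev.rangeRestrict_surjective
  have : Module.Finite ℤ M :=
    Module.Finite.iff_addGroup_fg.mpr (inferInstanceAs (AddGroup.FG ev.range))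
  have : Module.IsTorsionFree ℤ M :=
    Function.Injective.moduleIsTorsionFree _ M.injective_subtype (fun _ _ => rfl)
  have : Module.Free ℤ M := Module.free_of_finite_type_torsion_free'
  let b := Module.finBasis ℤ M
  have hγ : ∀ i, ∃ g : Γ, ev (Additive.ofMul g) = (b i : Module.Dual ℂ (Additive Γ →+ ℂ)) :=
    fun i => (b i).2
  choose γ hγ using hγ
  let evM : Additive Γ →+ M := ev.rangeRestrict
  refine ⟨_, γ, fun i => ((b.coord i).toAddMonoidHom).comp evM, fun i j => ?_, fun φ g => ?_⟩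
  · have h0 : evM (Additive.ofMul (γ j)) = b j := Subtype.ext (hγ j)
    show b.coord i (evM (Additive.ofMul (γ j))) = _
    rw [h0, Basis.coord_apply, b.repr_self, Finsupp.single_apply]
    simp [eq_comm]
  · have h0 : (∑ i, b.coord i (evM g) • (b i : Module.Dual ℂ (Additive Γ →+ ℂ))) = ev g :=
      (Submodule.coe_sum M (fun i => b.coord i (evM g) • b i) _).symm.trans
        (congrArg Subtype.val (b.sum_repr (evM g)))
    have h1 := LinearMap.congr_fun h0 φ
    rw [LinearMap.coe_sum, Finset.sum_apply] at h1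
    refine h1.symm.trans (Finset.sum_congr rfl fun i _ => ?_)
    rw [LinearMap.smul_apply, ← Int.cast_smul_eq_zsmul ℂ, smul_eq_mul, ← hγ i]
    rfl

variable {Γ : Subgroup SL(2, ℤ)} {r : ℕ} {γ : Fin r → Γ} {e : Fin r → (Additive Γ →+ ℤ)}

/-- The expansion holds for homomorphisms to free `ℤ`-modules. -/
theorem expansion_finsupp
    (hexp : ∀ (φ : Additive Γ →+ ℂ) (g : Additive Γ),
      φ g = ∑ i, (e i g : ℂ) * φ (Additive.ofMul (γ i)))
    {X : Type*} (Φ : Additive Γ →+ (X →₀ ℤ)) (g : Additive Γ) :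
    Φ g = ∑ i, e i g • Φ (Additive.ofMul (γ i)) := by
  ext x
  have h := hexp ((Int.castAddHom ℂ).comp ((Finsupp.applyAddHom x).comp Φ)) g
  simp only [AddMonoidHom.comp_apply, Int.coe_castAddHom, Finsupp.applyAddHom_apply] at h
  have h' : Φ g x = ∑ i, e i g * Φ (Additive.ofMul (γ i)) x := by exact_mod_cast h
  rw [h', Finsupp.finsetSum_apply]
  simp

end Basis

section Ops

variable {L : ℕ} {S : Set ℕ} (hS : ∀ ℓ ∈ S, ℓ.Prime)

/-- The Hecke operators at the primes of `S` on complex classes. -/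
def opsComplex (L : ℕ) (ℓ : S) : Module.End ℂ (Additive (Gamma0 L) →+ ℂ) :=
  heckeHom ℂ ℂ (hS ℓ ℓ.2)

variable (k : Type*) [Field k]

/-- The Hecke operators at the primes of `S` on classes with values in `k` killing `-1`. -/
def opsNegOne (L : ℕ) (ℓ : S) : Module.End k (negOneHoms k k L) :=
  (heckeHom k k (hS ℓ ℓ.2)).restrict fun _ hφ => heckeHom_mem_negOneHoms (hS ℓ ℓ.2) hφ

theorem coe_opsNegOne (ℓ : S) (φ : negOneHoms k k L) :
    (opsNegOne hS k L ℓ φ).1 = heckeHom k k (hS ℓ ℓ.2) φ.1 := rfl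

variable {k}

theorem intHom_negOne (ψ : Additive (Gamma0 L) →+ ℤ) :
    ψ (Additive.ofMul (negOne L)) = 0 := by
  have h : negOne L * negOne L = 1 := by
    apply gammaMat_injective
    simp [gammaMat_mul, gammaMat_negOne, gammaMat_one]
  have h2 : ψ (Additive.ofMul (negOne L)) + ψ (Additive.ofMul (negOne L)) = 0 := by
    rw [← map_add, ← ofMul_mul, h, ofMul_one, map_zero]
  omega

/-- Homomorphisms to `k` killing `-1` lift to free `ℤ`-modules. -/
theorem exists_lift_finsupp [NeZero L] (htf : IsTorsionFreeMod L) (φ : negOneHoms k k L) :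
    ∃ Φ : Additive (Gamma0 L) →+ (k →₀ ℤ), ∀ g, Finsupp.linearCombination ℤ id (Φ g) = φ.1 g := by
  let u : (k →₀ ℤ) →ₗ[ℤ] k := Finsupp.linearCombination ℤ id
  have hus : Function.Surjective u := fun x => ⟨Finsupp.single x 1, by simp [u]⟩
  let h₀ : cocycles L (Representation.trivial ℤ (GL (Fin 2) (ZMod 1)) k) :=
    ⟨fun g => φ.1 (Additive.ofMul g), fun g h => by
      show φ.1 (Additive.ofMul (g * h)) = _
      rw [ofMul_mul, map_add]; rfl, φ.2⟩
  obtain ⟨f, hf⟩ := cocyclesMap_surjective (M := L)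
    (ρ := Representation.trivial ℤ (GL (Fin 2) (ZMod 1)) (k →₀ ℤ)) (by ext; simp) htf u
    (fun g a => by simp) hus h₀
  refine ⟨(cocyclesTrivial f).1, fun g => ?_⟩
  obtain ⟨g, rfl⟩ := Additive.ofMul.surjective g
  exact congrFun (congrArg Subtype.val hf) g

/-- **Rank transfer.** The part of `Hom(Γ₀(L)/±1, k)` at `χ` has the dimension of the sum of the
complex parts at the lifts of `χ`. -/
theorem finrank_part_negOneHoms [NeZero L] (htf : IsTorsionFreeMod L) (red : AlgInt →+* k)
    (χ : ℕ → k) (CC : Finset (S → ℂ))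
    (hlift : ∀ c ∈ CC, IsLift red (fun ℓ : S => χ ℓ) c)
    (hall : ∀ c, IsLift red (fun ℓ : S => χ ℓ) c → part (opsComplex hS L) c ≠ ⊥ → c ∈ CC) :
    finrank k (part (opsNegOne hS k L) fun ℓ : S => χ ℓ) =
      ∑ c ∈ CC, finrank ℂ (part (opsComplex hS L) c) := by
  classical
  have := groupFG_gamma0 L
  obtain ⟨r, γ, e, hdual, hexp⟩ := exists_integralBasis (Gamma0 L)
  -- coordinates over `ℂ`
  let coordC : (Additive (Gamma0 L) →+ ℂ) ≃ₗ[ℂ] (Fin r → ℂ) :=
    { toFun := fun φ i => φ (Additive.ofMul (γ i))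
      map_add' := fun _ _ => rfl
      map_smul' := fun _ _ => rfl
      invFun := fun a => ∑ i, a i • (Int.castAddHom ℂ).comp (e i)
      left_inv := fun φ => AddMonoidHom.ext fun g => by
        rw [AddMonoidHom.finsetSum_apply, hexp φ g]
        exact Finset.sum_congr rfl fun i _ => mul_comm _ _
      right_inv := fun a => funext fun j => by
        dsimp only
        rw [AddMonoidHom.finsetSum_apply, Finset.sum_eq_single j]
        · simp [hdual]
        · intro i _ hij; simp [hdual, hij]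
        · simp }
  -- coordinates over `k`
  have hek : ∀ i, (Int.castAddHom k).comp (e i) ∈ negOneHoms k k L := fun i => by
    show ((e i (Additive.ofMul (negOne L)) : ℤ) : k) = 0
    rw [intHom_negOne, Int.cast_zero]
  have hexpk : ∀ (φ : negOneHoms k k L) (g : Additive (Gamma0 L)),
      φ.1 g = ∑ i, (e i g : k) * φ.1 (Additive.ofMul (γ i)) := by
    intro φ g
    obtain ⟨Φ, hΦ⟩ := exists_lift_finsupp htf φ
    rw [← hΦ g, expansion_finsupp hexp Φ g, map_sum]
    refine Finset.sum_congr rfl fun i _ => ?_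
    rw [map_zsmul, hΦ, zsmul_eq_mul]
  let coordK : negOneHoms k k L ≃ₗ[k] (Fin r → k) :=
    { toFun := fun φ i => φ.1 (Additive.ofMul (γ i))
      map_add' := fun _ _ => rfl
      map_smul' := fun _ _ => rfl
      invFun := fun a => ∑ i, a i • ⟨_, hek i⟩
      left_inv := fun φ => Subtype.ext (AddMonoidHom.ext fun g => by
        rw [Submodule.coe_sum, AddMonoidHom.finsetSum_apply, hexpk φ g]
        exact Finset.sum_congr rfl fun i _ => mul_comm _ _)
      right_inv := fun a => funext fun j => by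
        dsimp only
        rw [Submodule.coe_sum, AddMonoidHom.finsetSum_apply, Finset.sum_eq_single j]
        · simp [hdual]
        · intro i _ hij; simp [hdual, hij]
        · simp }
  let b := Basis.ofEquivFun coordC
  let b' := Basis.ofEquivFun coordK
  let A : S → Matrix (Fin r) (Fin r) ℤ := fun ℓ => Matrix.of fun j i =>
    heckeHom ℤ ℤ (hS ℓ ℓ.2) (e i) (Additive.ofMul (γ j))
  have hcoordC : ∀ i, b i = (Int.castAddHom ℂ).comp (e i) := fun i => by
    refine coordC.injective (funext fun j => ?_)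
    rw [Basis.coe_ofEquivFun, LinearEquiv.apply_symm_apply]
    show _ = ((e i (Additive.ofMul (γ j)) : ℤ) : ℂ)
    simp [hdual, Pi.single_apply, eq_comm]
  have hcoordK : ∀ i, b' i = ⟨_, hek i⟩ := fun i => by
    refine coordK.injective (funext fun j => ?_)
    rw [Basis.coe_ofEquivFun, LinearEquiv.apply_symm_apply]
    show _ = ((e i (Additive.ofMul (γ j)) : ℤ) : k)
    simp [hdual, Pi.single_apply, eq_comm]
  have hopC : opsC A b = opsComplex hS L := funext fun ℓ => by
    apply (LinearMap.toMatrixAlgEquiv b).injective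
    rw [opsC, LinearMap.toMatrixAlgEquiv_toLinAlgEquiv]
    ext j i
    rw [LinearMap.toMatrixAlgEquiv_apply, Basis.ofEquivFun_repr_apply, hcoordC, Matrix.map_apply]
    show _ = heckeHom ℂ ℂ (hS ℓ ℓ.2) ((Int.castAddHom ℂ).comp (e i)) (Additive.ofMul (γ j))
    rw [heckeHom_apply, eq_intCast, show A ℓ j i = heckeHom ℤ ℤ (hS ℓ ℓ.2) (e i) (Additive.ofMul (γ j))
      from rfl, heckeHom_apply, Int.cast_sum]
    rfl
  have hopK : opsK A b' = opsNegOne hS k L := funext fun ℓ => by
    apply (LinearMap.toMatrixAlgEquiv b').injective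
    rw [opsK, LinearMap.toMatrixAlgEquiv_toLinAlgEquiv]
    ext j i
    rw [LinearMap.toMatrixAlgEquiv_apply, Basis.ofEquivFun_repr_apply, hcoordK, Matrix.map_apply]
    show _ = heckeHom k k (hS ℓ ℓ.2) ((Int.castAddHom k).comp (e i)) (Additive.ofMul (γ j))
    rw [heckeHom_apply, eq_intCast, show A ℓ j i = heckeHom ℤ ℤ (hS ℓ ℓ.2) (e i) (Additive.ofMul (γ j))
      from rfl, heckeHom_apply, Int.cast_sum]
    rfl
  have hA : ∀ i j, Commute (A i) (A j) := fun i j => by
    have h : Commute (opsC A b i) (opsC A b j) := by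
      rw [hopC]; exact heckeHom_commute (hS i i.2) (hS j j.2)
    refine Matrix.map_injective (Int.cast_injective (α := ℂ)) ((Matrix.toLinAlgEquiv b).injective ?_)
    show Matrix.toLinAlgEquiv b ((A i * A j).map (Int.castRingHom ℂ)) =
      Matrix.toLinAlgEquiv b ((A j * A i).map (Int.castRingHom ℂ))
    rw [Matrix.map_mul, Matrix.map_mul, map_mul, map_mul]
    exact h.eq
  have key := finrank_part_reduce red b b' hA (fun ℓ : S => χ ℓ) CC hlift (by rwa [hopC])
  rw [hopC, hopK] at key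
  exact key

/-- Finitely many systems occur at a given level. -/
theorem finite_complexSystems [NeZero L] :
    {c : S → ℂ | part (opsComplex hS L) c ≠ ⊥}.Finite := by
  have := groupFG_gamma0 L
  obtain ⟨r, γ, e, -, hexp⟩ := exists_integralBasis (Gamma0 L)
  have : FiniteDimensional ℂ (Additive (Gamma0 L) →+ ℂ) :=
    FiniteDimensional.of_injective
      ({ toFun := fun φ i => φ (Additive.ofMul (γ i))
         map_add' := fun _ _ => rfl
         map_smul' := fun _ _ => rfl } : (Additive (Gamma0 L) →+ ℂ) →ₗ[ℂ] (Fin r → ℂ))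
      fun φ ψ h => AddMonoidHom.ext fun g => by
        rw [hexp φ g, hexp ψ g]
        exact Finset.sum_congr rfl fun i _ => congrArg _ (congrFun h i)
  exact WellFoundedGT.finite_ne_bot_of_iSupIndep
    (Module.End.independent_iInf_maxGenEigenspace_of_forall_mapsTo _ fun i j φ =>
      Module.End.mapsTo_maxGenEigenspace_of_comm (heckeHom_commute (hS j j.2) (hS i i.2)) φ)

/-- A non-Eisenstein part consists of parabolic classes. -/
theorem mem_parabolicHoms_of_mem_part [NeZero L] {c : S → ℂ}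
    {φ : Additive (Gamma0 L) →+ ℂ} (hφ : φ ∈ part (opsComplex hS L) c) {ℓ : S}
    (hℓL : ¬ (ℓ : ℕ) ∣ L) (hℓ1 : ((ℓ : ℕ) : ZMod L) = 1) (hc : c ℓ ≠ ((ℓ : ℕ) : ℂ) + 1) :
    φ ∈ parabolicHoms ℂ (Gamma0 L) ℂ := by
  set P := parabolicHoms ℂ (Gamma0 L) ℂ
  set T := opsComplex hS L ℓ with hT
  set d : ℂ := ((ℓ : ℕ) : ℂ) + 1 - c ℓ with hd
  set N : Module.End ℂ (Additive (Gamma0 L) →+ ℂ) :=
    T - c ℓ • (1 : Module.End ℂ (Additive (Gamma0 L) →+ ℂ)) with hN
  have hker : ∀ ψ, T ψ - (((ℓ : ℕ) : ℂ) + 1) • ψ ∈ P := fun ψ => by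
    have h := RT.Systems.heckeHom_sub_smul_mem_parabolicHoms (R := ℂ) (hS ℓ ℓ.2) hℓL hℓ1 ψ
    rwa [← Nat.cast_smul_eq_nsmul ℂ, Nat.cast_add, Nat.cast_one] at h
  have hstep : ∀ n : ℕ, (N ^ n) φ - d ^ n • φ ∈ P := by
    intro n
    induction n with
    | zero => simp
    | succ n ih =>
      rw [pow_succ', Module.End.mul_apply]
      set z := (N ^ n) φ - d ^ n • φ with hz
      have hzP : N z ∈ P :=
        P.sub_mem (heckeHom_mem_parabolicHoms (hS ℓ ℓ.2) ih) (P.smul_mem _ ih)
      have e : N ((N ^ n) φ) -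
          d ^ (n + 1) • φ = N z +
            d ^ n • (T φ - (((ℓ : ℕ) : ℂ) + 1) • φ) := by
        simp only [hz, hN, map_sub, map_smul, LinearMap.sub_apply, LinearMap.smul_apply,
          Module.End.one_apply, hd, pow_succ]
        module
      rw [e]
      exact P.add_mem hzP (P.smul_mem _ (hker φ))
  obtain ⟨n, hn⟩ := mem_part.mp hφ ℓ
  have h := hstep n
  rw [hn, zero_sub, neg_mem_iff] at h
  have hd0 : d ≠ 0 := sub_ne_zero.mpr (Ne.symm hc)
  have := P.smul_mem (d ^ n)⁻¹ h
  rwa [smul_smul, inv_mul_cancel₀ (pow_ne_zero _ hd0), one_smul] at this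

/-- On parabolic classes of a part, the operators at primes not dividing the level are scalars. -/
theorem heckeHom_eq_smul_of_mem_part [NeZero L] {c : S → ℂ} {φ : Additive (Gamma0 L) →+ ℂ}
    (hφ : φ ∈ part (opsComplex hS L) c) (hpar : φ ∈ parabolicHoms ℂ (Gamma0 L) ℂ) (ℓ : S)
    (hℓL : ¬ (ℓ : ℕ) ∣ L) : heckeHom ℂ ℂ (hS ℓ ℓ.2) φ = c ℓ • φ := by
  obtain ⟨x, rfl⟩ : φ ∈ LinearMap.range (periodHomPair L) := by rwa [range_periodHomPair L]
  set T : Module.End ℂ (CuspForm (Gamma0 L) 2) :=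
    CuspForm.heckeTLin 2 (hS ℓ ℓ.2) hℓL with hT
  set N : Module.End ℂ (Additive (Gamma0 L) →+ ℂ) :=
    opsComplex hS L ℓ - c ℓ • (1 : Module.End ℂ (Additive (Gamma0 L) →+ ℂ)) with hN
  set U : Module.End ℂ (CuspForm (Gamma0 L) 2) :=
    T - c ℓ • (1 : Module.End ℂ (CuspForm (Gamma0 L) 2)) with hU
  obtain ⟨n, hn⟩ := mem_part.mp hφ ℓ
  have hconv : ∀ m, (N ^ m) (periodHomPair L x) =
      periodHomPair L ((U ^ m) x.1,
        (U ^ m) x.2) := by
    intro m
    induction m with
    | zero => simp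
    | succ m ih =>
      simp only [pow_succ', Module.End.mul_apply, ih]
      rw [hN, LinearMap.sub_apply, LinearMap.smul_apply, Module.End.one_apply, opsComplex,
        heckeHom_periodHomPair_T (hS ℓ ℓ.2) hℓL, ← map_smul, ← map_sub]
      rfl
  rw [hconv, map_eq_zero_iff _ (periodHomPair_injective L), Prod.ext_iff] at hn
  have hss : T.IsFinitelySemisimple :=
    (Hecke.isSemisimple_heckeTLin (hS ℓ ℓ.2) hℓL).isFinitelySemisimple
  have heig : ∀ f, (U ^ n) f = 0 → T f = c ℓ • f := fun f hf => by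
    have : f ∈ T.maxGenEigenspace (c ℓ) := (Module.End.mem_maxGenEigenspace _ _ _).mpr ⟨n, hf⟩
    rw [hss.maxGenEigenspace_eq_eigenspace] at this
    exact Module.End.mem_eigenspace_iff.mp this
  rw [heckeHom_periodHomPair_T (hS ℓ ℓ.2) hℓL, heig _ hn.1, heig _ hn.2, ← map_smul]
  rfl

/-- At the primes not dividing `L0` or lying in `E`, a non-Eisenstein part is
`fineEigenHoms L0 c E L ∅`. -/
theorem part_eq_fineEigenHoms [NeZero L] {L0 : ℕ} (hL : L ∣ L0) {E : Finset ℕ}
    (hS0 : ∀ ℓ, ℓ ∈ S ↔ ℓ.Prime ∧ (¬ ℓ ∣ L0 ∨ ℓ ∈ E)) {c : ℕ → ℂ} {ℓ : ℕ} (hℓ : ℓ.Prime)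
    (hℓL0 : ¬ ℓ ∣ L0) (hℓ1 : (ℓ : ZMod L) = 1) (hc : c ℓ ≠ (ℓ : ℂ) + 1) :
    part (opsComplex hS L) (fun ℓ : S => c ℓ) = fineEigenHoms L0 c E L ∅ := by
  have hℓS : ℓ ∈ S := (hS0 ℓ).mpr ⟨hℓ, Or.inl hℓL0⟩
  ext φ
  rw [mem_fineEigenHoms_iff]
  constructor
  · intro hφ
    have hpar := mem_parabolicHoms_of_mem_part hS hφ (ℓ := ⟨ℓ, hℓS⟩)
      (fun h => hℓL0 (h.trans hL)) hℓ1 hc
    refine ⟨⟨hpar, fun l hl hlL0 => heckeHom_eq_smul_of_mem_part hS hφ hpar
      ⟨l, (hS0 l).mpr ⟨hl, Or.inl hlL0⟩⟩ fun h => hlL0 (h.trans hL),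
      fun q hq => absurd hq (Finset.notMem_empty q)⟩, fun p hp hpE => ?_⟩
    exact mem_part.mp hφ ⟨p, (hS0 p).mpr ⟨hp, Or.inr hpE⟩⟩
  · rintro ⟨hnew, hfine⟩
    refine mem_part.mpr fun l => ?_
    rcases ((hS0 l).mp l.2).2 with hl | hl
    · refine ⟨1, ?_⟩
      rw [pow_one, LinearMap.sub_apply, LinearMap.smul_apply, Module.End.one_apply, sub_eq_zero]
      exact hnew.2.1 l (hS l l.2) hl
    · exact hfine l (hS l l.2) hl

/-- The count for the part of `H¹` with trivial coefficients used in the localised cohomology. -/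
theorem finrank_heckePart_trivial [NeZero L] {D : ℕ} (hgood : GoodPrimes D S) (χ : ℕ → k) :
    finrank k (heckePart L hgood χ (Representation.trivial k (GL (Fin 2) (ZMod D)) k)) =
      finrank k (part (opsNegOne (fun ℓ h => (hgood ℓ h).1) k L) fun ℓ : S => χ ℓ) :=
  finrank_part_eq
    (T := opsH1 (M := L) hgood (Representation.trivial k (GL (Fin 2) (ZMod D)) k))
    (S := opsNegOne (fun ℓ h => (hgood ℓ h).1) k L) h1Trivial
    (fun (ℓ : S) x => Subtype.ext (h1Trivial_heckeH1 (hgood ℓ ℓ.2).1 (hgood ℓ ℓ.2).2 x)) _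

end Ops

end Fermat.Agent.TwoAdic.Count

end
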