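import Fermat.Agent.TwoAdic.Cohom.HeartCount
import Fermat.Agent.TwoAdic.Count.RankTransfer

/-!
# LT2 P4c: the part of the heart as a sum of new fine parts

The alternating formula for the heart and the alternating formula for the fine parts match under
rank transfer: `dim part(M, heart_Q) = ∑_c dim fineEigenHoms L0 c E (M ∏ Q) Q`, the sum over the
complex systems reducing to `χ`.
-/

set_option autoImplicit false

noncomputable section

open CongruenceSubgroup Module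
open Fermat.Agent.Periods Fermat.Agent.TwoAdic.Cohom Fermat.Agent.TwoAdic.Cuspidal
open scoped MatrixGroups

namespace Fermat.Agent.TwoAdic.Count

/-- A system on `S` extended by zero to all natural numbers. -/
def extendSystem {S : Set ℕ} (c : S → ℂ) : ℕ → ℂ := Function.extend Subtype.val c 0

theorem extendSystem_apply {S : Set ℕ} (c : S → ℂ) (ℓ : S) : extendSystem c ℓ = c ℓ :=
  Subtype.val_injective.extend_apply _ _ _

theorem extendSystem_of_mem {S : Set ℕ} (c : S → ℂ) {ℓ : ℕ} (h : ℓ ∈ S) :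
    extendSystem c ℓ = c ⟨ℓ, h⟩ :=
  extendSystem_apply c ⟨ℓ, h⟩

theorem cast_eq_one_of_dvd {n m ℓ : ℕ} (h : n ∣ m) (hℓ : (ℓ : ZMod m) = 1) :
    (ℓ : ZMod n) = 1 := by
  have := congrArg (ZMod.castHom h (ZMod n)) hℓ
  rwa [map_natCast, map_one] at this

variable {k : Type*} [Field k]

/-- A lift of a non-Eisenstein value is non-Eisenstein. -/
theorem ne_succ_of_isLift {S : Set ℕ} {red : AlgInt →+* k} {χ : ℕ → k} {c : S → ℂ}
    (hc : IsLift red (fun ℓ : S => χ ℓ) c) (ℓ : S) (hne : χ ℓ ≠ ((ℓ : ℕ) : k) + 1) :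
    c ℓ ≠ ((ℓ : ℕ) : ℂ) + 1 := by
  obtain ⟨a, ha, ha'⟩ := hc ℓ
  intro h
  have : a = ((ℓ : ℕ) : AlgInt) + 1 := Subtype.ext (by rw [ha, h]; push_cast; rfl)
  exact hne ((show red a = χ ℓ from ha').symm.trans (by rw [this, map_add, map_natCast, map_one]))

section Trivial

variable {D : ℕ} {S : Set ℕ} (hgood : GoodPrimes D S) {χ : ℕ → k} {M L0 : ℕ} [NeZero M]
  {E Q : Finset ℕ}

/-- **The alternating sum of parts with trivial coefficients is the sum of the new fine parts at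
the lifts.** -/
theorem alternating_trivial_eq_sum (red : AlgInt →+* k)
    (hQ : ∀ p ∈ Q, p.Prime ∧ ¬ p ∣ M ∧ p ∉ E) (htf : IsTorsionFreeMod M)
    (hL0 : M * Q.prod id ∣ L0) (hS0 : ∀ l, l ∈ S ↔ l.Prime ∧ (¬ l ∣ L0 ∨ l ∈ E))
    {ℓ : ℕ} (hℓ : ℓ.Prime) (hℓL0 : ¬ ℓ ∣ L0) (hℓM : (ℓ : ZMod (M * Q.prod id)) = 1)
    (hχ : χ ℓ ≠ (ℓ : k) + 1) :
    ∃ CC : Finset (S → ℂ), (∀ c ∈ CC, IsLift red (fun ℓ : S => χ ℓ) c) ∧
      ∑ A ∈ Q.powerset, (-2 : ℤ) ^ (Q \ A).card *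
          (finrank k (heckePart (M * A.prod id) hgood χ
            (Representation.trivial k (GL (Fin 2) (ZMod D)) k)) : ℤ) =
        ∑ c ∈ CC, (fineRank L0 (extendSystem c) E (M * Q.prod id) Q : ℤ) := by
  classical
  have hℓS : ℓ ∈ S := (hS0 ℓ).mpr ⟨hℓ, Or.inl hℓL0⟩
  have hQ' : ∀ p ∈ Q, p.Prime ∧ ¬ p ∣ M ∧ p ∣ L0 ∧ p ∉ E ∧ p ∉ (∅ : Finset ℕ) := fun p hp =>
    ⟨(hQ p hp).1, (hQ p hp).2.1, (Dvd.dvd.mul_left (Finset.dvd_prod_of_mem id hp) M).trans hL0,
      (hQ p hp).2.2, Finset.notMem_empty _⟩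
  have hne : ∀ A ∈ Q.powerset, NeZero (M * A.prod id) := fun A hA =>
    ⟨mul_ne_zero (NeZero.ne M) (Finset.prod_ne_zero_iff.mpr
      fun p hp => (hQ p (Finset.mem_powerset.mp hA hp)).1.ne_zero)⟩
  have hfin : ∀ A ∈ Q.powerset,
      {c : S → ℂ | part (opsComplex (fun l h => (hgood l h).1) (M * A.prod id)) c ≠ ⊥}.Finite :=
    fun A hA => have := hne A hA; finite_complexSystems (fun l h => (hgood l h).1)
  let U : Finset (S → ℂ) := Q.powerset.attach.biUnion fun A => (hfin A A.2).toFinset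
  refine ⟨U.filter fun c => IsLift red (fun ℓ : S => χ ℓ) c,
    fun c hc => (Finset.mem_filter.mp hc).2, ?_⟩
  set CC := U.filter fun c => IsLift red (fun ℓ : S => χ ℓ) c with hCC
  have key : ∀ A ∈ Q.powerset,
      (finrank k (heckePart (M * A.prod id) hgood χ
        (Representation.trivial k (GL (Fin 2) (ZMod D)) k)) : ℤ) =
        ∑ c ∈ CC, (fineRank L0 (extendSystem c) E (M * ∏ p ∈ A, p) ∅ : ℤ) := by
    intro A hA
    have := hne A hA
    have hdvd : M * A.prod id ∣ M * Q.prod id :=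
      mul_dvd_mul_left M (Finset.prod_dvd_prod_of_subset _ _ _ (Finset.mem_powerset.mp hA))
    rw [finrank_heckePart_trivial hgood χ,
      finrank_part_negOneHoms (fun l h => (hgood l h).1) (htf.mul _) red χ CC
        (fun c hc => (Finset.mem_filter.mp hc).2) fun c hc hc0 => Finset.mem_filter.mpr
          ⟨Finset.mem_biUnion.mpr ⟨⟨A, hA⟩, Finset.mem_attach _ _,
            (Set.Finite.mem_toFinset _).mpr hc0⟩, hc⟩]
    push_cast
    refine Finset.sum_congr rfl fun c hc => ?_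
    have hc' : (fun l : S => extendSystem c l) = c := funext (extendSystem_apply c)
    have := part_eq_fineEigenHoms (fun l h => (hgood l h).1) (L := M * A.prod id)
      (hdvd.trans hL0) hS0 (c := extendSystem c) hℓ hℓL0 (cast_eq_one_of_dvd hdvd hℓM)
      (by rw [extendSystem_of_mem c hℓS]
          exact ne_succ_of_isLift (Finset.mem_filter.mp hc).2 ⟨ℓ, hℓS⟩ hχ)
    rw [hc'] at this
    rw [this]
    rfl
  rw [Finset.sum_congr rfl fun A hA => by rw [key A hA, Finset.mul_sum], Finset.sum_comm]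
  refine Finset.sum_congr rfl fun c _ => ?_
  have := fineRank_alternating (L0 := L0) (c := extendSystem c) (E := E) Q M ∅ hQ'
  rw [Finset.empty_union] at this
  exact this.symm

end Trivial

section Heart

variable {D : ℕ} {S : Set ℕ} (hgood : GoodPrimes D S) {χ : ℕ → k}
  {ι : Type} [Fintype ι] [DecidableEq ι] {q : ι → ℕ} [∀ i, Fact (q i).Prime]
  {M L0 : ℕ} [NeZero M] {E : Finset ℕ}

/-- **The part of the heart is the sum of the new fine parts at the lifts.** -/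
theorem exists_systems_heartPi (hinj : Function.Injective q) (hD : ∀ i, q i ∣ D)
    {ψ : ∀ i, AddChar (ZMod (q i)) k} (hψ : ∀ i, ψ i ≠ 1)
    (hcard : ∀ i, ((Fintype.card (ZMod (q i)) + 1 : ℕ) : k) = 0)
    (hqM : ∀ i, ¬ q i ∣ M) (htf : IsTorsionFreeMod M)
    (hL0 : M * (Finset.univ.image q).prod id ∣ L0) (hqE : ∀ i, q i ∉ E)
    (hS0 : ∀ l, l ∈ S ↔ l.Prime ∧ (¬ l ∣ L0 ∨ l ∈ E))
    {ℓ : ℕ} (hℓ : ℓ.Prime) (hℓL0 : ¬ ℓ ∣ L0) (hℓD : (ℓ : ZMod D) = 1)
    (hℓM : (ℓ : ZMod (M * (Finset.univ.image q).prod id)) = 1) (hχ : χ ℓ ≠ (ℓ : k) + 1)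
    (red : AlgInt →+* k) :
    ∃ CC : Finset (S → ℂ), (∀ c ∈ CC, IsLift red (fun ℓ : S => χ ℓ) c) ∧
      finrank k (heckePart M hgood χ (heartPi (fun i => (redTo (hD i) :)) hψ hcard)) =
        ∑ c ∈ CC, fineRank L0 (extendSystem c) E (M * (Finset.univ.image q).prod id)
          (Finset.univ.image q) := by
  have hQ : ∀ p ∈ Finset.univ.image q, p.Prime ∧ ¬ p ∣ M ∧ p ∉ E := by
    intro p hp
    obtain ⟨i, -, rfl⟩ := Finset.mem_image.mp hp
    exact ⟨Fact.out, hqM i, hqE i⟩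
  obtain ⟨CC, h1, h2⟩ := alternating_trivial_eq_sum hgood red hQ htf hL0 hS0 hℓ hℓL0 hℓM hχ
  refine ⟨CC, h1, ?_⟩
  have h := finrank_heckePart_heartPi hgood ((hS0 ℓ).mpr ⟨hℓ, Or.inl hℓL0⟩) hℓD hχ hinj hD hψ
    hcard hqM htf fun h => hℓL0 (h.trans ((dvd_mul_right _ _).trans hL0))
  exact_mod_cast h.trans h2

end Heart

end Fermat.Agent.TwoAdic.Count

end
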