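import Fermat.Agent.TwoAdic.HeckeSide.Data
import Fermat.Agent.TwoAdic.TypeSpace.GoodPart.Residual

/-!
# The residual value at `2`

`2` ramifies, so the only ideal of norm `2` has class of order at most two, killed by the cubic
character.
-/

set_option autoImplicit false

noncomputable section

open NumberField
open scoped nonZeroDivisors

namespace Fermat.Agent.TwoAdic.HeckeSide.HeckeData

open TypeSpace

variable (D : HeckeData)

theorem tbar_two : D.tbar 2 = 1 := by
  classical
  have hd : ((2 : ℕ) : ℤ) ∣ discr D.K := by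
    rw [D.discr_eq, dvd_neg]
    exact ⟨4 * (D.m : ℤ), by push_cast; ring⟩
  obtain ⟨P, hPN, hmul⟩ := exists_mul_self_eq_of_dvd_discr D.finrank_eq Nat.prime_two hd
  have hP0 : P ≠ 0 := fun h => by simp [h] at hPN
  have hPp : P.IsPrime := Ideal.isPrime_of_irreducible_absNorm (by rw [hPN]; exact Nat.prime_two)
  have hPmax : P.IsMaximal := hPp.isMaximal hP0
  have huniq : (Ideal.finite_setOfPred_absNorm_eq (S := 𝓞 D.K) 2).toFinset = {P} := by
    ext b
    rw [Set.Finite.mem_toFinset, Finset.mem_singleton]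
    refine ⟨fun hb => ?_, fun hb => hb ▸ hPN⟩
    have hb' : Ideal.absNorm b = 2 := hb
    have hbp : b.IsPrime := Ideal.isPrime_of_irreducible_absNorm (by rw [hb']; exact Nat.prime_two)
    have h2b : (2 : 𝓞 D.K) ∈ b := by simpa [hb'] using Ideal.absNorm_mem b
    have hle : P * P ≤ b := hmul ▸ (Ideal.span_singleton_le_iff_mem b).2 (by exact_mod_cast h2b)
    have hPb : P ≤ b := ((hbp.mul_le).1 hle).elim id id
    exact (hPmax.eq_of_le hbp.ne_top hPb).symm
  rw [tbar, if_pos two_ne_zero, huniq, Finset.sum_singleton,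
    dif_pos (mem_nonZeroDivisors_iff_ne_zero.mpr hP0)]
  set c := ClassGroup.mk0 ⟨P, mem_nonZeroDivisors_iff_ne_zero.mpr hP0⟩
  have hc : c * c = 1 := by
    rw [← map_mul, ClassGroup.mk0_eq_one_iff]
    exact ⟨⟨(2 : ℕ), hmul⟩⟩
  have h3 := D.χ_cube c
  rw [pow_succ, sq, ← map_mul, hc, map_one, one_mul] at h3
  rw [h3, Units.val_one]

end Fermat.Agent.TwoAdic.HeckeSide.HeckeData

end
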