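import Fermat.Agent.TwoAdic.Count.FineSemisimple
import Fermat.Agent.TwoAdic.Count.OneLevel
import Fermat.Agent.TwoAdic.Count.HeartSum
import Fermat.Agent.TwoAdic.HeckeSide.GoodForm
import Fermat.Agent.TwoAdic.Count.TwoTbar
import Fermat.Agent.LevelP.PNew

/-!
# From a count of fine parts to good forms

If the fine parts of level `2 m r f`, new at `Q`, at the lifts of the residual system have total
dimension at least `2 G`, there are `G` good forms of level `2 m f` with pairwise different good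
systems.
-/

set_option autoImplicit false

noncomputable section

open CongruenceSubgroup ModularCurve ModularCurve.Period Module ModularFormClass
open Fermat.Agent.Periods Fermat.Agent.TwoAdic.HeckeSide
open scoped MatrixGroups

namespace Fermat.Agent.TwoAdic.Count

variable (D : HeckeData)

/-- The primes of `m f`, as the set where the eigenvalues square to `1`. -/
def oldFreeSet : Finset ℕ := D.Q ∪ D.m.primeFactors

theorem prime_Q : ∀ q ∈ D.Q, q.Prime := D.aux.prime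

theorem f_ne_zero : D.f ≠ 0 :=
  Finset.prod_ne_zero_iff.2 fun q hq => (prime_Q D q hq).ne_zero

theorem m_ne_zero : D.m ≠ 0 := D.m_odd.pos.ne'

theorem dvd_f_iff {l : ℕ} (hl : l.Prime) : l ∣ D.f ↔ l ∈ D.Q := by
  rw [HeckeData.f, hl.prime.dvd_finsetProd_iff]
  exact ⟨fun ⟨q, hq, h⟩ => (Nat.prime_dvd_prime_iff_eq hl (prime_Q D q hq)).1 h ▸ hq,
    fun h => ⟨l, h, dvd_rfl⟩⟩

theorem dvd_mf_iff {l : ℕ} (hl : l.Prime) : l ∣ D.m * D.f ↔ l ∈ oldFreeSet D := by
  rw [hl.dvd_mul, dvd_f_iff D hl, oldFreeSet, Finset.mem_union, Nat.mem_primeFactors]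
  simp [hl, m_ne_zero, or_comm]

theorem two_not_dvd : ¬ 2 ∣ D.m * D.r * D.f := by
  intro h
  rcases Nat.prime_two.dvd_mul.1 h with h | h
  · rcases Nat.prime_two.dvd_mul.1 h with h | h
    · exact Nat.not_even_iff_odd.2 D.m_odd (even_iff_two_dvd.2 h)
    · have := (Nat.prime_dvd_prime_iff_eq Nat.prime_two D.r_prime).1 h
      exact absurd D.r_mod (by rw [← this]; norm_num)
  · exact D.Q_not_dvd 2 ((dvd_f_iff D Nat.prime_two).1 h) ((dvd_mul_right 2 D.m).mul_right D.r)

theorem r_not_dvd_mf : ¬ D.r ∣ D.m * D.f := by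
  intro h
  rcases D.r_prime.dvd_mul.1 h with h | h
  · exact D.r_not_dvd (h.mul_left 2)
  · exact D.Q_not_dvd D.r ((dvd_f_iff D D.r_prime).1 h) (dvd_mul_left _ _)

theorem squarefree_level : Squarefree (D.N * D.r * D.f) := by
  have hf : Squarefree D.f := by
    rw [HeckeData.f]
    exact Finset.squarefree_prod_of_pairwise_isCoprime
      (fun q hq p hp hne => Nat.coprime_iff_isRelPrime.1
        ((Nat.coprime_primes (prime_Q D q hq) (prime_Q D p hp)).2 hne))
      (fun q hq => (prime_Q D q hq).squarefree)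
  have h2m : Nat.Coprime 2 D.m := Nat.coprime_two_left.2 D.m_odd
  have hN : Squarefree D.N :=
    (Nat.squarefree_mul h2m).2 ⟨Nat.prime_two.squarefree, D.m_squarefree⟩
  have hNr : Nat.Coprime D.N D.r :=
    ((Nat.Prime.coprime_iff_not_dvd D.r_prime).2 D.r_not_dvd).symm
  refine (Nat.squarefree_mul ?_).2 ⟨(Nat.squarefree_mul hNr).2 ⟨hN, D.r_prime.squarefree⟩, hf⟩
  exact Nat.Coprime.symm (Nat.Coprime.prod_left fun q hq =>
    (Nat.Prime.coprime_iff_not_dvd (prime_Q D q hq)).2 (D.Q_not_dvd q hq))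

theorem level_ne_zero : D.N * D.r * D.f ≠ 0 := (squarefree_level D).ne_zero

theorem not_sq_dvd {L l : ℕ} (hL : Squarefree L) (hl : l.Prime) : ¬ l ^ 2 ∣ L := fun h =>
  hl.ne_one (Nat.isUnit_iff.1 (hL l (by rwa [← sq])))

theorem mem_ops_iff {l : ℕ} :
    l ∈ D.ops ↔ l.Prime ∧ (¬ l ∣ D.N * D.r * D.f ∨ l ∈ ({2, D.r} : Finset ℕ)) := by
  refine ⟨fun h => ⟨h.1, ?_⟩, fun ⟨hl, h⟩ => ⟨hl, ?_⟩⟩
  · by_contra! hc
    obtain ⟨hd, hE⟩ := hc
    simp only [Finset.mem_insert, Finset.mem_singleton, not_or] at hE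
    apply h.2
    rcases h.1.dvd_mul.1 hd with hd | hd
    · rcases h.1.dvd_mul.1 hd with hd | hd
      · rcases h.1.dvd_mul.1 hd with hd | hd
        · exact absurd ((Nat.prime_dvd_prime_iff_eq h.1 Nat.prime_two).1 hd) hE.1
        · exact hd.mul_right _
      · exact absurd ((Nat.prime_dvd_prime_iff_eq h.1 D.r_prime).1 hd) hE.2
    · exact hd.mul_left _
  · rcases h with h | h
    · exact fun hd => h (hd.trans ⟨2 * D.r, by rw [HeckeData.N]; ring⟩)
    · simp only [Finset.mem_insert, Finset.mem_singleton] at h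
      rcases h with rfl | rfl
      · exact fun hd => two_not_dvd D (hd.trans ⟨D.r, by ring⟩)
      · exact r_not_dvd_mf D

/-- The reduction of a value on the residual system. -/
def IsRed (z : ℂ) (x : D.k) : Prop := ∃ a : integralClosure ℤ ℂ, (a : ℂ) = z ∧ D.red a = x

variable {D}

theorem IsRed.mul {z w : ℂ} {x y : D.k} (h : IsRed D z x) (h' : IsRed D w y) :
    IsRed D (z * w) (x * y) := by
  obtain ⟨a, rfl, rfl⟩ := h
  obtain ⟨b, rfl, rfl⟩ := h'
  exact ⟨a * b, rfl, map_mul _ _ _⟩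

theorem IsRed.ne_natCast {z : ℂ} {x : D.k} {n : ℕ} (h : IsRed D z x) (hx : x ≠ (n : D.k)) :
    z ≠ (n : ℂ) := by
  obtain ⟨a, rfl, rfl⟩ := h
  intro h'
  exact hx (by rw [show a = (n : integralClosure ℤ ℂ) from Subtype.ext (by rw [h']; rfl), map_natCast])

variable (D)

theorem omega_sq_ne_one : D.omega * D.omega ≠ 1 := by
  intro h
  have h2 : (2 : D.k) = 0 := by exact_mod_cast CharP.cast_eq_zero D.k 2
  have h1 : D.omega = 0 := by linear_combination D.omega_spec - h - h2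
  simp [h1] at h

theorem natCast_r : ((D.r : ℕ) : D.k) = 1 := by
  have hodd : Odd D.r := D.r_prime.odd_of_ne_two (by intro h; have := D.r_mod; omega)
  obtain ⟨t, ht⟩ := hodd
  rw [ht]
  push_cast
  rw [show (2 : D.k) = 0 by exact_mod_cast CharP.cast_eq_zero D.k 2, zero_mul, zero_add]

theorem chibar_two (h2 : D.tbar 2 = 1) : D.chibar 2 = 1 := by
  rw [HeckeData.chibar, if_neg (fun h => by have := D.r_mod; omega)]
  exact h2

theorem chibar_r : D.chibar D.r = D.omega := by rw [HeckeData.chibar, if_pos rfl]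

theorem chibar_good {l : ℕ} (hl : l ∈ D.good) : D.chibar l = D.tbar l := by
  rw [HeckeData.chibar, if_neg]
  rintro rfl
  exact hl.2 ((dvd_mul_left _ _).mul_right _)

/-- A lift of the residual system. -/
def IsResLift (c : ℕ → ℂ) : Prop := ∀ l ∈ D.ops, IsRed D (c l) (D.chibar l)

variable {D}

theorem sq_ne_two {c : ℕ → ℂ} (hc : IsResLift D c) (h2 : D.tbar 2 = 1) : c 2 ^ 2 ≠ ((2 : ℕ) : ℂ) := by
  have h := hc 2 ((mem_ops_iff D).2 ⟨Nat.prime_two, Or.inr (by simp)⟩)
  rw [chibar_two D h2] at h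
  rw [sq]
  refine (h.mul h).ne_natCast ?_
  rw [CharP.cast_eq_zero, one_mul]
  exact one_ne_zero

theorem sq_ne_r {c : ℕ → ℂ} (hc : IsResLift D c) : c D.r ^ 2 ≠ (D.r : ℂ) := by
  have h := hc D.r ((mem_ops_iff D).2 ⟨D.r_prime, Or.inr (by simp)⟩)
  rw [chibar_r] at h
  rw [sq]
  refine (h.mul h).ne_natCast ?_
  rw [natCast_r]
  exact omega_sq_ne_one D

variable (D)

/-- The lifts of the residual system occur only at levels divisible by `m`. -/
theorem newEigenHoms_eq_bot_of_noOldForm (hold : D.NoOldForm) {c : ℕ → ℂ} (hc : IsResLift D c)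
    {l : ℕ} (hl : l.Prime) (hlm : l ∣ D.m) {L : ℕ} [NeZero L] (hlL : ¬ l ∣ L)
    (hL : L ∣ D.N * D.r * D.f) {B : Finset ℕ} :
    newEigenHoms (D.m * D.f) c L B = ⊥ := by
  rw [eq_bot_iff]
  intro y hy
  rw [Submodule.mem_bot]
  by_contra hy0
  have hsub : ∀ p : ℕ, ¬ p ∣ D.N * D.r * D.f → ¬ p ∣ D.m * D.f := fun p hp h =>
    hp (h.trans ⟨2 * D.r, by rw [HeckeData.N]; ring⟩)
  obtain ⟨g, hg, hgc⟩ := LevelP.exists_eigenform_of_good_class (D.N * D.r * D.f) c hy.1 hy0
    (fun p hp => hp.trans hL) fun p hp hpR => hy.2.1 p hp (hsub p hpR)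
  refine hold l hl hlm L hlL g hg (D.N * D.r * D.f).primeFactors fun p hp hpS => ?_
  have hpR : ¬ p ∣ D.N * D.r * D.f := fun h =>
    hpS (Nat.mem_primeFactors.2 ⟨hp, h, level_ne_zero D⟩)
  have hgood : p ∈ D.good := ⟨hp, hpR⟩
  rw [hgc p hp hpR, ← chibar_good D hgood]
  exact hc p ((mem_ops_iff D).2 ⟨hp, Or.inl hpR⟩)

/-- With no old forms at `m`, everything is new at the primes of `m`. -/
theorem newEigenHoms_oldFreeSet (hold : D.NoOldForm) {c : ℕ → ℂ} (hc : IsResLift D c) :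
    newEigenHoms (D.m * D.f) c (D.N * D.r * D.f) (oldFreeSet D) =
      newEigenHoms (D.m * D.f) c (D.N * D.r * D.f) D.Q := by
  classical
  suffices h : ∀ S ⊆ D.m.primeFactors, newEigenHoms (D.m * D.f) c (D.N * D.r * D.f) (D.Q ∪ S) =
      newEigenHoms (D.m * D.f) c (D.N * D.r * D.f) D.Q from h _ subset_rfl
  intro S
  induction S using Finset.induction_on with
  | empty => simp
  | @insert l S hlS ih =>
    intro hsub
    rw [Finset.insert_subset_iff] at hsub
    rw [← ih hsub.2, Finset.union_insert]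
    obtain ⟨hl, hlm, -⟩ := Nat.mem_primeFactors.1 hsub.1
    have hlL : l ∣ D.N * D.r * D.f := ((hlm.mul_left 2).mul_right D.r).mul_right D.f
    have hsq := not_sq_dvd (squarefree_level D) hl
    have hlQ : l ∉ D.Q := fun h => D.Q_not_dvd l h ((hlm.mul_left 2).mul_right D.r)
    obtain ⟨L₁, hL₁'⟩ := hlL
    have hL₁ : D.N * D.r * D.f = L₁ * l := hL₁'.trans (mul_comm l L₁)
    have : NeZero L₁ := ⟨fun h => level_ne_zero D (by rw [hL₁, h, zero_mul])⟩
    have hlL₁ : ¬ l ∣ L₁ := fun h => hsq (by rw [sq, hL₁]; exact mul_dvd_mul_right h l)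
    rw [hL₁]
    exact newEigenHoms_eq_insert_of_eq_bot hl (hlm.mul_right _) hlL₁
      (fun h => (Finset.mem_union.1 h).elim hlQ hlS)
      (newEigenHoms_eq_bot_of_noOldForm D hold hc hl hlm hlL₁ (hL₁ ▸ dvd_mul_right _ _))

/-- The eigenforms of level `2 m r f` at a lift. -/
def liftForms (c : ℕ → ℂ) : Set (CuspForm (Gamma0 (D.N * D.r * D.f)) 2) :=
  eigenSetOn (D.m * D.f) c (D.N * D.r * D.f) (oldFreeSet D)

theorem fineRank_le (hold : D.NoOldForm) (h2 : D.tbar 2 = 1) {c : ℕ → ℂ} (hc : IsResLift D c) :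
    fineRank (D.N * D.r * D.f) c {2, D.r} (D.N * D.r * D.f) D.Q ≤ 2 * (liftForms D c).ncard := by
  have : NeZero (D.N * D.r * D.f) := ⟨level_ne_zero D⟩
  have hle : fineEigenHoms (D.N * D.r * D.f) c {2, D.r} (D.N * D.r * D.f) D.Q ≤
      newEigenHoms (D.m * D.f) c (D.N * D.r * D.f) D.Q := by
    refine fineEigenHoms_le_newEigenHoms (fun p hp hp' => ?_) fun l hl hlL => ?_
    · simp only [Finset.mem_insert, Finset.mem_singleton] at hp
      have hpd : p ∣ D.N * D.r * D.f := by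
        rcases hp with rfl | rfl
        · exact ((dvd_mul_right 2 D.m).mul_right D.r).mul_right D.f
        · exact (dvd_mul_left _ _).mul_right D.f
      refine ⟨hpd, fun h => D.Q_not_dvd p h ?_, hpd, not_sq_dvd (squarefree_level D) hp', ?_⟩
      · rcases hp with rfl | rfl
        · exact (dvd_mul_right 2 D.m).mul_right D.r
        · exact dvd_mul_left _ _
      · rcases hp with rfl | rfl
        · exact sq_ne_two hc h2
        · exact sq_ne_r hc
    · exact ((mem_ops_iff D).1 ⟨hl, hlL⟩).2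
  have := finite_newEigenHoms (L0 := D.m * D.f) (c := c) (L := D.N * D.r * D.f) (B := D.Q)
  refine (Submodule.finrank_mono hle).trans (le_of_eq ?_)
  rw [← newEigenHoms_oldFreeSet D hold hc]
  refine finrank_newEigenHoms_eq_card_on fun q hq _ => ?_
  by_cases h : q ∣ D.m * D.f
  · exact Or.inl ((dvd_mf_iff D hq).1 h)
  · exact Or.inr h

/-- Forms at lifts with the same good system are equal. -/
theorem eq_of_good (h2 : D.tbar 2 = 1) {c c' : ℕ → ℂ} (hc : IsResLift D c) (hc' : IsResLift D c')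
    {f g : CuspForm (Gamma0 (D.N * D.r * D.f)) 2} (hf : f ∈ liftForms D c) (hg : g ∈ liftForms D c')
    (h : ∀ l ∈ D.good, qCoeff f l = qCoeff g l) : f = g := by
  have : NeZero (D.N * D.r * D.f) := ⟨level_ne_zero D⟩
  have hall : ∀ p : ℕ, p.Prime → qCoeff g p = qCoeff f p := by
    intro p hp
    by_cases hpL : p ∣ D.N * D.r * D.f
    · rcases qCoeff_eq_or_mul_eq hp hpL (not_sq_dvd (squarefree_level D) hp) hf.1 hg.1 ∅
        (fun ℓ hℓ _ hℓL => h ℓ ⟨hℓ, hℓL⟩) with heq | hmul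
      · exact heq.symm
      exfalso
      by_cases hp0 : p ∣ D.m * D.f
      · have hpB := (dvd_mf_iff D hp).1 hp0
        have := congrArg (fun z : ℂ => ‖z ^ 2‖) hmul
        simp only [mul_pow, hf.2.2 p hpB hp, hg.2.2 p hpB hp, mul_one, norm_one, norm_pow,
          Complex.norm_natCast] at this
        nlinarith [(show (2 : ℝ) ≤ p by exact_mod_cast hp.two_le)]
      · have hops : p ∈ D.ops := ⟨hp, hp0⟩
        rw [hf.2.1 p hp hp0, hg.2.1 p hp hp0] at hmul
        refine ((hc p hops).mul (hc' p hops)).ne_natCast ?_ hmul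
        rcases ((mem_ops_iff D).1 hops).2 with h' | h'
        · exact absurd hpL h'
        simp only [Finset.mem_insert, Finset.mem_singleton] at h'
        rcases h' with rfl | rfl
        · rw [chibar_two D h2, CharP.cast_eq_zero, one_mul]; exact one_ne_zero
        · rw [chibar_r, natCast_r]; exact omega_sq_ne_one D
    · exact (h p ⟨hp, hpL⟩).symm
  have hge := isEigen_of_isNormalizedEigenform hg.1
  have hg' : IsEigen g (fun p => qCoeff f p) :=
    ⟨fun p hp hpN => (hge.1 p hp hpN).trans (congrArg (· • g) (hall p hp)),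
      fun p hpN hp => (hge.2 p hpN hp).trans (congrArg (· • g) (hall p hp))⟩
  have := (isEigen_of_isNormalizedEigenform hf.1).eq_smul hg' hf.1.qCoeff_one
  rwa [hg.1.qCoeff_one, one_smul, eq_comm] at this

/-- A form of level `2 m r f` gives a good form of level `2 m f` with the same good system. -/
theorem exists_goodForm (h2 : D.tbar 2 = 1) {c : ℕ → ℂ} (hc : IsResLift D c)
    {f : CuspForm (Gamma0 (D.N * D.r * D.f)) 2} (hf : f ∈ liftForms D c) :
    ∃ g : CuspForm (Gamma0 (D.N * D.f)) 2, IsGoodForm D g ∧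
      ∀ l ∈ D.good, qCoeff g l = qCoeff f l := by
  have hLr : D.N * D.r * D.f = D.N * D.f * D.r := by ring
  have hN : NeZero (D.N * D.f) :=
    ⟨fun h => level_ne_zero D (by rw [hLr, h, zero_mul])⟩
  have hNr : NeZero (D.N * D.f * D.r) := ⟨by rw [← hLr]; exact level_ne_zero D⟩
  obtain ⟨f', hf', hval⟩ : ∃ f' : CuspForm (Gamma0 (D.N * D.f * D.r)) 2,
      f' ∈ eigenSetOn (D.m * D.f) c (D.N * D.f * D.r) (oldFreeSet D) ∧
      ∀ n, qCoeff f' n = qCoeff f n := by
    revert f hf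
    rw [show liftForms D c = eigenSetOn (D.m * D.f) c (D.N * D.r * D.f) (oldFreeSet D) from rfl]
    generalize D.N * D.r * D.f = L at hLr
    subst hLr
    exact fun {f} hf => ⟨f, hf, fun _ => rfl⟩
  have hrops : D.r ∈ D.ops := (mem_ops_iff D).2 ⟨D.r_prime, Or.inr (by simp)⟩
  have har : qCoeff f' D.r ^ 2 ≠ 1 := by
    rw [hf'.2.1 D.r D.r_prime hrops.2, sq]
    have hr := hc D.r hrops
    rw [chibar_r] at hr
    exact_mod_cast (hr.mul hr).ne_natCast (n := 1) (by rw [Nat.cast_one]; exact omega_sq_ne_one D)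
  have hrf : ¬ D.r ∣ D.N * D.f := fun h => by
    rcases D.r_prime.dvd_mul.1 h with h | h
    · exact D.r_not_dvd h
    · exact r_not_dvd_mf D (h.mul_left _)
  have hB : ∀ p : ℕ, p.Prime → p ∣ D.N * D.f → p ∈ oldFreeSet D ∨ ¬ p ∣ D.r * (D.m * D.f) := by
    intro p hp hpL
    by_cases h0 : p ∣ D.m * D.f
    · exact Or.inl ((dvd_mf_iff D hp).1 h0)
    · exact Or.inr fun h => (hp.dvd_mul.1 h).elim
        (fun h => hrf ((Nat.prime_dvd_prime_iff_eq hp D.r_prime).1 h ▸ hpL)) h0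
  obtain ⟨g, hg⟩ := exists_mem_eigenSetOn_of_sq_ne_one
    (L0 := D.r * (D.m * D.f)) (c := fun p => qCoeff f p) D.r_prime (dvd_mul_right _ _) hrf
    (fun h => r_not_dvd_mf D ((dvd_mf_iff D D.r_prime).2 h)) hB
    (f := f') ⟨hf'.1, fun ℓ _ _ => hval ℓ, hf'.2.2⟩ har
  have hops2 : (2 : ℕ) ∈ D.ops := (mem_ops_iff D).2 ⟨Nat.prime_two, Or.inr (by simp)⟩
  have hgood : ∀ l ∈ D.good, qCoeff g l = qCoeff f l := fun l hl =>
    hg.2.1 l hl.1 fun h => hl.2 (h.trans ⟨2, by rw [HeckeData.N]; ring⟩)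
  have hsq : Squarefree (D.N * D.f) :=
    (squarefree_level D).squarefree_of_dvd ⟨D.r, by rw [hLr]⟩
  refine ⟨g, ⟨hg.1, fun l hl => ?_, ?_, ?_, fun l hl hlmf => ?_⟩, hgood⟩
  · have hlo : l ∈ D.ops := (mem_ops_iff D).2 ⟨hl.1, Or.inl hl.2⟩
    rw [hgood l hl, hf.2.1 l hl.1 hlo.2, ← chibar_good D hl]
    exact hc l hlo
  · have h2' : ¬ (2 : ℕ) ∣ D.r * (D.m * D.f) := fun h => two_not_dvd D (h.trans ⟨1, by ring⟩)
    have h := hc 2 hops2
    rw [chibar_two D h2] at h
    rw [hg.2.1 2 Nat.prime_two h2']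
    dsimp only
    rw [hf.2.1 2 Nat.prime_two hops2.2]
    exact h
  · -- `a ^ 2 - t a + r = 0` with `a ≡ ω`
    obtain ⟨t, ht⟩ := exists_algInt_eq_qCoeff hg.1 D.r_prime
    have hquad := qCoeff_quadratic_right D.r_prime hrf hf'.1 hg.1 ∅ fun ℓ hℓ _ hℓL => by
      rw [hval ℓ, hgood ℓ ⟨hℓ, fun h => hℓL (hLr ▸ h)⟩]
    obtain ⟨a, ha, har'⟩ := hc D.r hrops
    rw [hf'.2.1 D.r D.r_prime hrops.2, ← ha, ← ht] at hquad
    have h0 : a ^ 2 - t * a + (D.r : integralClosure ℤ ℂ) = 0 := Subtype.ext (by simpa using hquad)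
    have h1 := congrArg D.red h0
    rw [map_add, map_sub, map_mul, map_pow, map_natCast, har', chibar_r, natCast_r, map_zero] at h1
    refine ⟨t, ht, ?_⟩
    have hω : D.omega ≠ 0 := fun h => by simpa [h] using D.omega_spec
    have h2' : (2 : D.k) = 0 := by exact_mod_cast CharP.cast_eq_zero D.k 2
    refine mul_right_cancel₀ hω ?_
    linear_combination -h1 + D.omega_spec - D.omega * h2'
  · exact isNewformAt_of_sq_eq_one hl (hlmf.trans ⟨2, by rw [HeckeData.N]; ring⟩) (not_sq_dvd hsq hl)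
      hg.1 (hg.2.2 l ((dvd_mf_iff D hl).1 hlmf) hl)

/-- **From the count to the good forms.** -/
theorem exists_goodForms_of_fineRank (hold : D.NoOldForm) (h2 : D.tbar 2 = 1) {G : ℕ}
    (CC : Finset (↥D.ops → ℂ)) (hlift : ∀ c ∈ CC, IsLift D.red (fun l : ↥D.ops => D.chibar l) c)
    (hcount : 2 * G ≤ ∑ c ∈ CC,
      fineRank (D.N * D.r * D.f) (extendSystem c) {2, D.r} (D.N * D.r * D.f) D.Q) :
    ∃ s : Finset (CuspForm (Gamma0 (D.N * D.f)) 2), G ≤ s.card ∧
      (∀ g ∈ s, IsGoodForm D g) ∧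
      ∀ g ∈ s, ∀ g' ∈ s, g ≠ g' → ∃ l ∈ D.good, qCoeff g l ≠ qCoeff g' l := by
  classical
  have : NeZero (D.N * D.r * D.f) := ⟨level_ne_zero D⟩
  have hres : ∀ c ∈ CC, IsResLift D (extendSystem c) := fun c hc l hl => by
    rw [extendSystem_of_mem c hl]; exact hlift c hc ⟨l, hl⟩
  have hfin : ∀ c : ↥D.ops → ℂ, (liftForms D (extendSystem c)).Finite := fun _ => finite_eigenSetOn
  let F := CC.biUnion fun c => (hfin c).toFinset
  have hdisj : Set.PairwiseDisjoint (CC : Set (↥D.ops → ℂ)) fun c => (hfin c).toFinset := by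
    intro a _ b _ hab
    rw [Function.onFun, Finset.disjoint_left]
    intro f hfa hfb
    rw [Set.Finite.mem_toFinset] at hfa hfb
    refine hab (funext fun l => ?_)
    have h1 := hfa.2.1 l l.2.1 l.2.2
    have h2 := hfb.2.1 l l.2.1 l.2.2
    rw [extendSystem_apply] at h1 h2
    exact h1.symm.trans h2
  have hF : G ≤ F.card := by
    have h1 : 2 * G ≤ 2 * F.card := by
      refine hcount.trans ?_
      rw [Finset.card_biUnion hdisj, Finset.mul_sum]
      refine Finset.sum_le_sum fun c hc => ?_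
      rw [← Set.ncard_eq_toFinset_card _ (hfin c)]
      exact fineRank_le D hold h2 (hres c hc)
    omega
  have hsys : ∀ f ∈ F, ∃ c, IsResLift D c ∧ f ∈ liftForms D c := fun f hf => by
    obtain ⟨c, hc, hf⟩ := Finset.mem_biUnion.1 hf
    exact ⟨_, hres c hc, (Set.Finite.mem_toFinset _).1 hf⟩
  choose! sys hsysres hsysmem using hsys
  have hgood : ∀ f ∈ F, ∃ g : CuspForm (Gamma0 (D.N * D.f)) 2, IsGoodForm D g ∧
      ∀ l ∈ D.good, qCoeff g l = qCoeff f l :=
    fun f hf => exists_goodForm D h2 (hsysres f hf) (hsysmem f hf)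
  choose! γ hγ hγeq using hgood
  have hinj : ∀ f ∈ F, ∀ f' ∈ F, (∀ l ∈ D.good, qCoeff (γ f) l = qCoeff (γ f') l) → f = f' :=
    fun f hf f' hf' h => eq_of_good D h2 (hsysres f hf) (hsysres f' hf') (hsysmem f hf)
      (hsysmem f' hf') fun l hl => by rw [← hγeq f hf l hl, h l hl, hγeq f' hf' l hl]
  refine ⟨F.image γ, ?_, ?_, ?_⟩
  · rwa [Finset.card_image_of_injOn fun f hf f' hf' h => hinj f hf f' hf' fun l _ => by rw [h]]
  · intro g hg
    obtain ⟨f, hf, rfl⟩ := Finset.mem_image.1 hg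
    exact hγ f hf
  · intro g hg g' hg' hne
    obtain ⟨f, hf, rfl⟩ := Finset.mem_image.1 hg
    obtain ⟨f', hf', rfl⟩ := Finset.mem_image.1 hg'
    by_contra! h
    exact hne (by rw [hinj f hf f' hf' h])

end Fermat.Agent.TwoAdic.Count

end
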