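import Fermat.Agent.TwoAdic.Count.HeartSum
import Fermat.Agent.TwoAdic.Cohom.PairImage

/-!
# LT2 P4: from a subspace of a type space to complex systems

Two copies of the subspace go by periods into the cohomology of a representation, the lifting
inequality bounds them by the alternating sum of parts with trivial coefficients, and this is the
sum of the new fine parts at the lifts.
-/

set_option autoImplicit false

noncomputable section

open Module
open Fermat.Agent.TwoAdic.Cohom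

namespace Fermat.Agent.TwoAdic.Count

variable {k : Type*} [Field k] {D : ℕ} {S : Set ℕ} (hgood : GoodPrimes D S) {χ : ℕ → k}
  {M L0 : ℕ} [NeZero M] {E Q : Finset ℕ} {V W : Type*} [AddCommGroup V] [Module ℂ V]
  [AddCommGroup W] [Module ℂ W] {ρ : Representation ℂ (GL (Fin 2) (ZMod D)) W}

/-- **Twice a subspace of lifts is bounded by the new fine parts.** -/
theorem exists_systems_two_mul_le (red : AlgInt →+* k)
    (hQ : ∀ p ∈ Q, p.Prime ∧ ¬ p ∣ M ∧ p ∉ E) (htf : IsTorsionFreeMod M)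
    (hL0 : M * Q.prod id ∣ L0) (hS0 : ∀ l, l ∈ S ↔ l.Prime ∧ (¬ l ∣ L0 ∨ l ∈ E))
    {ℓ : ℕ} (hℓ : ℓ.Prime) (hℓL0 : ¬ ℓ ∣ L0) (hℓM : (ℓ : ZMod (M * Q.prod id)) = 1)
    (hχ : χ ℓ ≠ (ℓ : k) + 1)
    (T : S → Module.End ℂ V) (f : V × V →ₗ[ℂ] H1 M ρ) (hf : Function.Injective f)
    (hfT : ∀ i x, f (T i x.1, T i x.2) = opsH1 hgood ρ i (f x))
    (hfin : FiniteDimensional ℂ V) (A : Submodule ℂ V)
    (hA : A ≤ ⨆ c ∈ {c | IsLift red (fun ℓ : S => χ ℓ) c}, part T c)
    (hlifting : ∀ B : Submodule ℂ (H1 M ρ),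
      B ≤ ⨆ c ∈ {c | IsLift red (fun ℓ : S => χ ℓ) c}, part (opsH1 hgood ρ) c →
      (finrank ℂ B : ℤ) ≤ ∑ A ∈ Q.powerset, (-2 : ℤ) ^ (Q \ A).card *
        (finrank k (heckePart (M * A.prod id) hgood χ
          (Representation.trivial k (GL (Fin 2) (ZMod D)) k)) : ℤ))
    {n : ℕ} (hn : n ≤ finrank ℂ A) :
    ∃ CC : Finset (S → ℂ), (∀ c ∈ CC, IsLift red (fun ℓ : S => χ ℓ) c) ∧
      2 * n ≤ ∑ c ∈ CC, fineRank L0 (extendSystem c) E (M * Q.prod id) Q := by
  obtain ⟨CC, h1, h2⟩ := alternating_trivial_eq_sum hgood red hQ htf hL0 hS0 hℓ hℓL0 hℓM hχ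
  have := hfin
  obtain ⟨B, hB, hB'⟩ := exists_pairImage_le f hf hfT hA
  refine ⟨CC, h1, ?_⟩
  have h := (hlifting B hB').trans h2.le
  rw [hB] at h
  have h' : 2 * finrank ℂ A ≤
      ∑ c ∈ CC, fineRank L0 (extendSystem c) E (M * Q.prod id) Q := by exact_mod_cast h
  omega

end Fermat.Agent.TwoAdic.Count
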