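import Fermat.Agent.TwoAdic.Contracts.Props
import Fermat.Agent.TwoAdic.HeckeSide.Main
import Fermat.Agent.TwoAdic.HeckeSide.Setup
import Fermat.Agent.TwoAdic.HeckeSide.NoOld
import Fermat.Agent.BadPrime.Raise
import Fermat.Agent.HeckeFinite.Finite
import Fermat.Agent.LevelRaise.Eigen

/-!
# The count of congruent new systems

Good forms of the Hecke half give pairwise different elements of `newSystems`: the newform behind
a form new at every prime of `m f` has level `2 m f` or `m f`.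
-/

set_option autoImplicit false

noncomputable section

open CongruenceSubgroup ModularFormClass

namespace Fermat.Agent.TwoAdic.Count

/-- The ring homomorphisms to `ℂ` of a ring finite over `ℤ` are finite in number. -/
theorem finite_ringHom_complex (T : Type*) [CommRing T] [Module.Finite ℤ T] :
    Finite (T →+* ℂ) := by
  classical
  obtain ⟨s, hs⟩ := (inferInstance : Module.Finite ℤ T).fg_top
  choose P hP hP0 using fun t : T => Algebra.IsIntegral.isIntegral (R := ℤ) t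
  let ev : (T →+* ℂ) → ∀ t : s, ((P t.1).map (algebraMap ℤ ℂ)).roots.toFinset := fun χ t =>
    ⟨χ t.1, by
      rw [Multiset.mem_toFinset, Polynomial.mem_roots ((hP t.1).map _).ne_zero,
        Polynomial.IsRoot.def, Polynomial.eval_map,
        show (algebraMap ℤ ℂ) = χ.comp (algebraMap ℤ T) from Subsingleton.elim _ _,
        ← Polynomial.hom_eval₂, hP0, map_zero]⟩
  refine Finite.of_injective ev fun χ χ' h => RingHom.ext fun x => ?_
  have hlin : χ.toAddMonoidHom.toIntLinearMap = χ'.toAddMonoidHom.toIntLinearMap :=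
    LinearMap.ext_on hs fun t ht => congrArg Subtype.val (congrFun h ⟨t, ht⟩)
  exact LinearMap.congr_fun hlin x

/-- The congruent systems of given level are finite in number. -/
theorem finite_newSystems (V : WeierstrassCurve ℤ) (𝔪 : Ideal (integralClosure ℤ ℂ)) (L : ℕ)
    [NeZero L] : (newSystems V 𝔪 L).Finite := by
  have := Periods.moduleFinite_heckeAlgebra_two L (∅ : Set ℕ)
  have := finite_ringHom_complex (CuspForm.heckeAlgebra L 2 (∅ : Set ℕ))
  refine (Set.finite_range fun (χ : CuspForm.heckeAlgebra L 2 (∅ : Set ℕ) →+* ℂ)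
    (ℓ : HeckeIndex L) =>
      χ (CuspForm.heckeAlgebra.T ℓ.1.2 ℓ.2 (Set.notMem_empty _))).subset ?_
  rintro a ⟨L₀, g, hL₀, hg, rfl, -⟩
  have hdvd : L₀ ∣ L := by rcases hL₀ with h | h <;> exact h ▸ by simp
  have : NeZero L₀ := ⟨ne_zero_of_dvd_ne_zero (NeZero.ne L) hdvd⟩
  obtain ⟨f, hf, hfg⟩ := BadPrime.exists_eigenform_level_of_dvd hdvd hg.1
  obtain ⟨χ, -, hχT, -⟩ := BadPrime.exists_eigenChar hf (∅ : Set ℕ)
  exact ⟨χ, funext fun ℓ => (hχT _ ℓ.1.2 ℓ.2 (Set.notMem_empty _)).trans (hfg _ ℓ.1.2 ℓ.2)⟩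

/-- A form of level `2 k`, `k` squarefree, new at every prime of `k`, has the system of a
newform of level `2 k` or `k`. -/
theorem exists_newform_level_two_mul {L k : ℕ} (hL : L = 2 * k) (hk : Squarefree k)
    {g : CuspForm (Gamma0 L) 2} (hg : g.IsNormalizedEigenform)
    (hnew : ∀ l : ℕ, l.Prime → l ∣ k → g.IsNewformAt l) :
    ∃ (L₀ : ℕ) (g₀ : CuspForm (Gamma0 L₀) 2), (L₀ = L ∨ 2 * L₀ = L) ∧ g₀.IsNewform ∧
      ∀ ℓ : ℕ, ℓ.Prime → ¬ ℓ ∣ L → qCoeff g₀ ℓ = qCoeff g ℓ := by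
  have hL0 : L ≠ 0 := by
    rw [hL]; exact Nat.mul_ne_zero two_ne_zero hk.ne_zero
  have : NeZero L := ⟨hL0⟩
  obtain ⟨M, g₀, hM, hg₀, hsys⟩ := BadPrime.exists_newform_of_eigenform hL0 hg
  have : NeZero M := ⟨ne_zero_of_dvd_ne_zero hL0 hM⟩
  have hprime : ∀ l : ℕ, l.Prime → l ∣ k → l ∣ M := by
    intro l hl hlk
    by_contra hlM
    have hlL : l ∣ L := hlk.trans ⟨2, by rw [hL]; ring⟩
    have hMd : M ∣ L / l := by
      have h : M ∣ l * (L / l) := by rwa [Nat.mul_div_cancel' hlL]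
      exact ((hl.coprime_iff_not_dvd.mpr hlM).symm).dvd_of_dvd_mul_left h
    have : NeZero (L / l) := ⟨Nat.div_ne_zero_iff.mpr ⟨hl.ne_zero, Nat.le_of_dvd (Nat.pos_of_ne_zero hL0) hlL⟩⟩
    obtain ⟨f, hf, hfg⟩ := BadPrime.exists_eigenform_level_of_dvd hMd hg₀.1
    exact (hnew l hl hlk).2.2 ⟨f, hf, fun ℓ hℓ hℓL => (hfg ℓ hℓ fun h =>
      hℓL (h.trans (Nat.div_dvd_of_dvd hlL))).trans (hsys ℓ hℓ hℓL)⟩
  have hkM : k ∣ M := by
    rw [← Nat.prod_primeFactors_of_squarefree hk]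
    exact
      Finset.prod_primes_dvd _ (fun l hl => (Nat.prime_of_mem_primeFactors hl).prime)
        fun l hl => hprime l (Nat.prime_of_mem_primeFactors hl) (Nat.dvd_of_mem_primeFactors hl)
  obtain ⟨c, rfl⟩ := hkM
  rw [hL, mul_comm 2 k, Nat.mul_dvd_mul_iff_left (Nat.pos_of_ne_zero hk.ne_zero),
    Nat.dvd_prime Nat.prime_two] at hM
  refine ⟨_, g₀, ?_, hg₀, hsys⟩
  rcases hM with rfl | rfl
  · exact Or.inr (by rw [hL]; ring)
  · exact Or.inl (by rw [hL]; ring)

end Fermat.Agent.TwoAdic.Count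

namespace Fermat.Agent.TwoAdic

open Fermat.Agent.TwoAdic.Count Fermat.Agent.TwoAdic.HeckeSide

/-- P2–P4: the count of congruent new systems. -/
theorem newSystemCount : NewSystemCount := by
  classical
  intro V hV K _ _ hK n Q hn hQ 𝔪 hmax h2
  obtain ⟨D, hcl, hDQ, hDm, hDL, hker, hr, hne, htr⟩ :=
    exists_heckeData V hV K hK n Q hn hQ 𝔪 hmax h2
  have haux : auxLevel V Q ≠ 0 := Finset.prod_ne_zero_iff.mpr fun p hp => by
    rcases Finset.mem_union.mp hp with h | h
    · exact (Nat.prime_of_mem_primeFactors h).ne_zero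
    · exact (hQ.aux p h).prime.ne_zero
  have : NeZero (auxLevel V Q) := ⟨haux⟩
  have hold : D.NoOldForm := noOldForm_of_curve D hV hDm
    (D.N * D.f).primeFactors fun l hl hlT => htr l hl fun hd =>
      hlT (Nat.mem_primeFactors.mpr ⟨hl, hd, by rw [hDL]; exact haux⟩)
  obtain ⟨s, hcard, hgood, hdist⟩ := exists_goodForms D hr hold hne
  have hsq : Squarefree (D.N * D.f) := by
    rw [hDL, auxLevel]
    refine Finset.squarefree_prod_of_pairwise_isCoprime (fun p hp q hq hpq => ?_) fun p hp => ?_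
    · have key : ∀ x ∈ signSet V Q, x.Prime := fun x hx => by
        rcases Finset.mem_union.mp hx with h | h
        · exact Nat.prime_of_mem_primeFactors h
        · exact (hQ.aux x h).prime
      exact Nat.coprime_iff_isRelPrime.mp ((Nat.coprime_primes (key p hp) (key q hq)).mpr hpq)
    · rcases Finset.mem_union.mp hp with h | h
      · exact (Nat.prime_of_mem_primeFactors h).squarefree
      · exact (hQ.aux p h).prime.squarefree
  have hk : D.N * D.f = 2 * (D.m * D.f) := by rw [HeckeData.N, mul_assoc]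
  have hksq : Squarefree (D.m * D.f) := hsq.squarefree_of_dvd ⟨2, by rw [hk]; ring⟩
  choose L₀ g₀ hL₀ hg₀ hsys using fun g : s =>
    exists_newform_level_two_mul hk hksq (hgood g.1 g.2).eigen (hgood g.1 g.2).newAt
  let F : s → (HeckeIndex (auxLevel V Q) → ℂ) := fun g => goodSystem (auxLevel V Q) (g₀ g)
  have hmem : ∀ g : s, F g ∈ newSystems V 𝔪 (auxLevel V Q) := by
    intro g
    refine ⟨L₀ g, g₀ g, by rw [← hDL]; exact hL₀ g, hg₀ g, rfl, fun ℓ => ?_⟩
    have hℓ : ¬ (ℓ.1 : ℕ) ∣ D.N * D.f := by rw [hDL]; exact ℓ.2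
    have hred : ∃ a : integralClosure ℤ ℂ, (a : ℂ) = qCoeff g.1 (ℓ.1 : ℕ) ∧
        D.red a = D.tbar (ℓ.1 : ℕ) := by
      by_cases hℓr : (ℓ.1 : ℕ) = D.r
      · rw [hℓr, hr]; exact (hgood g.1 g.2).at_r
      · refine (hgood g.1 g.2).congr _ ⟨ℓ.1.2, fun hd => ?_⟩
        rw [mul_right_comm] at hd
        rcases ℓ.1.2.dvd_mul.mp hd with h | h
        · exact hℓ h
        · exact hℓr ((Nat.prime_dvd_prime_iff_eq ℓ.1.2 D.r_prime).mp h)
    obtain ⟨a, ha, hared⟩ := hred
    refine ⟨a, ha.trans (hsys g _ ℓ.1.2 hℓ).symm, ?_⟩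
    rw [← hker, RingHom.mem_ker, map_sub, map_intCast, hared, htr _ ℓ.1.2 hℓ, sub_self]
  have hinj : Function.Injective F := by
    intro g g' h
    by_contra hgg
    obtain ⟨l, ⟨hl, hlgood⟩, hne'⟩ :=
      hdist g.1 g.2 g'.1 g'.2 fun h' => hgg (Subtype.ext h')
    have hlL : ¬ l ∣ D.N * D.f := fun hd => hlgood (by rw [mul_right_comm]; exact hd.mul_right _)
    exact hne' ((hsys g l hl hlL).symm.trans ((congrFun h ⟨⟨l, hl⟩, by rw [← hDL]; exact hlL⟩).trans
      (hsys g' l hl hlL)))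
  calc rankBound K Q = 2 ^ (padicValNat 2 (Nat.card (ClassGroup (NumberField.RingOfIntegers D.K))) +
        D.Q.card) := by rw [rankBound, hcl, hDQ]
    _ ≤ s.card := hcard
    _ = (Set.range F).ncard := by
      rw [Set.ncard_range_of_injective hinj, Nat.card_eq_finsetCard]
    _ ≤ _ := Set.ncard_le_ncard (Set.range_subset_iff.mpr hmem)
      (finite_newSystems V 𝔪 (auxLevel V Q))

end Fermat.Agent.TwoAdic
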