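import Fermat.Agent.Periods.Injective
import Fermat.Agent.Periods.HeckePeriods
import Mathlib.NumberTheory.ModularForms.Bounds

/-!
# The eigenvalues of `T_p` have absolute value less than `p + 1`

The function `‖f τ‖ * im τ` of a weight two cusp form attains its maximum.
-/

set_option autoImplicit false

noncomputable section

open CongruenceSubgroup UpperHalfPlane Filter Topology
open Fermat.Agent.Periods
open scoped MatrixGroups ModularForm Modular

namespace Fermat.Agent.TwoAdic.Count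

/-- `‖f τ‖ * im τ`, the invariant norm in weight two. -/
def invNorm (f : ℍ → ℂ) (τ : ℍ) : ℝ := ‖f τ‖ * τ.im

theorem invNorm_nonneg (f : ℍ → ℂ) (τ : ℍ) : 0 ≤ invNorm f τ := by
  unfold invNorm; positivity

theorem norm_petersson_self (f : ℍ → ℂ) (τ : ℍ) : ‖petersson 2 f f τ‖ = invNorm f τ ^ 2 := by
  simp [petersson, invNorm, sq, abs_of_pos τ.im_pos]
  ring

theorem invNorm_slash (f : ℍ → ℂ) (g : GL (Fin 2) ℝ) (τ : ℍ) :
    invNorm (f ∣[(2 : ℤ)] g) τ = invNorm f (g • τ) := by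
  refine (sq_eq_sq₀ (invNorm_nonneg _ _) (invNorm_nonneg _ _)).1 ?_
  rw [← norm_petersson_self, ← norm_petersson_self, petersson_slash]
  simp

variable {N : ℕ}

theorem invNorm_gamma0_smul [NeZero N] (f : CuspForm (Gamma0 N) 2) {γ : SL(2, ℤ)} (hγ : γ ∈ Gamma0 N) (τ : ℍ) :
    invNorm f (γ • τ) = invNorm f τ := by
  refine (sq_eq_sq₀ (invNorm_nonneg _ _) (invNorm_nonneg _ _)).1 ?_
  rw [← norm_petersson_self, ← norm_petersson_self]
  exact SlashInvariantFormClass.norm_petersson_smul (Γ := ((Gamma0 N : Subgroup SL(2, ℤ)) : Subgroup (GL (Fin 2) ℝ)))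
    (Subgroup.mem_map_of_mem _ hγ)

theorem continuous_invNorm (f : CuspForm (Gamma0 N) 2) : Continuous (invNorm f) := by
  unfold invNorm
  exact (CuspFormClass.holo f).continuous.norm.mul UpperHalfPlane.continuous_im

theorem tendsto_invNorm_smul [NeZero N] (f : CuspForm (Gamma0 N) 2) (g : SL(2, ℤ)) :
    Tendsto (fun τ => invNorm f (g • τ)) atImInfty (𝓝 0) := by
  open ConjAct Pointwise in
  have : ((toConjAct (g : GL (Fin 2) ℝ)⁻¹) • ((Gamma0 N : Subgroup SL(2, ℤ)) : Subgroup (GL (Fin 2) ℝ))).IsArithmetic := by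
    simpa [(show Rat.castHom ℝ = algebraMap ℚ ℝ by rfl), map_inv, Matrix.SpecialLinearGroup.map_mapGL]
      using! Subgroup.IsArithmetic.conj ((Gamma0 N : Subgroup SL(2, ℤ)) : Subgroup (GL (Fin 2) ℝ))
        (Matrix.SpecialLinearGroup.mapGL ℚ g)⁻¹
  have h : IsZeroAtImInfty (petersson 2 (⇑f ∣[(2 : ℤ)] g) (⇑f ∣[(2 : ℤ)] g)) :=
    (CuspFormClass.zero_at_infty <| CuspForm.translate f g).petersson_isZeroAtImInfty_left 2 _
      (CuspForm.translate f g)
  rw [IsZeroAtImInfty, ZeroAtFilter] at h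
  have h' := h.norm.sqrt
  rw [norm_zero, Real.sqrt_zero] at h'
  refine h'.congr fun τ => ?_
  rw [UpperHalfPlane.petersson_slash_SL, norm_petersson_self, Real.sqrt_sq (invNorm_nonneg _ _)]

/-- A finite family of cosets, seen in the closed fundamental domain. -/
theorem exists_cover_fd (N : ℕ) [NeZero N] : ∃ S : Finset SL(2, ℤ),
    ∀ τ : ℍ, ∃ γ ∈ Gamma0 N, ∃ δ ∈ S, ∃ w ∈ 𝒟, τ = γ • δ • w := by
  classical
  have : Fintype (SL(2, ℤ) ⧸ Gamma0 N) := Fintype.ofFinite _
  refine ⟨Finset.univ.image fun c : SL(2, ℤ) ⧸ Gamma0 N ↦ (Quotient.out c)⁻¹, fun τ ↦ ?_⟩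
  obtain ⟨g, hg⟩ := ModularGroup.exists_smul_mem_fd τ
  obtain ⟨u, hu⟩ := QuotientGroup.mk_out_eq_mul (Gamma0 N) g
  refine ⟨u, u.2, (g * u)⁻¹, Finset.mem_image.mpr ⟨_, Finset.mem_univ _, by rw [hu]⟩,
    g • τ, hg, ?_⟩
  simp [← mul_smul, mul_assoc]

theorem exists_invNorm_max [NeZero N] (f : CuspForm (Gamma0 N) 2) (hf : f ≠ 0) :
    ∃ z, 0 < invNorm f z ∧ ∀ τ, invNorm f τ ≤ invNorm f z := by
  classical
  obtain ⟨τ₀, hτ₀⟩ : ∃ τ₀, f τ₀ ≠ 0 := by
    by_contra! h
    exact hf (DFunLike.ext _ _ h)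
  set c := invNorm f τ₀ with hc
  have hc0 : 0 < c := mul_pos (norm_pos_iff.2 hτ₀) τ₀.im_pos
  obtain ⟨S, hS⟩ := exists_cover_fd N
  have hev : ∀ᶠ τ in atImInfty, ∀ δ ∈ S, invNorm f (δ • τ) < c :=
    (Finset.eventually_all S).2 fun δ _ => (tendsto_invNorm_smul f δ).eventually_lt_const hc0
  rw [UpperHalfPlane.atImInfty, Filter.eventually_comap, Filter.eventually_atTop] at hev
  obtain ⟨Y, hY⟩ := hev
  let K : Set ℍ := ⋃ δ ∈ S, (fun w => δ • w) '' ModularGroup.truncatedFundamentalDomain Y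
  have hK : IsCompact K := S.finite_toSet.isCompact_biUnion fun δ _ =>
    (ModularGroup.isCompact_truncatedFundamentalDomain Y).image (by simp only [ModularGroup.sl_moeb]; fun_prop)
  have hcases : ∀ τ, invNorm f τ < c ∨ ∃ x ∈ K, invNorm f τ = invNorm f x := by
    intro τ
    obtain ⟨γ, hγ, δ, hδ, w, hw, rfl⟩ := hS τ
    rw [invNorm_gamma0_smul f hγ]
    rcases le_total w.im Y with h | h
    · exact Or.inr ⟨δ • w, Set.mem_biUnion hδ ⟨w, ⟨hw, h⟩, rfl⟩, rfl⟩
    · exact Or.inl (hY _ h w rfl δ hδ)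
  obtain ⟨x₀, hx₀, hx₀'⟩ := (hcases τ₀).resolve_left (lt_irrefl c)
  obtain ⟨z, hz, hmax⟩ := hK.exists_isMaxOn ⟨x₀, hx₀⟩ (continuous_invNorm f).continuousOn
  have hcz : c ≤ invNorm f z := hx₀'.le.trans (hmax hx₀)
  refine ⟨z, hc0.trans_le hcz, fun τ => ?_⟩
  rcases hcases τ with h | ⟨x, hx, hx'⟩
  · exact h.le.trans hcz
  · exact hx'.le.trans (hmax hx)

theorem card_heckeIdx_T {p : ℕ} (hpN : ¬ p ∣ N) : Fintype.card (HeckeIdx N p) = p + 1 := by
  rw [Fintype.card_congr (Equiv.subtypeUnivEquiv fun (_ : Option (Fin p)) _ => hpN),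
    Fintype.card_option, Fintype.card_fin]

/-- The eigenvalues of `T_p` have absolute value less than `p + 1`. -/
theorem norm_eigenvalue_lt [NeZero N] {p : ℕ} (hp : p.Prime) (hpN : ¬ p ∣ N) {f : CuspForm (Gamma0 N) 2}
    (hf : f ≠ 0) {μ : ℂ} (h : CuspForm.heckeTLin 2 hp hpN f = μ • f) : ‖μ‖ < (p : ℝ) + 1 := by
  by_contra! hμ
  obtain ⟨z, hz, hmax⟩ := exists_invNorm_max f hf
  have hsum : ∀ τ, μ * f τ = ∑ i : HeckeIdx N p, (⇑f ∣[(2 : ℤ)] heckeGL N p i) τ := by
    intro τ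
    have := congrFun (congrArg DFunLike.coe h) τ
    rw [CuspForm.coe_heckeTLin_apply, ← heckeSlashSum_T hpN, heckeSlashSum, Finset.sum_apply] at this
    rw [this]
    rfl
  let i₀ : HeckeIdx N p := ⟨none, fun _ => hpN⟩
  have step : ∀ w, invNorm f w = invNorm f z → invNorm f (heckeGL N p i₀ • w) = invNorm f z := by
    intro w hw
    refine le_antisymm (hmax _) (not_lt.1 fun hlt => ?_)
    have h1 : ‖μ‖ * invNorm f w ≤ ∑ i : HeckeIdx N p, invNorm f (heckeGL N p i • w) := by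
      unfold invNorm
      rw [← mul_assoc, ← norm_mul, hsum w]
      refine (mul_le_mul_of_nonneg_right (norm_sum_le _ _) w.im_pos.le).trans_eq ?_
      rw [Finset.sum_mul]
      exact Finset.sum_congr rfl fun i _ => invNorm_slash _ _ w
    have h2 : ∑ i : HeckeIdx N p, invNorm f (heckeGL N p i • w) <
        ∑ _i : HeckeIdx N p, invNorm f z :=
      Finset.sum_lt_sum (fun i _ => hmax _) ⟨i₀, Finset.mem_univ _, hlt⟩
    rw [Finset.sum_const, Finset.card_univ, card_heckeIdx_T hpN, nsmul_eq_mul, Nat.cast_add,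
      Nat.cast_one] at h2
    nlinarith [mul_le_mul_of_nonneg_right hμ hz.le, hw]
  have hiter : ∀ n : ℕ, invNorm f (((fun w : ℍ => heckeGL N p i₀ • w)^[n]) z) = invNorm f z := by
    intro n
    induction n with
    | zero => rfl
    | succ n ih => rw [Function.iterate_succ_apply']; exact step _ ih
  have him : ∀ n : ℕ, (((fun w : ℍ => heckeGL N p i₀ • w)^[n]) z).im = (p : ℝ) ^ n * z.im := by
    intro n
    induction n with
    | zero => simp
    | succ n ih =>
      rw [Function.iterate_succ_apply']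
      show (ModularForm.heckeDiagMatrix p • _ : ℍ).im = _
      rw [UpperHalfPlane.im_smul_eq_div_normSq, ih]
      simp [UpperHalfPlane.denom, ModularForm.val_heckeDiagMatrix hp.ne_zero, pow_succ]
      ring
  have hlim : Tendsto (fun n : ℕ => ((fun w : ℍ => heckeGL N p i₀ • w)^[n]) z) atTop atImInfty := by
    rw [UpperHalfPlane.atImInfty, tendsto_comap_iff]
    refine Tendsto.congr (fun n => (him n).symm) (Tendsto.atTop_mul_const z.im_pos ?_)
    exact tendsto_pow_atTop_atTop_of_one_lt (by exact_mod_cast hp.one_lt)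
  have h0 := ((tendsto_invNorm_smul f 1).comp hlim).congr fun n => by
    rw [Function.comp_apply, one_smul, hiter n]
  exact hz.ne (tendsto_nhds_unique h0 tendsto_const_nhds)

end Fermat.Agent.TwoAdic.Count

end
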