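import Fermat.Agent.RT.Systems.Depleted

/-!
# Forms whose coefficients are supported at the multiples of a prime

For a prime `q`: a form of level `q D` with all coefficients off the multiples of `q` zero comes
from level `D` by `τ ↦ q τ`; for `q ∤ D` a form of level `D` with this property is zero.

Owner: helper95 (LT2, Hecke co-captain).
-/

set_option autoImplicit false

noncomputable section

open CongruenceSubgroup ModularFormClass UpperHalfPlane Matrix.SpecialLinearGroup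
open scoped MatrixGroups ModularForm

namespace Fermat.Agent.TwoAdic.Count

variable {q D : ℕ}

/-- The coefficients off the multiples of `q` vanish. -/
def IsSupported (q : ℕ) {N : ℕ} (f : CuspForm (Gamma0 N) 2) : Prop :=
  ∀ n, ¬ q ∣ n → qCoeff f n = 0

theorem T_zpow_mul_entries (j : ℤ) (γ : SL(2, ℤ)) :
    ((ModularGroup.T ^ j * γ) 0 0 = γ 0 0 + j * γ 1 0) ∧ ((ModularGroup.T ^ j * γ) 1 0 = γ 1 0) := by
  simp [Matrix.SpecialLinearGroup.coe_mul, ModularGroup.coe_T_zpow, Matrix.mul_apply,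
    Fin.sum_univ_two]

theorem mul_T_zpow_entries (γ : SL(2, ℤ)) (i : ℤ) :
    ((γ * ModularGroup.T ^ i) 0 1 = γ 0 0 * i + γ 0 1) ∧ ((γ * ModularGroup.T ^ i) 1 0 = γ 1 0) := by
  simp [Matrix.SpecialLinearGroup.coe_mul, ModularGroup.coe_T_zpow, Matrix.mul_apply,
    Fin.sum_univ_two]

/-- `Γ₀(D)` is generated by the translations and the elements with upper right entry divisible by
the prime `q`. -/
theorem exists_translation_decomp (hq : q.Prime) {γ : SL(2, ℤ)} (hγ : γ ∈ Gamma0 D) :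
    ∃ i j : ℤ, ∃ δ ∈ Gamma0 D, (q : ℤ) ∣ δ 0 1 ∧
      γ = ModularGroup.T ^ i * δ * ModularGroup.T ^ j := by
  have := Fact.mk hq
  have hdet : γ 0 0 * γ 1 1 - γ 0 1 * γ 1 0 = 1 := by
    rw [← Matrix.det_fin_two]; exact γ.2
  obtain ⟨j, hj⟩ : ∃ j : ℤ, ((γ 0 0 + j * γ 1 0 : ℤ) : ZMod q) ≠ 0 := by
    by_cases ha : ((γ 0 0 : ℤ) : ZMod q) = 0
    · refine ⟨1, fun h => ?_⟩
      have h1 := congrArg (Int.cast : ℤ → ZMod q) hdet
      push_cast at h h1
      rw [ha, zero_add, one_mul] at h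
      rw [ha, h, zero_mul, mul_zero, sub_zero] at h1
      exact zero_ne_one h1
    · exact ⟨0, by simpa using ha⟩
  set a := γ 0 0 + j * γ 1 0 with ha
  obtain ⟨i, hi⟩ : ∃ i : ℤ, ((a * i + (ModularGroup.T ^ j * γ) 0 1 : ℤ) : ZMod q) = 0 := by
    refine ⟨((-(((ModularGroup.T ^ j * γ) 0 1 : ℤ) : ZMod q) / (a : ZMod q)).val : ℤ), ?_⟩
    push_cast
    rw [ZMod.natCast_zmod_val]
    field_simp
    ring
  refine ⟨-j, -i, ModularGroup.T ^ j * γ * ModularGroup.T ^ i, ?_, ?_, by group⟩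
  · rw [Gamma0_mem, (mul_T_zpow_entries _ _).2, (T_zpow_mul_entries _ _).2]
    exact Gamma0_mem.1 hγ
  · rw [← ZMod.intCast_zmod_eq_zero_iff_dvd, (mul_T_zpow_entries _ _).1,
      (T_zpow_mul_entries _ _).1]
    exact hi

/-- A form of level `q D` supported at the multiples of `q` descends to level `D`. -/
theorem exists_descend [NeZero D] (hq : q.Prime)
    (F : CuspForm (Gamma0 (q * D)) 2) (hF : IsSupported q F) :
    ∃ h : CuspForm (Gamma0 D) 2, ∀ n, qCoeff h n = qCoeff F (n * q) := by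
  have : NeZero q := ⟨hq.ne_zero⟩
  set u := CuspForm.heckeULin 2 (dvd_mul_right q D) F with hu
  have hucoe : ∀ n, qCoeff u n = qCoeff F (n * q) := fun n =>
    Periods.qCoeff_heckeULin hq (dvd_mul_right q D) F n
  have hdq : q * D * q ∣ q * D * q := dvd_rfl
  have hFu : RT.Systems.diagForm hdq u = (q : ℂ) • BadPrime.levelIncl (dvd_mul_right _ q) F := by
    refine Periods.ext_qCoeff fun n => ?_
    rw [RT.Systems.qCoeff_diagForm, Periods.qCoeff_smul, BadPrime.coe_levelIncl]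
    split_ifs with hn
    · obtain ⟨m, rfl⟩ := hn
      rw [Nat.mul_div_cancel_left _ hq.pos, hucoe, mul_comm q m]
    · rw [hF n hn, mul_zero]
  have hfun : (⇑u ∣[(2 : ℤ)] ModularForm.heckeDiagMatrix q : ℍ → ℂ) = (q : ℂ) • ⇑F :=
    congrArg (fun x : CuspForm (Gamma0 (q * D * q)) 2 => (⇑x : ℍ → ℂ)) hFu
  have hdelta : ∀ δ ∈ Gamma0 D, (q : ℤ) ∣ δ 0 1 → (⇑u) ∣[(2 : ℤ)] δ = ⇑u := by
    intro δ hδ ⟨b, hb⟩
    obtain ⟨a, b', c, d, hM, hdet, hc⟩ := Periods.gammaMat_entries (N := D) ⟨δ, hδ⟩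
    have e : ∀ i j, (δ i j : ℤ) = !![a, b'; c, d] i j := fun i j =>
      congrFun (congrFun hM i) j
    have hb' : b' = q * b := (e 0 1).symm.trans hb
    let γ : SL(2, ℤ) := ⟨!![a, b; q * c, d], by
      rw [Matrix.det_fin_two_of]; rw [hb'] at hdet; linear_combination hdet⟩
    have hγ : γ ∈ Gamma0 (q * D) := by
      rw [Gamma0_mem, ZMod.intCast_zmod_eq_zero_iff_dvd]
      show ((q * D : ℕ) : ℤ) ∣ q * c
      push_cast
      exact mul_dvd_mul_left _ hc
    have hcomm : (mapGL ℝ δ : GL (Fin 2) ℝ) * ModularForm.heckeDiagMatrix q =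
        ModularForm.heckeDiagMatrix q * mapGL ℝ γ := by
      refine Units.ext ?_
      simp only [Units.val_mul, ModularForm.val_heckeDiagMatrix hq.ne_zero]
      have hcoe : ∀ (g : SL(2, ℤ)) i j,
          (↑(mapGL ℝ g) : Matrix (Fin 2) (Fin 2) ℝ) i j = ((g i j : ℤ) : ℝ) := fun g i j => by
        simp [mapGL]
      ext i j
      simp only [Matrix.mul_apply, Fin.sum_univ_two, hcoe, e]
      fin_cases i <;> fin_cases j <;> simp [γ, hb'] <;> ring
    have hkey : ((⇑u) ∣[(2 : ℤ)] δ) ∣[(2 : ℤ)] ModularForm.heckeDiagMatrix q =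
        (⇑u) ∣[(2 : ℤ)] ModularForm.heckeDiagMatrix q := by
      rw [Hecke.slash_SL_eq, ← SlashAction.slash_mul, hcomm, SlashAction.slash_mul, hfun,
        ← Hecke.slash_SL_eq, ModularForm.SL_smul_slash, RT.Systems.gamma0_slash F hγ]
    have := congrArg (fun x : ℍ → ℂ => x ∣[(2 : ℤ)] (ModularForm.heckeDiagMatrix q)⁻¹) hkey
    simpa only [← SlashAction.slash_mul, mul_inv_cancel, SlashAction.slash_one] using this
  have hT : ∀ i : ℤ, (⇑u) ∣[(2 : ℤ)] (ModularGroup.T ^ i : SL(2, ℤ)) = ⇑u := fun i =>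
    RT.Systems.gamma0_slash u (RT.Systems.T_zpow_mem_gamma0 _ i)
  have hinv : ∀ γ ∈ Gamma0 D, (⇑u) ∣[(2 : ℤ)] γ = ⇑u := by
    intro γ hγ
    obtain ⟨i, j, δ, hδ, hδq, rfl⟩ := exists_translation_decomp hq hγ
    rw [SlashAction.slash_mul, SlashAction.slash_mul, hT i, hdelta δ hδ hδq, hT j]
  let h : CuspForm (Gamma0 D) 2 :=
    { toFun := ⇑u
      slash_action_eq' := fun g hg => by
        obtain ⟨γ, hγ, rfl⟩ := Subgroup.mem_map.1 hg
        rw [← Hecke.slash_SL_eq]
        exact hinv γ hγ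
      holo' := ModularFormClass.holo u
      zero_at_cusps' := fun hc => u.zero_at_cusps' (by
        rw [Subgroup.IsArithmetic.isCusp_iff_isCusp_SL2Z] at hc ⊢
        exact hc) }
  exact ⟨h, hucoe⟩

theorem isSupported_sub {N : ℕ} {f g : CuspForm (Gamma0 N) 2}
    (h : ∀ n, ¬ q ∣ n → qCoeff f n = qCoeff g n) : IsSupported q (f - g) := fun n hn => by
  rw [show f - g = f + (-1 : ℂ) • g by module, Periods.qCoeff_add, Periods.qCoeff_smul, h n hn]
  ring

/-- A form of level `D` supported at the multiples of `q ∤ D` is zero. -/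
theorem eq_zero_of_isSupported [NeZero D] (hq : q.Prime) (hqD : ¬ q ∣ D)
    (x : CuspForm (Gamma0 D) 2) (hx : IsSupported q x) : x = 0 := by
  have : NeZero q := ⟨hq.ne_zero⟩
  have hq0 : (q : ℂ) ≠ 0 := Nat.cast_ne_zero.2 hq.ne_zero
  let K : Submodule ℂ (CuspForm (Gamma0 D) 2) :=
    ⨅ n : {n : ℕ // ¬ q ∣ n}, LinearMap.ker (Periods.qCoeffLin D (n : ℕ))
  have hmemK : ∀ y, y ∈ K ↔ IsSupported q y := fun y => by
    simp [K, Submodule.mem_iInf, IsSupported]
  have hstep : ∀ y ∈ K, ∃ z ∈ K, ∀ n, qCoeff z n = if q ∣ n then qCoeff y (n / q) else 0 := by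
    intro y hy
    obtain ⟨h, hh⟩ := exists_descend hq (BadPrime.levelIncl (dvd_mul_left D q) y)
      (fun n hn => by rw [BadPrime.coe_levelIncl]; exact (hmemK y).1 hy n hn)
    refine ⟨(q : ℂ)⁻¹ • (CuspForm.heckeTLin 2 hq hqD y + (-1 : ℂ) • h), (hmemK _).2 fun n hn => ?_,
      fun n => ?_⟩
    · rw [Periods.qCoeff_smul, Periods.qCoeff_add, Periods.qCoeff_smul,
        Periods.qCoeff_heckeTLin hq hqD, hh, BadPrime.coe_levelIncl, if_neg hn]
      ring
    · rw [Periods.qCoeff_smul, Periods.qCoeff_add, Periods.qCoeff_smul,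
        Periods.qCoeff_heckeTLin hq hqD, hh, BadPrime.coe_levelIncl]
      split_ifs <;> field_simp <;> ring
  choose ψ hψK hψ using fun y : K => hstep y.1 y.2
  let Ψ : K →ₗ[ℂ] K :=
    { toFun := fun y => ⟨ψ y, hψK y⟩
      map_add' := fun a b => Subtype.ext (Periods.ext_qCoeff fun n => by
        rw [hψ, Submodule.coe_add, Submodule.coe_add, Periods.qCoeff_add, Periods.qCoeff_add,
          hψ, hψ]
        split_ifs <;> simp)
      map_smul' := fun c a => Subtype.ext (Periods.ext_qCoeff fun n => by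
        rw [hψ, SetLike.val_smul, RingHom.id_apply, SetLike.val_smul, Periods.qCoeff_smul,
          Periods.qCoeff_smul, hψ]
        split_ifs <;> simp) }
  have hcoe : ∀ (y : K) n, qCoeff (Ψ y : CuspForm (Gamma0 D) 2) n =
      if q ∣ n then qCoeff (y : CuspForm (Gamma0 D) 2) (n / q) else 0 := hψ
  have hinj : Function.Injective Ψ := by
    intro a b hab
    refine Subtype.ext (Periods.ext_qCoeff fun n => ?_)
    have := congrArg (fun y : K => qCoeff (y : CuspForm (Gamma0 D) 2) (q * n)) hab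
    simpa [hcoe, Nat.mul_div_cancel_left _ hq.pos] using this
  have := BadPrime.finiteDimensional_cuspForm D
  have hiter : ∀ (j n : ℕ) (y : K), ¬ q ^ j ∣ n → qCoeff (y : CuspForm (Gamma0 D) 2) n = 0 := by
    intro j
    induction j with
    | zero => intro n y hn; simp at hn
    | succ j ih =>
      intro n y hn
      obtain ⟨y', rfl⟩ := LinearMap.surjective_of_injective hinj y
      rw [hcoe]
      split_ifs with hqn
      · obtain ⟨m, rfl⟩ := hqn
        rw [Nat.mul_div_cancel_left _ hq.pos]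
        exact ih m y' fun h => hn (by rw [pow_succ']; exact mul_dvd_mul_left q h)
      · rfl
  refine Periods.ext_qCoeff fun n => ?_
  rw [Hecke.qCoeff_zero]
  rcases Nat.eq_zero_or_pos n with rfl | hn
  · exact Periods.qCoeff_zero_eq_zero x
  · exact hiter n n ⟨x, (hmemK x).2 hx⟩ fun h =>
      absurd (Nat.le_of_dvd hn h) (not_le.2 (Nat.lt_pow_self hq.one_lt))

end Fermat.Agent.TwoAdic.Count

end
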