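import Fermat.Agent.TwoAdic.Count.Fine
import Fermat.Agent.Hecke.GoodSemisimple
import Mathlib.LinearAlgebra.Eigenspace.Semisimple

/-!
# A generalised eigenvalue `a` of `U_q` with `a² ≠ q` is an eigenvalue

For `q` dividing the level exactly once. On the old part this is the semisimplicity of `T_q`.
-/

set_option autoImplicit false

noncomputable section

open CongruenceSubgroup ModularCurve ModularCurve.Period Module
open Fermat.Agent.Periods Fermat.Agent.LevelRaise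
open scoped MatrixGroups

namespace Fermat.Agent.TwoAdic.Count

variable {L0 : ℕ} {c : ℕ → ℂ} {L q : ℕ} {B : Finset ℕ}

/-- `T_q` is semisimple on parabolic classes, `q ∤ L`. -/
theorem heckeHom_eq_smul_of_sq [NeZero L] (hq : q.Prime) (hqL : ¬ q ∣ L) {t : ℂ}
    {φ : Additive (Gamma0 L) →+ ℂ} (hφ : φ ∈ parabolicHoms ℂ (Gamma0 L) ℂ)
    (h : (shiftOp (heckeHom (N := L) ℂ ℂ hq) t ^ 2) φ = 0) : heckeHom ℂ ℂ hq φ = t • φ := by
  obtain ⟨x, rfl⟩ : φ ∈ LinearMap.range (periodHomPair L) := by rwa [range_periodHomPair L]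
  rw [pow_sub_periodHomPair, ← map_zero (periodHomPair L), (periodHomPair_injective L).eq_iff,
    Prod.ext_iff] at h
  have hT : primeOp L q hq = CuspForm.heckeTLin 2 hq hqL := by rw [primeOp, dif_neg hqL]
  rw [hT] at h
  have hss : Module.End.IsFinitelySemisimple
      (CuspForm.heckeTLin 2 hq hqL : Module.End ℂ (CuspForm (Gamma0 L) 2)) :=
    (Hecke.isSemisimple_heckeTLin hq hqL).isFinitelySemisimple
  have heig : ∀ f, (shiftOp (CuspForm.heckeTLin 2 hq hqL) t ^ 2) f = 0 →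
      CuspForm.heckeTLin 2 hq hqL f = t • f := fun f hf => by
    have : f ∈ Module.End.maxGenEigenspace (CuspForm.heckeTLin 2 hq hqL) t :=
      (Module.End.mem_maxGenEigenspace _ _ _).mpr ⟨2, hf⟩
    rw [hss.maxGenEigenspace_eq_eigenspace] at this
    exact Module.End.mem_eigenspace_iff.mp this
  rw [heckeHom_periodHomPair_T hq hqL, heig _ h.1, heig _ h.2, ← map_smul]
  rfl

variable (hq : q.Prime) (hqL : ¬ q ∣ L)

/-- An old class in the coordinates of the restriction and the Atkin–Lehner conjugate restriction. -/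
def oldClass (φ ψ : Additive (Gamma0 L) →+ ℂ) : Additive (Gamma0 (L * q)) →+ ℂ :=
  degRes L q ℂ φ + (isFamily_atkinLehner hq hqL).transfer ℂ (degRes L q ℂ ψ)

theorem atkinLehner_smul (z : ℂ) (x : Additive (Gamma0 (L * q)) →+ ℂ) :
    (isFamily_atkinLehner hq hqL).transfer ℂ (z • x) =
      z • (isFamily_atkinLehner hq hqL).transfer ℂ x := by
  rw [smul_eq_smulHom_comp, smul_eq_smulHom_comp]
  exact (isFamily_atkinLehner hq hqL).transfer_postcomp _ x

theorem degTr_oldClass (φ ψ : Additive (Gamma0 L) →+ ℂ) :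
    degTr L ℂ hq hqL (oldClass hq hqL φ ψ) = ((q : ℂ) + 1) • φ + heckeHom ℂ ℂ hq ψ := by
  rw [oldClass, map_add, degTr_degRes, natCast_smul_hom,
    ← degTr'_atkinLehner hq hqL ((isFamily_atkinLehner hq hqL).transfer ℂ _),
    atkinLehner_sq hq hqL, degTr'_degRes]
  push_cast
  rfl

theorem degTr'_oldClass (φ ψ : Additive (Gamma0 L) →+ ℂ) :
    degTr' L ℂ hq hqL (oldClass hq hqL φ ψ) = heckeHom ℂ ℂ hq φ + ((q : ℂ) + 1) • ψ := by
  rw [oldClass, map_add, degTr'_degRes, degTr'_atkinLehner hq hqL, degTr_degRes, natCast_smul_hom]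
  push_cast
  rfl

/-- `U_q` on old classes has matrix `[[T_q, q], [-1, 0]]`. -/
theorem shiftOp_oldClass (φ ψ : Additive (Gamma0 L) →+ ℂ) (a : ℂ) :
    shiftOp (heckeHom (N := L * q) ℂ ℂ hq) a (oldClass hq hqL φ ψ) =
      oldClass hq hqL (heckeHom ℂ ℂ hq φ + (q : ℂ) • ψ - a • φ) (-φ - a • ψ) := by
  set W := (isFamily_atkinLehner (N := L) hq hqL).transfer ℂ
  have hUR : heckeHom ℂ ℂ hq (degRes L q ℂ φ) =
      degRes L q ℂ (heckeHom ℂ ℂ hq φ) - W (degRes L q ℂ φ) := by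
    have h1 := degRes_degTr' hq hqL (degRes L q ℂ φ)
    rw [degTr'_degRes] at h1
    exact eq_sub_of_add_eq h1.symm
  have hUW : heckeHom ℂ ℂ hq (W (degRes L q ℂ ψ)) = (q : ℂ) • degRes L q ℂ ψ := by
    have h1 := degRes_degTr' hq hqL (W (degRes L q ℂ ψ))
    rw [degTr'_atkinLehner hq hqL, degTr_degRes, natCast_smul_hom, atkinLehner_sq hq hqL,
      degRes_smul] at h1
    push_cast at h1
    rw [add_smul, one_smul] at h1
    exact (add_right_cancel h1).symm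
  rw [LinearMap.sub_apply, LinearMap.smul_apply, Module.End.one_apply, oldClass, oldClass,
    map_add, hUR, hUW]
  have hWs : ∀ (z : ℂ) x, W (z • x) = z • W x := atkinLehner_smul hq hqL
  simp only [map_add, map_sub, map_neg, degRes_smul, atkinLehner_smul hq hqL, W]
  module

/-- The classes killed by both transfers are stable under `U_q`. -/
theorem degTr_heckeHom_eq_zero {n : Additive (Gamma0 (L * q)) →+ ℂ}
    (h1 : degTr L ℂ hq hqL n = 0) (h2 : degTr' L ℂ hq hqL n = 0) :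
    degTr L ℂ hq hqL (heckeHom ℂ ℂ hq n) = 0 ∧ degTr' L ℂ hq hqL (heckeHom ℂ ℂ hq n) = 0 := by
  have e1 : heckeHom ℂ ℂ hq n = -(isFamily_atkinLehner hq hqL).transfer ℂ n := by
    have := degRes_degTr' hq hqL n
    rw [h2, map_zero] at this
    exact eq_neg_of_add_eq_zero_left this.symm
  rw [e1, map_neg, map_neg, degTr'_atkinLehner hq hqL, h1,
    ← degTr'_atkinLehner hq hqL ((isFamily_atkinLehner hq hqL).transfer ℂ n),
    atkinLehner_sq hq hqL, h2, neg_zero]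
  exact ⟨rfl, rfl⟩

theorem oldClass_injective [NeZero L] {φ ψ : Additive (Gamma0 L) →+ ℂ}
    (hφ : φ ∈ parabolicHoms ℂ (Gamma0 L) ℂ) (hψ : ψ ∈ parabolicHoms ℂ (Gamma0 L) ℂ)
    {n : Additive (Gamma0 (L * q)) →+ ℂ} (h1 : degTr L ℂ hq hqL n = 0)
    (h2 : degTr' L ℂ hq hqL n = 0) (h : oldClass hq hqL φ ψ + n = 0) :
    φ = 0 ∧ ψ = 0 ∧ n = 0 := by
  have e1 := congrArg (degTr L ℂ hq hqL) h
  have e2 := congrArg (degTr' L ℂ hq hqL) h
  rw [map_add, degTr_oldClass, h1, add_zero, map_zero] at e1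
  rw [map_add, degTr'_oldClass, h2, add_zero, map_zero] at e2
  obtain ⟨rfl, rfl⟩ := eq_zero_of_pair hq hφ hψ e1 e2 hqL
  exact ⟨rfl, rfl, by simpa [oldClass] using h⟩

/-- The old part: semisimplicity of `[[T_q, q], [-1, 0]]` at an eigenvalue `a` with `a² ≠ q`. -/
theorem old_shift_eq_zero [NeZero L] {a : ℂ} (ha : a ^ 2 ≠ (q : ℂ)) (hqL : ¬ q ∣ L)
    {φ ψ : Additive (Gamma0 L) →+ ℂ} (hφ : φ ∈ parabolicHoms ℂ (Gamma0 L) ℂ)
    (hψ : ψ ∈ parabolicHoms ℂ (Gamma0 L) ℂ) {φ₁ ψ₁ : Additive (Gamma0 L) →+ ℂ}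
    (hφ₁ : φ₁ = heckeHom ℂ ℂ hq φ + (q : ℂ) • ψ - a • φ) (hψ₁ : ψ₁ = -φ - a • ψ)
    (h1 : heckeHom ℂ ℂ hq φ₁ + (q : ℂ) • ψ₁ - a • φ₁ = 0) (h2 : -φ₁ - a • ψ₁ = 0) :
    φ₁ = 0 ∧ ψ₁ = 0 := by
  have hq0 : (q : ℂ) ≠ 0 := Nat.cast_ne_zero.2 hq.ne_zero
  have hT := heckeHom_mem_parabolicHoms (R := ℂ) hq hφ
  obtain rfl : φ₁ = -(a • ψ₁) := by linear_combination (norm := module) -h2
  by_cases ha0 : a = 0
  · subst ha0
    simp only [zero_smul, neg_zero, map_zero, zero_add, sub_zero] at h1 ⊢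
    exact ⟨trivial, (smul_eq_zero.1 h1).resolve_left hq0⟩
  -- `T ψ₁ = t ψ₁` with `t = a + q / a`
  set t := a + (q : ℂ) / a with ht
  have hat : a * t = a ^ 2 + q := by rw [ht]; field_simp
  have hψ₁T : heckeHom ℂ ℂ hq ψ₁ = t • ψ₁ := by
    rw [map_neg, map_smul] at h1
    refine smul_right_injective _ ha0 ?_
    show a • heckeHom ℂ ℂ hq ψ₁ = a • t • ψ₁
    rw [smul_smul, hat]
    linear_combination (norm := module) -h1
  have hφ' : φ = -ψ₁ - a • ψ := by rw [hψ₁]; module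
  have hkey : ((2 * a - t) : ℂ) • ψ₁ = a • (heckeHom ℂ ℂ hq ψ - t • ψ) := by
    rw [hφ', map_sub, map_neg, map_smul, hψ₁T] at hφ₁
    have hq' : (q : ℂ) = a * t - a ^ 2 := by rw [hat]; ring
    rw [hq'] at hφ₁
    linear_combination (norm := module) (-1 : ℂ) • hφ₁
  have hne : 2 * a - t ≠ 0 := by
    intro h
    apply ha
    linear_combination a * h + hat
  have h3 : heckeHom ℂ ℂ hq ψ = t • ψ := by
    refine heckeHom_eq_smul_of_sq hq hqL hψ ?_
    have h4 := congrArg (fun v => heckeHom ℂ ℂ hq v - t • v) hkey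
    simp only [map_smul, map_sub, hψ₁T] at h4
    rw [pow_two, Module.End.mul_apply]
    simp only [LinearMap.sub_apply, LinearMap.smul_apply, Module.End.one_apply, map_sub, map_smul]
    refine (smul_right_injective _ ha0) ?_
    simp only [smul_zero]
    linear_combination (norm := module) -h4
  rw [h3, sub_self, smul_zero] at hkey
  have := (smul_eq_zero.1 hkey).resolve_left hne
  exact ⟨by rw [this, smul_zero, neg_zero], this⟩

theorem shift_eq_zero_of_sq_eq_one {n : Additive (Gamma0 (L * q)) →+ ℂ} {a : ℂ}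
    (hn : heckeHom ℂ ℂ hq (heckeHom ℂ ℂ hq n) = n)
    (h : shiftOp (heckeHom (N := L * q) ℂ ℂ hq) a (shiftOp (heckeHom (N := L * q) ℂ ℂ hq) a n) = 0) :
    shiftOp (heckeHom (N := L * q) ℂ ℂ hq) a n = 0 := by
  simp only [LinearMap.sub_apply, LinearMap.smul_apply, Module.End.one_apply, map_sub, map_smul,
    hn] at h ⊢
  -- `2 a U n = (1 + a²) n`
  have h1 : (2 * a) • heckeHom ℂ ℂ hq n = (1 + a ^ 2) • n := by
    linear_combination (norm := module) -h
  have h2 := congrArg (heckeHom ℂ ℂ hq) h1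
  rw [map_smul, map_smul, hn] at h2
  have h3 : ((1 - a ^ 2) ^ 2) • n = 0 := by
    linear_combination (norm := module) -(2 * a) • h2 - (1 + a ^ 2) • h1
  by_cases ha : (1 - a ^ 2 : ℂ) = 0
  · have hsq : a ^ 2 = 1 := by linear_combination -ha
    have hne : (2 * a : ℂ) ≠ 0 := fun h0 => by
      have : a = 0 := by linear_combination h0 / 2
      rw [this] at hsq; norm_num at hsq
    refine smul_right_injective _ hne ?_
    simp only [smul_zero, smul_sub, h1, smul_smul]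
    rw [← sub_smul, show 1 + a ^ 2 - 2 * a * a = 0 by linear_combination ha, zero_smul]
  · have : n = 0 := (smul_eq_zero.1 h3).resolve_left (pow_ne_zero _ ha)
    simp [this]

/-- A generalised `U_q`-eigenvector for `a` with `a² ≠ q` is an eigenvector. -/
theorem heckeHom_eq_smul_of_gen [NeZero L] (hq0 : q ∣ L0) (hqB : q ∉ B) {a : ℂ}
    (ha : a ^ 2 ≠ (q : ℂ)) (hqL : ¬ q ∣ L) {x : Additive (Gamma0 (L * q)) →+ ℂ}
    (hx : x ∈ newEigenHoms L0 c (L * q) B) (k : ℕ)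
    (h : (shiftOp (heckeHom (N := L * q) ℂ ℂ hq) a ^ k) x = 0) :
    heckeHom ℂ ℂ hq x = a • x := by
  set S := shiftOp (heckeHom (N := L * q) ℂ ℂ hq) a
  suffices hstep : ∀ y ∈ newEigenHoms L0 c (L * q) B, S (S y) = 0 → S y = 0 by
    have hmem : ∀ y ∈ newEigenHoms L0 c (L * q) B, S y ∈ newEigenHoms L0 c (L * q) B := fun y hy =>
      sub_mem (heckeHom_mem_newEigenHoms hq hy) (Submodule.smul_mem _ _ hy)
    have key : ∀ j, ∀ y ∈ newEigenHoms L0 c (L * q) B, (S ^ j) y = 0 → S y = 0 := by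
      intro j
      induction j with
      | zero => intro y _ hy; rw [show y = 0 from hy, map_zero]
      | succ j ih =>
        intro y hy hj
        rw [pow_succ, Module.End.mul_apply] at hj
        exact hstep y hy (ih _ (hmem y hy) hj)
    have := key k x hx h
    exact sub_eq_zero.1 this
  intro y hy hyy
  -- write `y` as old plus killed
  obtain ⟨p, hp⟩ := (trPair_degPair_bijective hq hqL hq0 hqB).2 (trPair hq hqL hq0 hqB ⟨y, hy⟩)
  obtain ⟨ht, ht'⟩ := trPair_degPair hq hqL hq0 hqB p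
  rw [LinearMap.comp_apply] at hp
  rw [hp] at ht ht'
  change degTr L ℂ hq hqL y = _ at ht
  change degTr' L ℂ hq hqL y = _ at ht'
  obtain ⟨⟨φ, hφ⟩, ⟨ψ, hψ⟩⟩ := p
  set n := y - oldClass hq hqL φ ψ with hn
  have hn1 : degTr L ℂ hq hqL n = 0 := by rw [hn, map_sub, degTr_oldClass, ht, sub_self]
  have hn2 : degTr' L ℂ hq hqL n = 0 := by rw [hn, map_sub, degTr'_oldClass, ht', sub_self]
  have hyeq : y = oldClass hq hqL φ ψ + n := by rw [hn, add_sub_cancel]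
  rw [hyeq] at hyy ⊢
  set φ₁ := heckeHom ℂ ℂ hq φ + (q : ℂ) • ψ - a • φ with hφ₁
  set ψ₁ := -φ - a • ψ with hψ₁
  have hU : ∀ m, degTr L ℂ hq hqL m = 0 → degTr' L ℂ hq hqL m = 0 →
      degTr L ℂ hq hqL (S m) = 0 ∧ degTr' L ℂ hq hqL (S m) = 0 := fun m h1 h2 => by
    obtain ⟨e1, e2⟩ := degTr_heckeHom_eq_zero hq hqL h1 h2
    simp only [S, LinearMap.sub_apply, LinearMap.smul_apply, Module.End.one_apply, map_sub,
      degTr_smul, degTr'_smul, e1, e2, h1, h2, smul_zero, sub_zero, and_self]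
  have hS : S (oldClass hq hqL φ ψ + n) = oldClass hq hqL φ₁ ψ₁ + S n := by
    rw [map_add, shiftOp_oldClass]
  rw [hS, map_add, shiftOp_oldClass] at hyy
  have hφ₁mem : φ₁ ∈ parabolicHoms ℂ (Gamma0 L) ℂ :=
    sub_mem (add_mem (heckeHom_mem_parabolicHoms hq hφ.1) (Submodule.smul_mem _ _ hψ.1))
      (Submodule.smul_mem _ _ hφ.1)
  have hψ₁mem : ψ₁ ∈ parabolicHoms ℂ (Gamma0 L) ℂ :=
    sub_mem (neg_mem hφ.1) (Submodule.smul_mem _ _ hψ.1)
  obtain ⟨h1, h2⟩ := hU n hn1 hn2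
  obtain ⟨h11, h22⟩ := hU _ h1 h2
  obtain ⟨e1, e2, e3⟩ := oldClass_injective hq hqL
    (sub_mem (add_mem (heckeHom_mem_parabolicHoms hq hφ₁mem) (Submodule.smul_mem _ _ hψ₁mem))
      (Submodule.smul_mem _ _ hφ₁mem))
    (sub_mem (neg_mem hφ₁mem) (Submodule.smul_mem _ _ hψ₁mem)) h11 h22 hyy
  obtain ⟨f1, f2⟩ := old_shift_eq_zero hq ha hqL hφ.1 hψ.1 hφ₁ hψ₁ e1 e2
  rw [hS, f1, f2, shift_eq_zero_of_sq_eq_one hq (heckeHom_sq_of_degTr_eq_zero hq hqL n hn1 hn2) e3]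
  simp [oldClass]

/-- On a fine part whose eigenvalues `a` at `E` satisfy `a² ≠ p`, with each `p ∈ E` dividing the
level exactly once, the operators at `E` are scalars. -/
theorem fineEigenHoms_le_newEigenHoms [NeZero L] {E : Finset ℕ} {L0' : ℕ}
    (hE : ∀ p ∈ E, p.Prime → p ∣ L0 ∧ p ∉ B ∧ p ∣ L ∧ ¬ p ^ 2 ∣ L ∧ c p ^ 2 ≠ (p : ℂ))
    (hsub : ∀ ℓ : ℕ, ℓ.Prime → ¬ ℓ ∣ L0' → ¬ ℓ ∣ L0 ∨ ℓ ∈ E) :
    fineEigenHoms L0 c E L B ≤ newEigenHoms L0' c L B := by
  intro φ hφ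
  obtain ⟨hnew, hgen⟩ := mem_fineEigenHoms_iff.1 hφ
  refine ⟨hnew.1, fun ℓ hℓ hℓL => ?_, hnew.2.2⟩
  rcases hsub ℓ hℓ hℓL with h | h
  · exact hnew.2.1 ℓ hℓ h
  · obtain ⟨hp0, hpB, hpL, hp2, ha⟩ := hE ℓ h hℓ
    obtain ⟨k, hk⟩ := hgen ℓ hℓ h
    obtain ⟨L₁, rfl⟩ : ∃ L₁, L = L₁ * ℓ := ⟨L / ℓ, (Nat.div_mul_cancel hpL).symm⟩
    have : NeZero L₁ := ⟨left_ne_zero_of_mul (NeZero.ne (L₁ * ℓ))⟩
    exact heckeHom_eq_smul_of_gen hℓ hp0 hpB ha
      (fun hd => hp2 (by rw [sq]; exact mul_dvd_mul_right hd ℓ)) hnew k hk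

end Fermat.Agent.TwoAdic.Count

end
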