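import Fermat.Agent.TwoAdic.Count.Decompose
import Mathlib.Data.Finset.Powerset
import Mathlib.Algebra.BigOperators.Ring.Finset

/-!
# The alternating formula for the new part

`dim(level L ∏Q, new at B ∪ Q) = ∑_{A ⊆ Q} (-2)^{|Q \ A|} dim(level L ∏A, new at B)`.
-/

set_option autoImplicit false

noncomputable section

open CongruenceSubgroup ModularCurve ModularCurve.Period Module
open scoped MatrixGroups

namespace Fermat.Agent.TwoAdic.Count

variable {L0 : ℕ} {c : ℕ → ℂ}

/-- The dimension of an eigen part. -/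
def newRank (L0 : ℕ) (c : ℕ → ℂ) (L : ℕ) (B : Finset ℕ) : ℕ :=
  finrank ℂ (newEigenHoms L0 c L B)

theorem newRank_mul_prime {L q : ℕ} [NeZero L] {B : Finset ℕ} (hq : q.Prime) (hqL : ¬ q ∣ L)
    (hq0 : q ∣ L0) (hqB : q ∉ B) :
    newRank L0 c (L * q) B = newRank L0 c (L * q) (insert q B) + 2 * newRank L0 c L B :=
  finrank_newEigenHoms_mul_prime hq hq0 hqB hqL

/-- A function of a level and a set of new primes which splits off two copies at each prime
satisfies the alternating formula. -/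
theorem alternating_of_step (P : ℕ → Prop) (R : ℕ → Finset ℕ → ℤ)
    (step : ∀ (L q : ℕ) [NeZero L] (B : Finset ℕ), q.Prime → ¬ q ∣ L → P q → q ∉ B →
      R (L * q) B = R (L * q) (insert q B) + 2 * R L B)
    (Q : Finset ℕ) : ∀ (L : ℕ) [NeZero L] (B : Finset ℕ),
    (∀ q ∈ Q, q.Prime ∧ ¬ q ∣ L ∧ P q ∧ q ∉ B) →
      R (L * ∏ q ∈ Q, q) (B ∪ Q) =
        ∑ A ∈ Q.powerset, (-2 : ℤ) ^ (Q \ A).card * R (L * ∏ q ∈ A, q) B := by
  classical
  induction Q using Finset.induction_on with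
  | empty => intro L _ B _; simp
  | @insert q Q hqQ ih =>
    intro L _ B hQ
    obtain ⟨hq, hqL, hq0, hqB⟩ := hQ q (Finset.mem_insert_self q Q)
    have : NeZero q := ⟨hq.ne_zero⟩
    have hQ' : ∀ p ∈ Q, p.Prime ∧ ¬ p ∣ L * q ∧ P p ∧ p ∉ insert q B := by
      intro p hp
      obtain ⟨hp', hpL, hp0, hpB⟩ := hQ p (Finset.mem_insert_of_mem hp)
      have hpq : p ≠ q := fun h => hqQ (h ▸ hp)
      refine ⟨hp', fun h => ?_, hp0, by simp [hpq, hpB]⟩
      rcases hp'.dvd_mul.1 h with h | h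
      · exact hpL h
      · exact hpq ((Nat.prime_dvd_prime_iff_eq hp' hq).1 h)
    have key := ih (L * q) (insert q B) hQ'
    rw [Finset.prod_insert hqQ, ← mul_assoc,
      show B ∪ insert q Q = insert q B ∪ Q by rw [Finset.insert_union, Finset.union_insert]]
    rw [key, Finset.sum_powerset_insert hqQ, ← Finset.sum_add_distrib]
    refine Finset.sum_congr rfl fun A hA => ?_
    rw [Finset.mem_powerset] at hA
    have hqA : q ∉ A := fun h => hqQ (hA h)
    have hqprod : ¬ q ∣ ∏ p ∈ A, p := by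
      rw [hq.prime.dvd_finsetProd_iff]
      rintro ⟨p, hp, hdvd⟩
      exact hqA ((Nat.prime_dvd_prime_iff_eq hq (hQ p (Finset.mem_insert_of_mem (hA hp))).1).1 hdvd ▸ hp)
    have : NeZero (∏ p ∈ A, p) := ⟨Finset.prod_ne_zero_iff.2 fun p hp =>
      (hQ p (Finset.mem_insert_of_mem (hA hp))).1.ne_zero⟩
    have hdec := step (L * ∏ p ∈ A, p) q B hq
      (fun h => (hq.dvd_mul.1 h).elim hqL hqprod) hq0 hqB
    have h1 : (insert q Q \ A) = insert q (Q \ A) := Finset.insert_sdiff_of_notMem _ hqA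
    have h2 : (insert q Q \ insert q A) = Q \ A := by
      ext p; simp only [Finset.mem_sdiff, Finset.mem_insert]
      constructor
      · rintro ⟨h | h, h'⟩
        · exact absurd (Or.inl h) h'
        · exact ⟨h, fun hh => h' (Or.inr hh)⟩
      · rintro ⟨h, h'⟩
        exact ⟨Or.inr h, fun hh => hh.elim (fun e => hqQ (e ▸ h)) h'⟩
    rw [h1, h2, Finset.card_insert_of_notMem (fun h => hqQ (Finset.mem_sdiff.1 h).1),
      Finset.prod_insert hqA, show L * (q * ∏ p ∈ A, p) = L * (∏ p ∈ A, p) * q by ring,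
      show L * q * ∏ p ∈ A, p = L * (∏ p ∈ A, p) * q by ring, hdec, pow_succ]
    ring

theorem newRank_alternating (Q : Finset ℕ) (L : ℕ) [NeZero L] (B : Finset ℕ)
    (hQ : ∀ q ∈ Q, q.Prime ∧ ¬ q ∣ L ∧ q ∣ L0 ∧ q ∉ B) :
    (newRank L0 c (L * ∏ q ∈ Q, q) (B ∪ Q) : ℤ) =
      ∑ A ∈ Q.powerset, (-2 : ℤ) ^ (Q \ A).card * newRank L0 c (L * ∏ q ∈ A, q) B :=
  alternating_of_step (· ∣ L0) (fun L B => (newRank L0 c L B : ℤ))
    (fun L q _ B hq hqL hq0 hqB => by
      exact_mod_cast newRank_mul_prime hq hqL hq0 hqB) Q L B hQ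

/-- If nothing at level `L * r` is new at `r`, its eigen part is two copies of that of level `L`. -/
theorem newRank_mul_eq_two_mul {L r : ℕ} [NeZero L] {B : Finset ℕ} (hr : r.Prime) (hrL : ¬ r ∣ L)
    (hr0 : r ∣ L0) (hrB : r ∉ B) (h : newEigenHoms L0 c (L * r) (insert r B) = ⊥) :
    newRank L0 c (L * r) B = 2 * newRank L0 c L B := by
  rw [newRank_mul_prime hr hrL hr0 hrB, show newRank L0 c (L * r) (insert r B) = 0 by
    rw [newRank, h, finrank_bot], zero_add]

/-- If nothing occurs at level `L`, everything at level `L * q` is new at `q`. -/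
theorem newRank_mul_eq_new {L q : ℕ} [NeZero L] {B : Finset ℕ} (hq : q.Prime) (hqL : ¬ q ∣ L)
    (hq0 : q ∣ L0) (hqB : q ∉ B) (h : newEigenHoms L0 c L B = ⊥) :
    newRank L0 c (L * q) B = newRank L0 c (L * q) (insert q B) := by
  rw [newRank_mul_prime hq hqL hq0 hqB, show newRank L0 c L B = 0 by
    rw [newRank, h, finrank_bot], mul_zero, add_zero]

end Fermat.Agent.TwoAdic.Count

end
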