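import Fermat.Agent.TwoAdic.Count.NewEigen
import Fermat.Agent.Hecke.GoodSemisimple
import Fermat.Prelude.Def_FLTPrelim_ModularRep
import Mathlib.LinearAlgebra.Eigenspace.Pi
import Mathlib.LinearAlgebra.Eigenspace.Semisimple
import Mathlib.LinearAlgebra.Eigenspace.Triangularizable

/-!
# Multiplicity one: the everywhere-new part is counted by normalised eigenforms

With `U_q ^ 2 = 1` at all `q ∣ L`, every `T_ℓ`, `U_q` is semisimple on the eigen part, so it has a
basis of normalised eigenforms.
-/

set_option autoImplicit false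

noncomputable section

open CongruenceSubgroup ModularCurve ModularCurve.Period Module ModularFormClass
open Fermat.Agent.Periods
open scoped MatrixGroups

namespace Fermat.Agent.TwoAdic.Count

variable {L : ℕ} [NeZero L]

local notation "S₂" => CuspForm (Gamma0 L) 2

theorem primeOp_commute {p q : ℕ} (hp : p.Prime) (hq : q.Prime) :
    Commute (primeOp L p hp) (primeOp L q hq) := by
  refine LinearMap.ext fun f => ?_
  have h := heckeHom_comm (R := ℂ) hp hq (periodHomPair L (f, f))
  rw [heckeHom_periodHomPair hq, heckeHom_periodHomPair hp, heckeHom_periodHomPair hp,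
    heckeHom_periodHomPair hq, (periodHomPair_injective L).eq_iff] at h
  exact congrArg Prod.fst h

/-- The normalised eigenforms of level `L` with the prescribed good coefficients and with
`a_q ^ 2 = 1` at the primes of `B`. -/
def eigenSetOn (L0 : ℕ) (c : ℕ → ℂ) (L : ℕ) (B : Finset ℕ) : Set (CuspForm (Gamma0 L) 2) :=
  {f | f.IsNormalizedEigenform ∧ (∀ ℓ : ℕ, ℓ.Prime → ¬ ℓ ∣ L0 → qCoeff f ℓ = c ℓ) ∧
    ∀ q ∈ B, q.Prime → qCoeff f q ^ 2 = 1}

/-- The normalised eigenforms of level `L` with the prescribed good coefficients and new at every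
prime of the level. -/
def eigenSet (L0 : ℕ) (c : ℕ → ℂ) (L : ℕ) : Set (CuspForm (Gamma0 L) 2) :=
  {f | f.IsNormalizedEigenform ∧ (∀ ℓ : ℕ, ℓ.Prime → ¬ ℓ ∣ L0 → qCoeff f ℓ = c ℓ) ∧
    ∀ q ∈ L.primeFactors, qCoeff f q ^ 2 = 1}

omit [NeZero L] in
theorem eigenSet_eq_eigenSetOn {L0 : ℕ} {c : ℕ → ℂ} :
    eigenSet L0 c L = eigenSetOn L0 c L L.primeFactors :=
  Set.ext fun _ => and_congr_right fun _ => and_congr_right fun _ =>
    ⟨fun h q hq _ => h q hq, fun h q hq => h q hq (Nat.mem_primeFactors.1 hq).1⟩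

theorem primeOp_eq_smul {f : S₂} {c : ℕ → ℂ} (hf : IsEigen f c) (p : ℕ) (hp : p.Prime) :
    primeOp L p hp f = c p • f := by
  by_cases h : p ∣ L
  · rw [primeOp, dif_pos h]; exact hf.2 p h hp
  · rw [primeOp, dif_neg h]; exact hf.1 p hp h

variable {L0 : ℕ} {c : ℕ → ℂ} {B : Finset ℕ}

theorem eigenSetOn_subset_newEigenForms :
    eigenSetOn L0 c L B ⊆ (newEigenForms L0 c L B : Set S₂) := by
  rintro f ⟨hf, hgood, hnew⟩
  have he := isEigen_of_isNormalizedEigenform hf
  refine ⟨fun ℓ hℓ hL => by rw [primeOp_eq_smul he, hgood ℓ hℓ hL], fun q hq hqp => ?_⟩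
  rw [primeOp_eq_smul he, map_smul, primeOp_eq_smul he, smul_smul, ← sq, hnew q hq hqp, one_smul]

theorem linearIndepOn_eigenSetOn : LinearIndepOn ℂ id (eigenSetOn L0 c L B) := by
  let χ : eigenSetOn L0 c L B → (Nat.Primes → ℂ) := fun f p => qCoeff (f : S₂) p
  have hχ : Function.Injective χ := by
    intro f g h
    have hf := isEigen_of_isNormalizedEigenform f.2.1
    have hg := isEigen_of_isNormalizedEigenform g.2.1
    have hg' : IsEigen (g : S₂) (fun p => qCoeff (f : S₂) p) := by
      refine ⟨fun p hp hpN => ?_, fun p hpN hp => ?_⟩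
      · exact (hg.1 p hp hpN).trans (congrArg (· • (g : S₂)) (congrFun h ⟨p, hp⟩).symm)
      · exact (hg.2 p hpN hp).trans (congrArg (· • (g : S₂)) (congrFun h ⟨p, hp⟩).symm)
    have := hf.eq_smul hg' f.2.1.qCoeff_one
    rw [g.2.1.qCoeff_one, one_smul] at this
    exact Subtype.ext this.symm
  have hind : iSupIndep fun f : eigenSetOn L0 c L B =>
      ⨅ p : Nat.Primes, Module.End.maxGenEigenspace (primeOp L p p.2) (χ f p) :=
    (Module.End.independent_iInf_maxGenEigenspace_of_forall_mapsTo
      (fun p : Nat.Primes => primeOp L p p.2)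
      fun p q μ => Module.End.mapsTo_maxGenEigenspace_of_comm
        (primeOp_commute q.2 p.2) μ).comp hχ
  refine hind.linearIndependent _ (fun f => Submodule.mem_iInf _ |>.2 fun p => ?_) fun f => f.2.1.ne_zero
  exact (Module.End.mem_maxGenEigenspace _ _ _).2 ⟨1, by
    rw [pow_one, LinearMap.sub_apply, LinearMap.smul_apply, Module.End.one_apply, sub_eq_zero]
    exact primeOp_eq_smul (isEigen_of_isNormalizedEigenform f.2.1) p p.2⟩

theorem span_eigenSetOn (hB : ∀ q : ℕ, q.Prime → q ∣ L → q ∈ B ∨ ¬ q ∣ L0) :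
    Submodule.span ℂ (eigenSetOn L0 c L B) = newEigenForms L0 c L B := by
  refine le_antisymm (Submodule.span_le.2 eigenSetOn_subset_newEigenForms) fun f hf => ?_
  set V := newEigenForms L0 c L B
  have hmem : ∀ (p : ℕ) (hp : p.Prime), ∀ g ∈ V, primeOp L p hp g ∈ V := fun p hp g hg => by
    refine ⟨fun ℓ hℓ h => ?_, fun q hqB hq => ?_⟩
    · rw [← Module.End.mul_apply, (primeOp_commute hℓ hp).eq, Module.End.mul_apply, hg.1 ℓ hℓ h,
        map_smul]
    · have := LinearMap.congr_fun (primeOp_commute (L := L) hq hp).eq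
      simp only [Module.End.mul_apply] at this
      rw [this, this, hg.2 q hqB hq]
  let Op : Nat.Primes → Module.End ℂ V := fun p => (primeOp L p p.2).restrict (hmem p p.2)
  have := finite_cuspForm_two L
  have hcomm : Pairwise fun p q => Commute (Op p) (Op q) := fun p q _ =>
    LinearMap.ext fun g => Subtype.ext (LinearMap.congr_fun (primeOp_commute p.2 q.2).eq (g : S₂))
  have hss : ∀ p, (Op p).IsSemisimple := by
    intro p
    by_cases hp : (p : ℕ) ∣ L
    · rcases hB p p.2 hp with hpB | hp0
      · refine Module.End.isSemisimple_of_squarefree_aeval_eq_zero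
          (p := Polynomial.X ^ 2 - Polynomial.C (1 : ℂ))
          ((Polynomial.separable_X_pow_sub_C (1 : ℂ) two_ne_zero one_ne_zero).squarefree) ?_
        refine LinearMap.ext fun g => Subtype.ext ?_
        rw [map_sub, map_pow, Polynomial.aeval_X, Polynomial.aeval_C, map_one, LinearMap.sub_apply,
          Module.End.one_apply, LinearMap.zero_apply, sq, Module.End.mul_apply]
        rw [Submodule.coe_sub, Submodule.coe_zero, sub_eq_zero]
        exact g.2.2 p hpB p.2
      · refine Module.End.isSemisimple_of_squarefree_aeval_eq_zero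
          (p := Polynomial.X - Polynomial.C (c p)) (Polynomial.irreducible_X_sub_C (c p)).squarefree ?_
        refine LinearMap.ext fun g => Subtype.ext ?_
        rw [map_sub, Polynomial.aeval_X, Polynomial.aeval_C, LinearMap.sub_apply,
          LinearMap.zero_apply, Submodule.coe_sub, Submodule.coe_zero, sub_eq_zero]
        exact g.2.1 p p.2 hp0
    · refine Module.End.IsSemisimple.restrict _ ?_
      rw [primeOp, dif_neg hp]
      exact Hecke.isSemisimple_heckeTLin p.2 hp
  have htop := Module.End.iSup_iInf_maxGenEigenspace_eq_top_of_iSup_maxGenEigenspace_eq_top_of_commute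
    Op hcomm fun p => Module.End.iSup_maxGenEigenspace_eq_top _
  suffices ⊤ ≤ (Submodule.span ℂ (eigenSetOn L0 c L B)).comap V.subtype from
    this (Submodule.mem_top (x := (⟨f, hf⟩ : V)))
  rw [← htop]
  refine iSup_le fun χ g hg => ?_
  rw [Submodule.mem_comap]
  show (g : S₂) ∈ _
  by_cases hg0 : (g : S₂) = 0
  · rw [hg0]; exact zero_mem _
  rw [Submodule.mem_iInf] at hg
  have hχ : ∀ p : Nat.Primes, primeOp L p p.2 (g : S₂) = χ p • (g : S₂) := fun p => by
    have := hg p
    rw [(Module.End.isFinitelySemisimple_iff_isSemisimple.2 (hss p)).maxGenEigenspace_eq_eigenspace,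
      Module.End.mem_eigenspace_iff] at this
    exact congrArg Subtype.val this
  let d : ℕ → ℂ := fun n => if h : n.Prime then χ ⟨n, h⟩ else 0
  have hd : ∀ (n : ℕ) (hn : n.Prime), primeOp L n hn (g : S₂) = d n • (g : S₂) := fun n hn => by
    simp only [d, dif_pos hn]; exact hχ ⟨n, hn⟩
  have heig : IsEigen (g : S₂) d := by
    refine ⟨fun p hp hpN => ?_, fun p hpN hp => ?_⟩
    · have := hd p hp; rwa [primeOp, dif_neg hpN] at this
    · have := hd p hp; rwa [primeOp, dif_pos hpN] at this
  have h1 := heig.qCoeff_one_ne_zero hg0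
  set h := (qCoeff (g : S₂) 1)⁻¹ • (g : S₂)
  have hh1 : qCoeff (⇑h) 1 = 1 := by rw [qCoeff_smul, inv_mul_cancel₀ h1]
  have hheig : IsEigen h d :=
    ⟨fun p hp hpN => by rw [map_smul, heig.1 p hp hpN, smul_comm],
      fun p hpN hp => by rw [map_smul, heig.2 p hpN hp, smul_comm]⟩
  have hhV : h ∈ V := V.smul_mem _ g.2
  have hne : h ≠ 0 := (hheig.isNormalizedEigenform hh1).ne_zero
  have hset : h ∈ eigenSetOn L0 c L B := by
    refine ⟨hheig.isNormalizedEigenform hh1, fun ℓ hℓ hl => ?_, fun q hq hq' => ?_⟩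
    · rw [hheig.qCoeff_prime hh1 hℓ]
      refine smul_left_injective ℂ hne ?_
      show d ℓ • h = c ℓ • h
      rw [← hhV.1 ℓ hℓ hl, primeOp_eq_smul hheig]
    · rw [hheig.qCoeff_prime hh1 hq']
      refine smul_left_injective ℂ hne ?_
      show d q ^ 2 • h = (1 : ℂ) • h
      have := hhV.2 q hq hq'
      rw [primeOp_eq_smul hheig, map_smul, primeOp_eq_smul hheig, smul_smul] at this
      rw [one_smul, sq, this]
  have : (g : S₂) = qCoeff (g : S₂) 1 • h := by
    rw [smul_smul, mul_inv_cancel₀ h1, one_smul]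
  rw [this]
  exact Submodule.smul_mem _ _ (Submodule.subset_span hset)

theorem finite_eigenSetOn : (eigenSetOn L0 c L B).Finite := by
  have := finite_cuspForm_two L
  exact (linearIndepOn_eigenSetOn (L0 := L0) (c := c) (L := L)).setFinite

/-- Multiplicity one. -/
theorem finrank_newEigenForms_eq_card_on (hB : ∀ q : ℕ, q.Prime → q ∣ L → q ∈ B ∨ ¬ q ∣ L0) :
    finrank ℂ (newEigenForms L0 c L B) = (eigenSetOn L0 c L B).ncard := by
  have := (finite_eigenSetOn (L0 := L0) (c := c) (L := L) (B := B)).fintype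
  rw [← span_eigenSetOn hB, finrank_span_set_eq_card linearIndepOn_eigenSetOn,
    Set.ncard_eq_toFinset_card']

/-- Every eigenform which is new at every prime of the level gives exactly two classes. -/
theorem finrank_newEigenHoms_eq_card_on (hB : ∀ q : ℕ, q.Prime → q ∣ L → q ∈ B ∨ ¬ q ∣ L0) :
    finrank ℂ (newEigenHoms L0 c L B) = 2 * (eigenSetOn L0 c L B).ncard := by
  rw [finrank_newEigenHoms_eq_two_mul, finrank_newEigenForms_eq_card_on hB]

theorem finite_eigenSet : (eigenSet L0 c L).Finite := by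
  rw [eigenSet_eq_eigenSetOn]; exact finite_eigenSetOn

theorem linearIndepOn_eigenSet : LinearIndepOn ℂ id (eigenSet L0 c L) := by
  rw [eigenSet_eq_eigenSetOn]; exact linearIndepOn_eigenSetOn

theorem span_eigenSet :
    Submodule.span ℂ (eigenSet L0 c L) = newEigenForms L0 c L L.primeFactors := by
  rw [eigenSet_eq_eigenSetOn]
  exact span_eigenSetOn fun q hq hqL => Or.inl (Nat.mem_primeFactors.2 ⟨hq, hqL, NeZero.ne L⟩)

/-- Multiplicity one. -/
theorem finrank_newEigenForms_eq_card :
    finrank ℂ (newEigenForms L0 c L L.primeFactors) = (eigenSet L0 c L).ncard := by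
  rw [eigenSet_eq_eigenSetOn]
  exact finrank_newEigenForms_eq_card_on fun q hq hqL =>
    Or.inl (Nat.mem_primeFactors.2 ⟨hq, hqL, NeZero.ne L⟩)

/-- Every eigenform which is new at every prime of the level gives exactly two classes. -/
theorem finrank_newEigenHoms_eq_card :
    finrank ℂ (newEigenHoms L0 c L L.primeFactors) = 2 * (eigenSet L0 c L).ncard := by
  rw [finrank_newEigenHoms_eq_two_mul, finrank_newEigenForms_eq_card]

end Fermat.Agent.TwoAdic.Count

end
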