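import Fermat.Agent.Periods.Integral
import Fermat.Agent.Periods.HeckeComm
import Fermat.Agent.LevelRaise.Degeneracy
import Fermat.Agent.TwoAdic.Count.Bound

/-!
# Eigen classes with prescribed good eigenvalues which are new at prescribed primes

`c` gives the eigenvalues at the primes not dividing `L0`; at the primes of `B` we require
`U ^ 2 = 1`, which cuts out the part new there.
-/

set_option autoImplicit false

noncomputable section

open CongruenceSubgroup ModularCurve ModularCurve.Period Module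
open Fermat.Agent.Periods
open scoped MatrixGroups

namespace Fermat.Agent.TwoAdic.Count

/-- Parabolic classes of level `L` with eigenvalue `c ℓ` at every prime `ℓ ∤ L0` and with
`U_q ^ 2 = 1` at every prime `q ∈ B`. -/
def newEigenHoms (L0 : ℕ) (c : ℕ → ℂ) (L : ℕ) (B : Finset ℕ) :
    Submodule ℂ (Additive (Gamma0 L) →+ ℂ) where
  carrier := {φ | φ ∈ parabolicHoms ℂ (Gamma0 L) ℂ ∧
    (∀ (ℓ : ℕ) (hℓ : ℓ.Prime), ¬ ℓ ∣ L0 → heckeHom ℂ ℂ hℓ φ = c ℓ • φ) ∧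
    ∀ q ∈ B, ∀ hq : q.Prime, heckeHom ℂ ℂ hq (heckeHom ℂ ℂ hq φ) = φ}
  zero_mem' := ⟨zero_mem _, fun ℓ hℓ _ => by simp, fun q _ hq => by simp⟩
  add_mem' := fun ha hb => ⟨add_mem ha.1 hb.1,
    fun ℓ hℓ h => by rw [map_add, ha.2.1 ℓ hℓ h, hb.2.1 ℓ hℓ h, smul_add],
    fun q hqB hq => by rw [map_add, map_add, ha.2.2 q hqB hq, hb.2.2 q hqB hq]⟩
  smul_mem' := fun z φ hφ => ⟨Submodule.smul_mem _ z hφ.1,
    fun ℓ hℓ h => by rw [map_smul, hφ.2.1 ℓ hℓ h, smul_comm],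
    fun q hqB hq => by rw [map_smul, map_smul, hφ.2.2 q hqB hq]⟩

/-- `T_p` or `U_p` at a prime `p`. -/
def primeOp (L : ℕ) [NeZero L] (p : ℕ) (hp : p.Prime) : Module.End ℂ (CuspForm (Gamma0 L) 2) :=
  if h : p ∣ L then CuspForm.heckeULin 2 h else CuspForm.heckeTLin 2 hp h

/-- The forms of level `L` with eigenvalue `c ℓ` at every prime `ℓ ∤ L0` and with `U_q ^ 2 = 1` at
every prime `q ∈ B`. -/
def newEigenForms (L0 : ℕ) (c : ℕ → ℂ) (L : ℕ) [NeZero L] (B : Finset ℕ) :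
    Submodule ℂ (CuspForm (Gamma0 L) 2) where
  carrier := {f | (∀ (ℓ : ℕ) (hℓ : ℓ.Prime), ¬ ℓ ∣ L0 → primeOp L ℓ hℓ f = c ℓ • f) ∧
    ∀ q ∈ B, ∀ hq : q.Prime, primeOp L q hq (primeOp L q hq f) = f}
  zero_mem' := ⟨fun ℓ hℓ _ => by simp, fun q _ hq => by simp⟩
  add_mem' := fun ha hb => ⟨fun ℓ hℓ h => by rw [map_add, ha.1 ℓ hℓ h, hb.1 ℓ hℓ h, smul_add],
    fun q hqB hq => by rw [map_add, map_add, ha.2 q hqB hq, hb.2 q hqB hq]⟩
  smul_mem' := fun z f hf => ⟨fun ℓ hℓ h => by rw [map_smul, hf.1 ℓ hℓ h, smul_comm],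
    fun q hqB hq => by rw [map_smul, map_smul, hf.2 q hqB hq]⟩

variable {L0 : ℕ} {c : ℕ → ℂ} {L : ℕ} {B : Finset ℕ}

theorem mem_newEigenHoms_iff {φ : Additive (Gamma0 L) →+ ℂ} :
    φ ∈ newEigenHoms L0 c L B ↔ φ ∈ parabolicHoms ℂ (Gamma0 L) ℂ ∧
      (∀ (ℓ : ℕ) (hℓ : ℓ.Prime), ¬ ℓ ∣ L0 → heckeHom ℂ ℂ hℓ φ = c ℓ • φ) ∧
      ∀ q ∈ B, ∀ hq : q.Prime, heckeHom ℂ ℂ hq (heckeHom ℂ ℂ hq φ) = φ :=
  Iff.rfl

theorem newEigenHoms_insert {q : ℕ} (hq : q.Prime) {φ : Additive (Gamma0 L) →+ ℂ} :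
    φ ∈ newEigenHoms L0 c L (insert q B) ↔
      φ ∈ newEigenHoms L0 c L B ∧ heckeHom ℂ ℂ hq (heckeHom ℂ ℂ hq φ) = φ := by
  simp only [mem_newEigenHoms_iff, Finset.forall_mem_insert]
  exact ⟨fun h => ⟨⟨h.1, h.2.1, h.2.2.2⟩, h.2.2.1 hq⟩,
    fun h => ⟨h.1.1, h.1.2.1, fun _ => h.2, h.1.2.2⟩⟩

theorem finite_newEigenHoms [NeZero L] : Module.Finite ℂ (newEigenHoms L0 c L B) := by
  have := finite_parabolicHoms_complex L
  exact Module.Finite.of_injective (Submodule.inclusion (fun φ hφ => hφ.1))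
    (Submodule.inclusion_injective _)

theorem heckeHom_mem_newEigenHoms {p : ℕ} (hp : p.Prime) {φ : Additive (Gamma0 L) →+ ℂ}
    (hφ : φ ∈ newEigenHoms L0 c L B) : heckeHom ℂ ℂ hp φ ∈ newEigenHoms L0 c L B :=
  ⟨heckeHom_mem_parabolicHoms hp hφ.1,
    fun ℓ hℓ h => by rw [heckeHom_comm hℓ hp, hφ.2.1 ℓ hℓ h, map_smul],
    fun q hqB hq => by rw [heckeHom_comm hq hp, heckeHom_comm hq hp, hφ.2.2 q hqB hq]⟩

theorem heckeHom_periodHomPair [NeZero L] {p : ℕ} (hp : p.Prime)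
    (f g : CuspForm (Gamma0 L) 2) :
    heckeHom ℂ ℂ hp (periodHomPair L (f, g)) =
      periodHomPair L (primeOp L p hp f, primeOp L p hp g) := by
  by_cases h : p ∣ L
  · rw [heckeHom_periodHomPair_U hp h, primeOp, dif_pos h]
  · rw [heckeHom_periodHomPair_T hp h, primeOp, dif_neg h]

theorem periodHomPair_mem_newEigenHoms_iff [NeZero L] {x : CuspForm (Gamma0 L) 2 × CuspForm (Gamma0 L) 2} :
    periodHomPair L x ∈ newEigenHoms L0 c L B ↔
      x.1 ∈ newEigenForms L0 c L B ∧ x.2 ∈ newEigenForms L0 c L B := by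
  have hmem : periodHomPair L x ∈ parabolicHoms ℂ (Gamma0 L) ℂ := by
    rw [← range_periodHomPair L]; exact LinearMap.mem_range_self _ x
  have h1 : ∀ (p : ℕ) (hp : p.Prime) (a : ℂ), heckeHom ℂ ℂ hp (periodHomPair L x) = a • periodHomPair L x ↔
      primeOp L p hp x.1 = a • x.1 ∧ primeOp L p hp x.2 = a • x.2 := fun p hp a => by
    rw [heckeHom_periodHomPair hp x.1 x.2, ← map_smul, (periodHomPair_injective L).eq_iff, Prod.ext_iff]
    rfl
  have h2 : ∀ (p : ℕ) (hp : p.Prime), heckeHom ℂ ℂ hp (heckeHom ℂ ℂ hp (periodHomPair L x)) = periodHomPair L x ↔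
      primeOp L p hp (primeOp L p hp x.1) = x.1 ∧ primeOp L p hp (primeOp L p hp x.2) = x.2 := fun p hp => by
    rw [heckeHom_periodHomPair hp x.1 x.2, heckeHom_periodHomPair hp, (periodHomPair_injective L).eq_iff,
      Prod.ext_iff]
  refine ⟨fun h => ⟨⟨fun ℓ hℓ hL => ((h1 ℓ hℓ _).1 (h.2.1 ℓ hℓ hL)).1, fun q hqB hq => ((h2 q hq).1 (h.2.2 q hqB hq)).1⟩,
    fun ℓ hℓ hL => ((h1 ℓ hℓ _).1 (h.2.1 ℓ hℓ hL)).2, fun q hqB hq => ((h2 q hq).1 (h.2.2 q hqB hq)).2⟩,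
    fun h => ⟨hmem, fun ℓ hℓ hL => (h1 ℓ hℓ _).2 ⟨h.1.1 ℓ hℓ hL, h.2.1 ℓ hℓ hL⟩,
      fun q hqB hq => (h2 q hq).2 ⟨h.1.2 q hqB hq, h.2.2 q hqB hq⟩⟩⟩

/-- Eichler–Shimura for the eigen parts: every form contributes exactly two classes. -/
theorem finrank_newEigenHoms_eq_two_mul [NeZero L] :
    finrank ℂ (newEigenHoms L0 c L B) = 2 * finrank ℂ (newEigenForms L0 c L B) := by
  have := finite_cuspForm_two L
  let W := newEigenForms L0 c L B
  let F : (W × W) →ₗ[ℂ] newEigenHoms L0 c L B :=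
    ((periodHomPair L).comp (W.subtype.prodMap W.subtype)).codRestrict _ fun x =>
      periodHomPair_mem_newEigenHoms_iff.2 ⟨x.1.2, x.2.2⟩
  have hF : Function.Bijective F := by
    refine ⟨fun x y hxy => ?_, fun φ => ?_⟩
    · have := periodHomPair_injective L (congrArg Subtype.val hxy)
      exact Prod.ext (Subtype.ext (congrArg Prod.fst this)) (Subtype.ext (congrArg Prod.snd this))
    · obtain ⟨x, hx⟩ : (φ : Additive (Gamma0 L) →+ ℂ) ∈ LinearMap.range (periodHomPair L) := by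
        rw [range_periodHomPair L]; exact φ.2.1
      obtain ⟨h1, h2⟩ := periodHomPair_mem_newEigenHoms_iff.1 (hx ▸ φ.2)
      exact ⟨(⟨_, h1⟩, ⟨_, h2⟩), Subtype.ext hx⟩
  rw [← (LinearEquiv.ofBijective F hF).finrank_eq, Module.finrank_prod, two_mul]

/-- `T_q + a` is injective on parabolic classes when `|a| ≥ q + 1`. -/
theorem eq_zero_of_heckeHom_eq_smul [NeZero L] {q : ℕ} (hq : q.Prime) (hqL : ¬ q ∣ L) {a : ℂ}
    (ha : (q : ℝ) + 1 ≤ ‖a‖) {φ : Additive (Gamma0 L) →+ ℂ}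
    (hφ : φ ∈ parabolicHoms ℂ (Gamma0 L) ℂ) (h : heckeHom ℂ ℂ hq φ = a • φ) : φ = 0 := by
  obtain ⟨x, rfl⟩ : φ ∈ LinearMap.range (periodHomPair L) := by rwa [range_periodHomPair L]
  rw [heckeHom_periodHomPair_T hq hqL x.1 x.2, ← map_smul, (periodHomPair_injective L).eq_iff,
    Prod.ext_iff] at h
  have key : ∀ f : CuspForm (Gamma0 L) 2, CuspForm.heckeTLin 2 hq hqL f = a • f → f = 0 := by
    intro f hf
    by_contra hf0
    exact absurd (norm_eigenvalue_lt hq hqL hf0 hf) (not_lt.2 ha)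
  rw [show x = 0 from Prod.ext (key _ h.1) (key _ h.2), map_zero]

end Fermat.Agent.TwoAdic.Count

end
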